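/-
The levels without auxiliary primes.
-/
import Fermat.Agent.LevelLowering.FreeBase
import Fermat.Agent.LevelLowering.Scalar.FreyLevel
import Fermat.Agent.LevelLowering.Semistable.Base
import Fermat.Agent.LevelLowering.TWPointsExist
import Fermat.Agent.LoweringAtP.HeckeCompat.Modular
import Fermat.Agent.Raising.Coeff.Curve
import Fermat.Agent.Raising.Inputs

/-!
# A level without auxiliary primes in coordinates

The part of `Hom_cl(Γ₀(N), O)` at a residual system, in a basis, is an `OpLevel` whose eigensystems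
are unramified outside `N p`, unipotent at the primes dividing `N` once and flat at `p ∤ N`: this
is the Taylor–Wiles machinery with no auxiliary prime.  For the system of a curve residually
modular of level `N` the part is nonzero.
-/

noncomputable section

namespace Fermat.Agent.Raising.Modular

open scoped MatrixGroups IsMulCommutative
open CongruenceSubgroup IsLocalRing Polynomial Module Fermat.Agent.Grp Fermat.Agent.Ihara
  Fermat.Agent.LevelLowering

local notation "Qbar" => AlgebraicClosure ℚ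
local notation "GQ" => (AlgebraicClosure ℚ ≃ₐ[ℚ] AlgebraicClosure ℚ)

variable {O : Type} [CommRing O] [IsDomain O] [IsDiscreteValuationRing O]
  [IsAdicComplete (maximalIdeal O) O] [Finite (ResidueField O)] [CharZero O]
  {p : ℕ} [Fact p.Prime]

omit [IsDomain O] [IsDiscreteValuationRing O] [IsAdicComplete (maximalIdeal O) O]
  [Finite (ResidueField O)] [CharZero O] in
/-- The matrices of commuting operators on the fixed part of an idempotent, in a basis. -/
theorem exists_partMatrix {A V : Type} [CommRing A] [Algebra O A] [AddCommGroup V] [Module O V]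
    (ρ : A →ₐ[O] Module.End O V) (e : A) {d : ℕ} (v : Fin d → V) (hfix : ∀ i, ρ e (v i) = v i)
    (hbasis : ∀ x, ρ e x = x → ∃! b : Fin d → O, ∑ i, b i • v i = x) :
    ∃ Φ : A →ₐ[O] Matrix (Fin d) (Fin d) O, (∀ x j, ρ x (v j) = ∑ i, Φ x i j • v i) ∧
      ∀ x, Φ x = 0 ↔ ∀ w, ρ e w = w → ρ x w = 0 := by
  classical
  have hcomm : ∀ (x : A) w, ρ e w = w → ρ e (ρ x w) = ρ x w := fun x w hw => by
    rw [← Module.End.mul_apply, ← map_mul, mul_comm, map_mul, Module.End.mul_apply, hw]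
  have hstab : ∀ x j, ρ e (ρ x (v j)) = ρ x (v j) := fun x j => hcomm x _ (hfix j)
  choose B hB using fun x j => (hbasis _ (hstab x j)).exists
  have huniq : ∀ b b' : Fin d → O, ∑ i, b i • v i = ∑ i, b' i • v i → b = b' := fun b b' h =>
    (hbasis (∑ i, b' i • v i) (by rw [map_sum]; simp [hfix])).unique h rfl
  have key : ∀ x (M : Matrix (Fin d) (Fin d) O), (∀ j, ρ x (v j) = ∑ i, M i j • v i) →
      (Matrix.of fun i j => B x j i) = M := fun x M hM => Matrix.ext fun i j => by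
    rw [Matrix.of_apply]
    exact congrFun (huniq (B x j) (fun k => M k j) ((hB x j).trans (hM j))) i
  refine ⟨{ toFun := fun x => Matrix.of fun i j => B x j i
            map_one' := key 1 1 fun j => by simp [Matrix.one_apply]
            map_mul' := fun x y => key _ _ fun j => ?_
            map_zero' := key 0 0 fun j => by simp
            map_add' := fun x y => key _ _ fun j => by
              simp only [map_add, LinearMap.add_apply, ← hB, Matrix.add_apply, Matrix.of_apply,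
                add_smul, Finset.sum_add_distrib]
            commutes' := fun c => key _ _ fun j => by
              simp [Matrix.algebraMap_matrix_apply] },
    fun x j => (hB x j).symm, fun x => ⟨fun h0 w hw => ?_, fun h => ?_⟩⟩
  · rw [map_mul, Module.End.mul_apply, ← hB y j, map_sum]
    simp only [map_smul, ← hB x, Finset.smul_sum, smul_smul, Matrix.mul_apply, Matrix.of_apply,
      Finset.sum_smul]
    rw [Finset.sum_comm]
    exact Finset.sum_congr rfl fun i _ => Finset.sum_congr rfl fun k _ => by rw [mul_comm]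
  · obtain ⟨b, hb, -⟩ := hbasis w hw
    rw [← hb, map_sum]
    refine Finset.sum_eq_zero fun j _ => ?_
    rw [map_smul, ← hB x j]
    have : ∀ i, B x j i = 0 := fun i => congrFun (congrFun h0 i) j
    simp [this]
  · exact key x 0 fun j => by simp [h _ (hfix j)]

/-- The empty family of auxiliary primes. -/
abbrev noPrimes : Fin 0 → ℕ := fun _ => 0

/-- Without auxiliary primes there are no diamonds. -/
theorem subsingleton_diaGroup (p : ℕ) (lv : Fin 0 → ℕ) : Subsingleton (DiaGroup p lv) :=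
  ⟨fun _ _ => Multiplicative.toAdd.injective (funext fun i => Fin.elim0 i)⟩

/-- **A level without auxiliary primes.** -/
theorem exists_baseOpLevel (hp2 : p ≠ 2) (hp : (p : O) ∈ maximalIdeal O)
    {ρbar : ResidualGaloisRep (ResidueField O)} (habs : ρbar.IsAbsolutelyIrreducible)
    (N : ℕ) [NeZero N] (S : Finset ℕ) (hpS : p ∈ S) (hNS : ∀ l : ℕ, l.Prime → l ∣ N → l ∈ S)
    (c₀ : ℕ → O)
    (hbar : ∀ ℓ : ℕ, ℓ.Prime → ℓ ∉ S → ∀ A : ValuationSubring Qbar, A.LiesOverPrime ℓ →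
      ∀ σ : GQ, A.IsFrobeniusAt σ ℓ → LinearMap.charpoly (ρbar.ρ σ) =
        X ^ 2 - C (residue O (c₀ ℓ)) * X + C (ℓ : ResidueField O))
    {d : ℕ} (v : Fin d → clH O N)
    (hfix : ∀ i, (baseIdem O N (goodSet S) fun ℓ => residue O (c₀ ℓ)).1 (v i) = v i)
    (hbasis : ∀ x, (baseIdem O N (goodSet S) fun ℓ => residue O (c₀ ℓ)).1 x = x →
      ∃! b : Fin d → O, ∑ i, b i • v i = x)
    (Tm : ℕ → Matrix (Fin d) (Fin d) O)
    (hTm : ∀ (ℓ : goodSet S) j,
      baseGen O N (goodSet S) ℓ (v j) = ∑ i, Tm (ℓ.1 : ℕ) i j • v i) :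
    ∃ L : OpLevel O S c₀ O d, (∀ ℓ : ℕ, ℓ.Prime → ℓ ∉ S → L.Φ (L.x ℓ) = Tm ℓ) ∧
      (∀ a l, l.Prime → ¬ l ∣ N → l ≠ p → (L.ρ a).IsUnramifiedAt l) ∧
      (∀ a l, l.Prime → l ≠ p → l ∣ N → ¬ l ^ 2 ∣ N → (L.ρ a).IsUnipotentOnInertiaAt l) ∧
      (¬ p ∣ N → ∀ a, (L.ρ a).IsFlatAt p) := by
  classical
  let lv : Fin 0 → ℕ := noPrimes
  have := subsingleton_diaGroup p lv
  let Ψ : (ZMod N)ˣ →* DiaGroup p lv := 1
  have hΨ : Function.Surjective Ψ := fun x => ⟨1, Subsingleton.elim _ x⟩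
  have hmem : ∀ γ : SL(2, ℤ), γ ∈ Gamma0 N → γ ∈ GammaPsi Ψ := fun γ hγ =>
    (mem_GammaPsi Ψ ⟨γ, hγ⟩).mpr (Subsingleton.elim _ _)
  have hneg : (-1 : SL(2, ℤ)) ∈ GammaPsi Ψ := hmem _ (neg_one_mem_Gamma0 N)
  have h : IsTWLevel (q := noPrimes) (N := N) (fun i => Fin.elim0 i) (fun i => Fin.elim0 i) Ψ :=
    ⟨hp2, fun i => Fin.elim0 i, fun i => Fin.elim0 i, fun i => Fin.elim0 i, fun i => Fin.elim0 i,
      fun i => Fin.elim0 i⟩
  set a : Nat.Primes → ResidueField O := fun ℓ => residue O (c₀ ℓ) with ha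
  obtain ⟨κ, hκ, P, hP⟩ := exists_twPoints Ψ h hΨ hneg S hpS (fun i => Fin.elim0 i) hNS a hp habs
    (fun ℓ hℓ hℓS => hbar ℓ hℓ hℓS)
  -- the two lattices agree
  have hsnd : ∀ x : levelAlg O Ψ hΨ hneg (goodSet S), x.1.2 ∈ baseAlg O N (goodSet S) := fun x =>
    snd_mem_baseAlg O (goodSet S) Ψ hΨ hneg x.2
  have hres_inj : Function.Injective (resCl (GammaPsi_le Ψ) O O) := fun φ φ' hφ =>
    Subtype.ext (resHom_injective (GammaPsi_le Ψ) (mem_GammaPsi Ψ) (dChar_surjective Ψ hΨ)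
      (congrArg Subtype.val hφ))
  have hres_surj : Function.Surjective (resCl (GammaPsi_le Ψ) O O) := fun φ => by
    let g : Additive (Gamma0 N) →+ Additive (GammaPsi Ψ) :=
      (Subgroup.inclusion fun γ hγ => hmem γ hγ).toAdditive
    refine ⟨⟨φ.1.comp g, ?_⟩, Subtype.ext (AddMonoidHom.ext fun x => rfl)⟩
    exact isClHom_resHom (fun γ hγ => hmem γ hγ) φ.2
  have he2 := levelIdem_snd O (goodSet S) a Ψ hΨ hneg
  have hc := fun x : levelAlg O Ψ hΨ hneg (goodSet S) =>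
    (levelAlg_compat O Ψ hΨ hneg (goodSet S) x.2).1
  have hiff : ∀ x : levelAlg O Ψ hΨ hneg (goodSet S),
      (∀ w, (levelIdem O Ψ hΨ hneg (goodSet S) a).1.1 w = w → x.1.1 w = 0) ↔
        ∀ w, (levelIdem O Ψ hΨ hneg (goodSet S) a).1.2 w = w → x.1.2 w = 0 := by
    refine fun x => ⟨fun hx w hw => hres_inj ?_, fun hx w hw => ?_⟩
    · rw [map_zero, ← LinearMap.comp_apply, ← hc x, LinearMap.comp_apply]
      refine hx _ ?_
      rw [← LinearMap.comp_apply, hc, LinearMap.comp_apply, hw]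
    · obtain ⟨u, rfl⟩ := hres_surj w
      rw [← LinearMap.comp_apply, hc, LinearMap.comp_apply] at hw ⊢
      rw [hx u (hres_inj hw), map_zero]
  obtain ⟨Φ, hΦ, hΦ0⟩ := exists_partMatrix
    ((AlgHom.snd O _ _).comp (levelAlg O Ψ hΨ hneg (goodSet S)).val)
    (levelIdem O Ψ hΨ hneg (goodSet S) a) v
    (fun i => (LinearMap.congr_fun he2 _).trans (hfix i))
    (fun x hx => hbasis x ((LinearMap.congr_fun he2 x).symm.trans hx))
  let xfun : ℕ → levelAlg O Ψ hΨ hneg (goodSet S) := fun ℓ =>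
    if hℓ : ℓ.Prime ∧ ℓ ∉ S then twGood Ψ hΨ hneg S hNS ⟨ℓ, hℓ.1⟩ hℓ.2 else 0
  have hx : ∀ ℓ (hℓ : ℓ.Prime) (hℓS : ℓ ∉ S), xfun ℓ = twGood Ψ hΨ hneg S hNS ⟨ℓ, hℓ⟩ hℓS :=
    fun ℓ hℓ hℓS => dif_pos ⟨hℓ, hℓS⟩
  have hTmx : ∀ ℓ : ℕ, ℓ.Prime → ℓ ∉ S → Φ (xfun ℓ) = Tm ℓ := fun ℓ hℓ hℓS => by
    have : NeZero ℓ := ⟨hℓ.ne_zero⟩
    have h2 : ∀ w, (xfun ℓ).1.2 w = baseGen O N (goodSet S) ⟨⟨ℓ, hℓ⟩, hℓS⟩ w := fun w => by
      rw [hx ℓ hℓ hℓS]
      show (baseOp O N ℓ * 1 : Module.End O _) w = _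
      rw [mul_one]
      rfl
    ext i j
    refine congrFun ((hbasis ((xfun ℓ).1.2 (v j)) ?_).unique (y₁ := fun k => Φ (xfun ℓ) k j)
      (y₂ := fun k => Tm ℓ k j) (hΦ (xfun ℓ) j).symm ?_) i
    · rw [h2]
      exact Scalar.baseIdem_baseGen O N (goodSet S) a _ (hfix j)
    · rw [h2]
      exact (hTm ⟨⟨ℓ, hℓ⟩, hℓS⟩ j).symm
  refine ⟨{ A := levelAlg O Ψ hΨ hneg (goodSet S)
            Φ := Φ
            x := xfun
            κ := κ
            instFintype := hκ
            F := fun j => (P j).R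
            ev := fun j => (P j).ev
            ker_iff := fun z => (hΦ0 z).trans ((hiff z).symm.trans (hP z).symm)
            residual := fun j ℓ hℓ hℓS => by
              rw [← residue_eq_zero_iff, map_sub, sub_eq_zero, hx ℓ hℓ hℓS,
                residue_ev_twGood Ψ hΨ hneg S hNS a (P j).ev (P j).ev_idem ⟨ℓ, hℓ⟩ hℓS,
                ← ResidueField.map_residue]
            ρ := fun j => (P j).H.ρ
            frob := fun j ℓ hℓ hℓS A hA σ hσ => by
              rw [hx ℓ hℓ hℓS]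
              exact (P j).charpoly_frob ℓ hℓ hℓS A hA σ hσ },
    hTmx, fun j l hl hlN hlp => (P j).unramified l hl hlN hlp,
    fun j l hl hlp hlN hl2 => (P j).unipotent hpS hp hl hlp hlN hl2 fun i => Fin.elim0 i,
    fun hpN j => (P j).flat hpS hp hpN⟩

/-- The level `N` of a curve residually modular there, in coordinates with its eigensystems. -/
theorem exists_supplyBase (hp2 : p ≠ 2) (C : Coeff.CoeffRing p) {W : WeierstrassCurve ℤ}
    (hΔ : W.Δ ≠ 0) (hss : W.IsSemistableModel) (hirr : W.ModRepIsIrreducible p)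
    {N : ℕ} [NeZero N] (hmod : W.IsResiduallyModularOfLevel p N) :
    ∃ B : Semistable.SupplyBase C W N,
      (∀ a l, l.Prime → ¬ l ∣ N → l ≠ p → (B.L₀.ρ a).IsUnramifiedAt l) ∧
      (∀ a l, l.Prime → l ≠ p → l ∣ N → ¬ l ^ 2 ∣ N → (B.L₀.ρ a).IsUnipotentOnInertiaAt l) ∧
      (¬ p ∣ N → ∀ a, (B.L₀.ρ a).IsFlatAt p) := by
  have := Frey.isElliptic_mapRat hΔ
  obtain ⟨X⟩ := Semistable.exists_levelCoords C hp2 hΔ hirr hmod
  have hpC : (p : C.O) ∈ maximalIdeal C.O := by
    rw [C.maximalIdeal_eq]; exact Ideal.mem_span_singleton_self _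
  obtain ⟨L, hTm, h1, h2, h3⟩ := exists_baseOpLevel hp2 hpC
    (Coeff.curveRbar_facts C hΔ hp2 hss hirr).1 N (Semistable.levelBad p N W)
    (LoweringAtP.HeckeCompat.mem_badSet_self N p W)
    (fun l hl hd => LoweringAtP.HeckeCompat.mem_badSet_of_dvd hl hd) (Semistable.curveSys C W)
    (fun ℓ hℓ hℓS A hA σ hσ => by
      obtain ⟨hgood, -, hℓp⟩ := LoweringAtP.HeckeCompat.good_of_not_mem_badSet hΔ hℓ hℓS
      exact Coeff.charpoly_curveRbar_frobenius C hℓ hℓp hgood hA hσ)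
    X.v X.fix X.basis X.Tm X.Tm_spec
  exact ⟨⟨X.d, X.d_pos, X.Tm, L, hTm, X.v, X.fix, X.basis, X.Tm_spec⟩, h1, h2, h3⟩

end Fermat.Agent.Raising.Modular

end
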