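/-
Coordinates of the raised levels without auxiliary primes.
-/
import Fermat.Agent.LevelLowering.Semistable.Raise
import Fermat.Agent.Raising.Modular.Base
import Fermat.Agent.Raising.Supply

/-!
# The levels of a raising without auxiliary primes

All the levels of a raising have the same bad set, and each has coordinates with eigensystems
unramified outside the level and `p`: the bases of `RaiseSupply`.
-/

noncomputable section

namespace Fermat.Agent.Raising.Modular

open IsLocalRing WeierstrassCurve Fermat.Agent.LevelLowering Fermat.Agent.LevelLowering.Semistable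

variable {p : ℕ} [hp : Fact p.Prime] {C : Coeff.CoeffRing p} {W : WeierstrassCurve ℤ}
  [(W.map (Int.castRingHom ℚ)).IsElliptic]

/-- Beyond the last raised prime the level stays. -/
theorem raisedLevel_of_le (N₀ : ℕ) {m : ℕ} (P : Fin m → CurvePrime C W) {j : ℕ} (hj : m ≤ j) :
    raisedLevel N₀ P j = raisedLevel N₀ P m := by
  unfold raisedLevel
  congr 1
  refine Finset.prod_congr (Finset.filter_congr fun i _ => ?_) fun _ _ => rfl
  exact iff_of_true (lt_of_lt_of_le i.2 hj) i.2

/-- Raised primes being bad, every raised level has the bad set of the first one. -/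
theorem levelBad_raisedLevel (hΔ : W.Δ ≠ 0) (N₀ : ℕ) [NeZero N₀] {m : ℕ}
    (P : Fin m → CurvePrime C W) (hP : IsRaisingFor N₀ P) (j : ℕ) :
    levelBad p (raisedLevel N₀ P j) W = levelBad p N₀ W := by
  refine le_antisymm ?_ ?_
  · refine Finset.insert_subset_iff.2 ⟨Finset.mem_insert_self _ _, fun x hx => ?_⟩
    rcases Finset.mem_union.1 hx with hx | hx
    swap
    · exact Finset.mem_insert_of_mem (Finset.mem_union_right _ hx)
    obtain ⟨hxp, hxd, -⟩ := Nat.mem_primeFactors.1 hx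
    rcases hxp.dvd_mul.1 hxd with h | h
    · exact Finset.mem_insert_of_mem (Finset.mem_union_left _
        (Nat.mem_primeFactors.2 ⟨hxp, h, NeZero.ne N₀⟩))
    · obtain ⟨i, -, hi⟩ := (hxp.prime.dvd_finsetProd_iff _).1 h
      have hxi : x = (P i).q := (Nat.prime_dvd_prime_iff_eq hxp (P i).prime).1 hi
      exact hxi ▸ LoweringAtP.HeckeCompat.mem_badSet_of_bad hΔ (P i).prime (hP.bad i)
  · exact Finset.insert_subset_insert _ (Finset.union_subset_union
      (Nat.primeFactors_mono (dvd_mul_right N₀ _) (NeZero.ne _)) (Finset.Subset.refl _))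

/-- The bad set of every raised level is that of the raising. -/
theorem levelBad_raisedLevel_eq_raiseBad (hΔ : W.Δ ≠ 0) (N₀ : ℕ) [NeZero N₀] {m : ℕ}
    (P : Fin m → CurvePrime C W) (hP : IsRaisingFor N₀ P) (j : ℕ) :
    levelBad p (raisedLevel N₀ P j) W = raiseBad N₀ P :=
  (levelBad_raisedLevel hΔ N₀ P hP j).trans (levelBad_raisedLevel hΔ N₀ P hP m).symm

/-- A level of the raising is squarefree. -/
theorem squarefree_raisedLevel (N₀ : ℕ) {m : ℕ} (hN₀ : Squarefree N₀) (P : Fin m → CurvePrime C W)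
    (hP : IsRaisingFor N₀ P) (j : ℕ) : Squarefree (raisedLevel N₀ P j) := by
  refine (Nat.squarefree_mul ?_).2 ⟨hN₀, ?_⟩
  · exact Nat.Coprime.prod_right fun i _ =>
      ((P i).prime.coprime_iff_not_dvd.2 (hP.not_dvd i)).symm
  · generalize Finset.univ.filter (fun i : Fin m => (i : ℕ) < j) = s
    induction s using Finset.induction_on with
    | empty => simp
    | insert a s ha ih =>
      rw [Finset.prod_insert ha]
      refine (Nat.squarefree_mul ?_).2 ⟨(P a).prime.squarefree, ih⟩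
      exact Nat.Coprime.prod_right fun i hi => (Nat.coprime_primes (P a).prime (P i).prime).2
        fun e => ha (hP.inj e ▸ hi)

omit [(W.map (Int.castRingHom ℚ)).IsElliptic] in
/-- Transport along an equality of levels keeps the rank. -/
theorem supplyBase_d_congr {N N' : ℕ} [NeZero N] [NeZero N']
    (F : ∀ (n : ℕ) [NeZero n], N = n ∨ N' = n → SupplyBase C W n) (h : N = N') :
    (F N (Or.inl rfl)).d = (F N' (Or.inr rfl)).d := by
  subst h
  rfl

/-- **The bases of a raising.** -/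
theorem exists_raisingBase (hp2 : p ≠ 2) (hΔ : W.Δ ≠ 0) (hss : W.IsSemistableModel)
    (hirr : W.ModRepIsIrreducible p) {N₀ : ℕ} [NeZero N₀]
    (hmod : W.IsResiduallyModularOfLevel p N₀) {m : ℕ} (P : Fin m → CurvePrime C W) :
    ∃ B : ∀ j, SupplyBase C W (raisedLevel N₀ P j), IsRaisingBase P B ∧
      (∀ j ≤ m, ∀ (a : (B j).L₀.κ) (l : ℕ), l.Prime → l ≠ p → l ∣ raisedLevel N₀ P j →
        ¬ l ^ 2 ∣ raisedLevel N₀ P j → ((B j).L₀.ρ a).IsUnipotentOnInertiaAt l) ∧
      ∀ j ≤ m, ¬ p ∣ raisedLevel N₀ P j → ∀ a, ((B j).L₀.ρ a).IsFlatAt p := by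
  classical
  have key : ∀ (N : ℕ) [NeZero N], (∃ j, raisedLevel N₀ P j = N) →
      W.IsResiduallyModularOfLevel p N := fun N _ hN => by
    obtain ⟨j, rfl⟩ := hN
    exact Semistable.raise_of_dvd (dvd_mul_right N₀ _) (Nat.pos_of_ne_zero (NeZero.ne _)) hmod
  have hex : ∀ (N : ℕ) [NeZero N] (hN : ∃ j, raisedLevel N₀ P j = N),
      ∃ B : SupplyBase C W N,
        (∀ a l, l.Prime → ¬ l ∣ N → l ≠ p → (B.L₀.ρ a).IsUnramifiedAt l) ∧
        (∀ a l, l.Prime → l ≠ p → l ∣ N → ¬ l ^ 2 ∣ N → (B.L₀.ρ a).IsUnipotentOnInertiaAt l) ∧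
        (¬ p ∣ N → ∀ a, (B.L₀.ρ a).IsFlatAt p) := fun N _ hN =>
    exists_supplyBase hp2 C hΔ hss hirr (key N hN)
  let F : ∀ (N : ℕ) [NeZero N], (∃ j, raisedLevel N₀ P j = N) → SupplyBase C W N :=
    fun N _ hN => (hex N hN).choose
  refine ⟨fun j => F _ ⟨j, rfl⟩, ⟨fun j _ => ((hex _ ⟨j, rfl⟩).choose_spec).1, fun j hj => ?_⟩,
    fun j _ => ((hex _ ⟨j, rfl⟩).choose_spec).2.1, fun j _ => ((hex _ ⟨j, rfl⟩).choose_spec).2.2⟩
  exact supplyBase_d_congr
    (fun n _ hn => F n (hn.elim (fun e => ⟨j, e⟩) fun e => ⟨m, e⟩))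
    (raisedLevel_of_le N₀ P hj.le)

end Fermat.Agent.Raising.Modular

end
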