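/-
The bases of `RaiseSupply` and `LastSupply`.
-/
import Fermat.Agent.Raising.Modular.RaisingBase

/-!
# The bases of the raising of a minimal level

Coordinates of every raised level of a minimal level with an auxiliary prime, and of the last
level times `p`.
-/

noncomputable section

namespace Fermat.Agent.Raising.Modular

open IsLocalRing WeierstrassCurve Fermat.Agent.LevelLowering Fermat.Agent.LevelLowering.Semistable

variable {p : ℕ} [hp : Fact p.Prime] (C : Coeff.CoeffRing p) {W : WeierstrassCurve ℤ}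
  [(W.map (Int.castRingHom ℚ)).IsElliptic]

/-- **The bases of the raising of a minimal level.** -/
theorem exists_curveBases (hp2 : p ≠ 2) (hΔ : W.Δ ≠ 0) (hss : W.IsSemistableModel)
    (hirr : W.ModRepIsIrreducible p) {M t : ℕ} [NeZero (M * t)] (hmin : MinLevel p W M) {m : ℕ}
    (P : Fin m → CurvePrime C W) :
    ∃ B : ∀ j, SupplyBase C W (raisedLevel (M * t) P j), IsRaisingBase P B :=
  (exists_raisingBase hp2 hΔ hss hirr
    (Semistable.raise_of_dvd (dvd_mul_right M t) (Nat.pos_of_ne_zero (NeZero.ne _))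
      hmin.modular) P).imp
    fun _ h => h.1

/-- **The last level**: the top raised level times `p`. -/
theorem exists_curveBaseP (hp2 : p ≠ 2) (hΔ : W.Δ ≠ 0) (hss : W.IsSemistableModel)
    (hirr : W.ModRepIsIrreducible p) {M t : ℕ} [NeZero (M * t)] [NeZero p]
    (hmin : MinLevel p W M) {m : ℕ} (P : Fin m → CurvePrime C W) :
    ∃ Bp : SupplyBase C W (raisedLevel (M * t) P m * p),
      (∀ a l, l.Prime → ¬ l ∣ raisedLevel (M * t) P m * p → l ≠ p →
        (Bp.L₀.ρ a).IsUnramifiedAt l) ∧
      ∀ a l, l.Prime → l ≠ p → l ∣ raisedLevel (M * t) P m * p →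
        ¬ l ^ 2 ∣ raisedLevel (M * t) P m * p → (Bp.L₀.ρ a).IsUnipotentOnInertiaAt l :=
  (exists_supplyBase hp2 C hΔ hss hirr (Semistable.raise_of_dvd
    ((show M ∣ raisedLevel (M * t) P m from
      (dvd_mul_right M t).trans (dvd_mul_right (M * t) _)).mul_right p)
    (Nat.pos_of_ne_zero (NeZero.ne _)) hmin.modular)).imp fun _ h => ⟨h.1, h.2.1⟩

end Fermat.Agent.Raising.Modular

end
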