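/-
The residual system and the part it cuts at a Taylor–Wiles level.
-/
import Fermat.Agent.LevelLowering.TWPointsExist
import Fermat.Agent.Raising.Degen.Act

/-!
# The residual system of a raising step and its parts

`SysHyp` collects what the residual system needs.  The part cut by the good operators outside `S₀`
lies in the part cut by those outside a larger set (`idemSpan_mono`), and the operators outside any
set act on it through matrices over the diamond quotient (`exists_partActOn`).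
-/

noncomputable section

namespace Fermat.Agent.Raising.Modular

open scoped MatrixGroups IsMulCommutative
open CongruenceSubgroup IsLocalRing Polynomial Fermat.Agent.Grp Fermat.Agent.Ihara
  Fermat.Agent.LevelLowering

local notation "Qbar" => AlgebraicClosure ℚ
local notation "GQ" => (AlgebraicClosure ℚ ≃ₐ[ℚ] AlgebraicClosure ℚ)

variable {O : Type} [CommRing O] [IsDomain O] [IsDiscreteValuationRing O]
  [IsAdicComplete (maximalIdeal O) O] [Finite (ResidueField O)]

/-- The residual system of eigenvalues. -/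
def sysOf (c₀ : ℕ → O) : Nat.Primes → ResidueField O := fun ℓ => residue O (c₀ (ℓ : ℕ))

/-- What the residual system of a raising step needs. -/
structure SysHyp (p : ℕ) (ρbar : ResidualGaloisRep (ResidueField O)) (S₀ : Finset ℕ)
    (c₀ : ℕ → O) : Prop where
  two : p ≠ 2
  p_mem : (p : O) ∈ maximalIdeal O
  p_bad : p ∈ S₀
  absIrr : ρbar.IsAbsolutelyIrreducible
  frob : ∀ ℓ : ℕ, ℓ.Prime → ℓ ∉ S₀ → ∀ P : ValuationSubring Qbar, P.LiesOverPrime ℓ →
    ∀ σ : GQ, P.IsFrobeniusAt σ ℓ → LinearMap.charpoly (ρbar.ρ σ) =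
      X ^ 2 - C (residue O (c₀ ℓ)) * X + C (ℓ : ResidueField O)
  not_eisenstein : ∀ T : Finset ℕ, ∃ ℓ : ℕ, ℓ.Prime ∧ ℓ ∉ T ∧
    residue O (c₀ ℓ) ≠ (ℓ : ResidueField O) + 1 ∧
    residue O (c₀ ℓ) ≠ -((ℓ : ResidueField O) + 1)

/-- Two commutation rules as one. -/
theorem fromCols_comm {R : Type} [CommRing R] {m k : ℕ} {A B : Matrix (Fin m) (Fin k) R}
    {X : Matrix (Fin k) (Fin k) R} {Z : Matrix (Fin m) (Fin m) R} (h₁ : A * X = Z * A)
    (h₂ : B * X = Z * B) :
    Matrix.fromCols A B * Matrix.fromBlocks X 0 0 X = Z * Matrix.fromCols A B := by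
  rw [Matrix.fromCols_mul_fromBlocks, Matrix.mul_fromCols, h₁, h₂, Matrix.mul_zero,
    Matrix.mul_zero, add_zero, zero_add]

/-- The composite of two pairs of maps, block by block. -/
theorem blocks_of_fromRows_mul_fromCols {R : Type} [CommRing R] {m k : ℕ}
    {C D : Matrix (Fin k) (Fin m) R} {A B : Matrix (Fin m) (Fin k) R} {s : R}
    {T : Matrix (Fin k) (Fin k) R}
    (h : Matrix.fromRows C D * Matrix.fromCols A B =
      Matrix.fromBlocks (Matrix.scalar (Fin k) s) T T (Matrix.scalar (Fin k) s)) :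
    C * A = s • (1 : Matrix (Fin k) (Fin k) R) ∧ C * B = T ∧ D * A = T ∧
      D * B = s • (1 : Matrix (Fin k) (Fin k) R) := by
  have hs : Matrix.scalar (Fin k) s = s • (1 : Matrix (Fin k) (Fin k) R) := by
    rw [Matrix.scalar_apply, Matrix.smul_one_eq_diagonal]
  rw [hs] at h
  exact Matrix.fromBlocks_inj.mp ((Matrix.fromRows_mul_fromCols C D A B).symm.trans h)

omit [IsAdicComplete (maximalIdeal O) O] [Finite (ResidueField O)] in
/-- The residue field has characteristic `p` when `p` lies in the maximal ideal. -/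
theorem charP_residueField_of_mem {p : ℕ} (hp : p.Prime)
    (h : (p : O) ∈ maximalIdeal O) : CharP (ResidueField O) p :=
  (CharP.charP_iff_prime_eq_zero hp).mpr (by
    rwa [← map_natCast (residue O), residue_eq_zero_iff])

variable {p r : ℕ} [Fact p.Prime] {lv : Fin r → ℕ}

/-- A refined idempotent absorbs the image of a coarser one. -/
theorem map_idem_mul {A B : Type*} [CommRing A] [CommRing B] (f : A →+* B) {I : Ideal A}
    {J : Ideal B} {e : A} {e₀ : B} (h : IsIdemAt I e) (h₀ : IsIdemAt J e₀) (hle : I ≤ J.comap f) :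
    f e * e₀ = e₀ := by
  by_cases htop : J = ⊤
  · rw [h₀.eq_zero_of_top htop, mul_zero]
  have he : f e ∉ J := fun hm => htop <| by
    have h1 : f (1 - e) ∈ J := hle h.one_sub_mem
    rw [map_sub, map_one] at h1
    exact (Ideal.eq_top_iff_one _).mpr (by simpa using add_mem h1 hm)
  obtain ⟨b, hb⟩ := h₀.exists_inv _ he
  calc f e * e₀ = f e * (f e * b * e₀) := by rw [hb]
    _ = f (e * e) * b * e₀ := by rw [map_mul]; ring
    _ = e₀ := by rw [h.idem, hb]

omit [IsAdicComplete (maximalIdeal O) O] [Finite (ResidueField O)] in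
/-- Generators going to generators carry the ideal of the values into that of the values. -/
theorem genIdeal_le_comap {A B : Type*} [CommRing A] [Algebra O A] [CommRing B] [Algebra O B]
    (f : A →ₐ[O] B) {ι κ : Type*} (g : ι → A) (c : ι → O) (h : κ → B) (d : κ → O)
    (hgen : ∀ i, ∃ j, f (g i) = h j ∧ c i = d j) :
    genIdeal g c ≤ (genIdeal h d).comap f.toRingHom := by
  refine sup_le (Ideal.map_le_iff_le_comap.mpr fun r hr => ?_) (Ideal.span_le.mpr ?_)
  · show f (algebraMap O A r) ∈ genIdeal h d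
    rw [AlgHom.commutes]
    exact algebraMap_mem_genIdeal _ _ hr
  · rintro _ ⟨i, rfl⟩
    show f (g i - algebraMap O A (c i)) ∈ genIdeal h d
    obtain ⟨j, e1, e2⟩ := hgen i
    rw [map_sub, AlgHom.commutes, e1, e2]
    exact sub_mem_genIdeal h d j

section Commute

variable [CharZero O] {N : ℕ} [NeZero N] (Ψ : (ZMod N)ˣ →* DiaGroup p lv)
  (hΨ : Function.Surjective Ψ) (hneg : (-1 : SL(2, ℤ)) ∈ GammaPsi Ψ)

omit [IsDiscreteValuationRing O] [IsAdicComplete (maximalIdeal O) O] [Finite (ResidueField O)] in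
/-- The operators of two Hecke algebras of one level commute. -/
theorem commute_levelAlg {T T' : Finset ℕ} {x y : levelEnd O Ψ}
    (hx : x ∈ levelAlg O Ψ hΨ hneg (goodSet T)) (hy : y ∈ levelAlg O Ψ hΨ hneg (goodSet T')) :
    Commute x.1 y.1 := by
  induction hy using Algebra.adjoin_induction with
  | mem y hy =>
    obtain ⟨(ℓ | δ), rfl⟩ := hy
    · exact commute_goodOps Ψ hΨ hneg T hx ℓ.1
    · exact (levelAlg_compat O Ψ hΨ hneg (goodSet T) hx).2.2 δ
  | algebraMap c => exact Algebra.commute_algebraMap_right c _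
  | add a b _ _ ha hb => exact Commute.add_right ha hb
  | mul a b _ _ ha hb => exact Commute.mul_right ha hb

/-- The inclusion of the algebra of fewer primes. -/
def inclAlg {S₀ S : Finset ℕ} (hS : S₀ ⊆ S) :
    levelAlg O Ψ hΨ hneg (goodSet S) →ₐ[O] levelAlg O Ψ hΨ hneg (goodSet S₀) :=
  Subalgebra.inclusion (Algebra.adjoin_mono (by
    rintro _ ⟨i, rfl⟩
    exact ⟨i.map (fun ℓ => ⟨ℓ.1, fun h => ℓ.2 (hS h)⟩) id, by rcases i with ℓ | δ <;> rfl⟩))

omit [IsDomain O] [IsDiscreteValuationRing O] [IsAdicComplete (maximalIdeal O) O]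
  [Finite (ResidueField O)] [CharZero O] in
/-- The inclusion sends generators to generators. -/
theorem inclAlg_levelElt {S₀ S : Finset ℕ} (hS : S₀ ⊆ S) (i : goodSet S ⊕ DiaGroup p lv) :
    inclAlg Ψ hΨ hneg hS (levelElt O Ψ hΨ hneg (goodSet S) i) =
      levelElt O Ψ hΨ hneg (goodSet S₀) (i.map (fun ℓ => ⟨ℓ.1, fun h => ℓ.2 (hS h)⟩) id) := by
  rcases i with ℓ | δ <;> rfl

variable (a : Nat.Primes → ResidueField O)

omit [Finite (ResidueField O)] [CharZero O] in
/-- The idempotent of more primes refines that of fewer. -/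
theorem inclAlg_levelIdem_mul {S₀ S : Finset ℕ} (hS : S₀ ⊆ S) :
    inclAlg Ψ hΨ hneg hS (levelIdem O Ψ hΨ hneg (goodSet S) a) *
        levelIdem O Ψ hΨ hneg (goodSet S₀) a =
      levelIdem O Ψ hΨ hneg (goodSet S₀) a := by
  refine map_idem_mul (inclAlg (O := O) Ψ hΨ hneg hS).toRingHom
    (isIdemAt_levelIdem O Ψ hΨ hneg (goodSet S) a) (isIdemAt_levelIdem O Ψ hΨ hneg (goodSet S₀) a)
    (genIdeal_le_comap (inclAlg (O := O) Ψ hΨ hneg hS) _ _ _ _ fun i =>
      ⟨i.map (fun ℓ => ⟨ℓ.1, fun h => ℓ.2 (hS h)⟩) id, inclAlg_levelElt Ψ hΨ hneg hS i, ?_⟩)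
  rcases i with ℓ | δ <;> rfl

omit [Finite (ResidueField O)] [CharZero O] in
/-- The fixed vectors of more primes are fixed by fewer. -/
theorem fixed_of_fixed {S₀ S : Finset ℕ} (hS : S₀ ⊆ S) {w : clHoms O (GammaPsi Ψ) O}
    (hw : (levelIdem O Ψ hΨ hneg (goodSet S₀) a).1.1 w = w) :
    (levelIdem O Ψ hΨ hneg (goodSet S) a).1.1 w = w := by
  have h := LinearMap.congr_fun (congrArg (fun z : levelAlg O Ψ hΨ hneg (goodSet S₀) => z.1.1)
    (inclAlg_levelIdem_mul Ψ hΨ hneg a hS)) w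
  change (levelIdem O Ψ hΨ hneg (goodSet S) a).1.1
    ((levelIdem O Ψ hΨ hneg (goodSet S₀) a).1.1 w) = _ at h
  rwa [hw] at h

omit [Finite (ResidueField O)] [CharZero O] in
/-- The span of a part grows with the excluded set. -/
theorem idemSpan_mono {S₀ S : Finset ℕ} (hS : S₀ ⊆ S) (K : Type) [Field K] [Algebra O K] :
    idemSpan O Ψ hΨ hneg S₀ a K ≤ idemSpan O Ψ hΨ hneg S a K :=
  Submodule.span_mono (Set.image_mono fun _ hw => fixed_of_fixed Ψ hΨ hneg a hS hw)

/-- **Operators outside any set act on the part in coordinates.** -/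
theorem exists_partActOn (hp𝒪 : (p : O) ∈ maximalIdeal O) (S₀ T : Finset ℕ) {d : ℕ}
    (v : Fin d → clHoms O (GammaPsi Ψ) O)
    (hv : Degen.IsFreePart (diaOp O Ψ hΨ) (Degen.partIdem Ψ hΨ hneg (goodSet S₀) a) v) :
    ∃ act : levelAlg O Ψ hΨ hneg (goodSet T) →ₐ[O]
        Matrix (Fin d) (Fin d) (MvPowerSeries (Fin r) O ⧸ diamondIdeal (𝒪 := O) p lv),
      (∀ δ, act (levelElt O Ψ hΨ hneg (goodSet T) (.inr δ)) =
        Matrix.scalar (Fin d) (diaClass (O := O) δ)) ∧
      (∀ x, act x = 0 ↔ ∀ w, Degen.partIdem Ψ hΨ hneg (goodSet S₀) a w = w → x.1.1 w = 0) ∧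
      ∀ x, Degen.IsPartMat (diaOp O Ψ hΨ) v v x.1.1 (act x) := by
  classical
  let φ : levelAlg O Ψ hΨ hneg (goodSet T) →ₐ[O] Module.End O (clHoms O (GammaPsi Ψ) O) :=
    (AlgHom.fst O _ _).comp (levelAlg O Ψ hΨ hneg (goodSet T)).val
  have hφρ : ∀ x g w, φ x (diaOp O Ψ hΨ g w) = diaOp O Ψ hΨ g (φ x w) :=
    Degen.levelAlg_diaOp Ψ hΨ hneg (goodSet T)
  have hrep :=
    exists_matrixRep (diaOp O Ψ hΨ) (Degen.partIdem Ψ hΨ hneg (goodSet S₀) a) v hv.1
      (Degen.partIdem_diaOp Ψ hΨ hneg (goodSet S₀) a) hv.2 φ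
      (fun x w => LinearMap.congr_fun (commute_levelAlg Ψ hΨ hneg
        (levelIdem O Ψ hΨ hneg (goodSet S₀) a).2 x.2).eq w) hφρ
  obtain ⟨Φ, hΦ, hΦext, hΦscalar⟩ := hrep
  refine ⟨(toDiaQuot (𝒪 := O) (p := p) (lv := lv)).mapMatrix.comp Φ, fun δ => ?_,
    fun x => ⟨fun h w hw => ?_, fun h => ?_⟩, fun x j => ⟨fun i => Φ x i j, fun _ => rfl, hΦ x j⟩⟩
  · rw [AlgHom.comp_apply, hΦscalar (levelElt O Ψ hΨ hneg (goodSet T) (.inr δ))
      (MonoidAlgebra.of O _ δ) fun j => by
        rw [MonoidAlgebra.of_apply, algAct_single, one_smul]; rfl]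
    ext i j
    rcases eq_or_ne i j with rfl | h <;> simp [*, diaClass]
  · have h0 : Φ x = 0 := Matrix.ext fun i j => (Degen.toDiaQuot_bijective hp𝒪).1 (by
      have := congrFun (congrFun h i) j
      rw [AlgHom.comp_apply, AlgHom.mapMatrix_apply, Matrix.map_apply] at this
      rw [this]
      exact (map_zero _).symm)
    obtain ⟨c, rfl⟩ := hv.exists_coord hw
    rw [map_sum]
    refine Finset.sum_eq_zero fun i _ => ?_
    rw [Degen.algAct_commute (F := x.1.1) (hφρ x), show x.1.1 (v i) = φ x (v i) from rfl,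
      hΦ x i, h0]
    simp
  · have : Φ x = Φ 0 := hΦext x 0 fun j => by
      rw [map_zero, LinearMap.zero_apply]; exact h _ (hv.1 j)
    rw [AlgHom.comp_apply, this, map_zero, map_zero]

end Commute

end Fermat.Agent.Raising.Modular

end
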