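/-
The curve side of the supply of the raising levels.
-/
import Fermat.Agent.LevelLowering.Semistable.AtP
import Fermat.Agent.Raising.Modular.RaisingBase
import Fermat.Agent.Raising.Modular.System

/-!
# The residual system of a curve and the data of a choice of Taylor–Wiles primes

The residual system of a semistable curve satisfies `SysHyp`, the raised primes and those of the
level lie in the bad set, Taylor–Wiles primes have exact depths, and the eigensystems of levels once
divisible by `p`, congruent to the curve, are strictly ordinary at `p` when `p` divides a minimal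
level.
-/

noncomputable section

namespace Fermat.Agent.Raising.Modular

open IsLocalRing Polynomial WeierstrassCurve
open Fermat.Agent.LevelLowering Fermat.Agent.LevelLowering.Semistable Fermat.Agent.Gal
  Fermat.Agent.TW

variable {p : ℕ} [hp : Fact p.Prime] {C : Coeff.CoeffRing p} {W : WeierstrassCurve ℤ}
  [(W.map (Int.castRingHom ℚ)).IsElliptic] {m : ℕ}

/-- A raised prime is in the bad set of the raising. -/
theorem q_mem_raiseBad (hΔ : W.Δ ≠ 0) {N₀ : ℕ} {P : Fin m → CurvePrime C W}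
    (hP : IsRaisingFor N₀ P) (i : Fin m) : (P i).q ∈ raiseBad N₀ P :=
  LoweringAtP.HeckeCompat.mem_badSet_of_bad hΔ (P i).prime (hP.bad i)

/-- A prime of the level is in the bad set of the raising. -/
theorem mem_raiseBad_of_dvd {N₀ : ℕ} [NeZero N₀] (P : Fin m → CurvePrime C W) {l : ℕ}
    (hl : l.Prime) (hd : l ∣ N₀) : l ∈ raiseBad N₀ P :=
  LoweringAtP.HeckeCompat.mem_badSet_of_dvd hl (hd.mul_right _)

/-- Outside any finite set a residual eigenvalue differs from `± (ℓ + 1)`. -/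
theorem curveSys_not_eisenstein (hp2 : p ≠ 2) (hirr : W.ModRepIsIrreducible p) (T : Finset ℕ) :
    ∃ ℓ : ℕ, ℓ.Prime ∧ ℓ ∉ T ∧
      residue C.O (curveSys C W ℓ) ≠ (ℓ : ResidueField C.O) + 1 ∧
      residue C.O (curveSys C W ℓ) ≠ -((ℓ : ResidueField C.O) + 1) := by
  obtain ⟨ℓ, hℓ, hB, -, -, h1, h2⟩ := Ihara.exists_prime_trace_ne (W.map (Int.castRingHom ℚ))
    ⟨1, one_smul _ _⟩ Fact.out hp2 hirr (T.sup id)
  refine ⟨ℓ, hℓ, fun hT => absurd (Finset.le_sup (f := id) hT) (not_le.mpr hB), ?_⟩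
  rw [show residue C.O (curveSys C W ℓ) = ((W.apOfModel ℓ : ℤ) : ResidueField C.O) from
    map_intCast _ _]
  refine ⟨fun h => h1 ?_, fun h => h2 ?_⟩ <;>
    rw [← CharP.intCast_eq_zero_iff (ResidueField C.O) p] <;> push_cast <;> rw [h] <;> ring

/-- The residual system of the curve. -/
theorem curve_sysHyp (hp2 : p ≠ 2) (hΔ : W.Δ ≠ 0) (hss : W.IsSemistableModel)
    (hirr : W.ModRepIsIrreducible p) (N : ℕ) :
    SysHyp p (Coeff.curveRbar C (W.map (Int.castRingHom ℚ))) (levelBad p N W) (curveSys C W) where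
  two := hp2
  p_mem := by rw [C.maximalIdeal_eq]; exact Ideal.mem_span_singleton_self _
  p_bad := LoweringAtP.HeckeCompat.mem_badSet_self N p W
  absIrr := (Coeff.curveRbar_facts C hΔ hp2 hss hirr).1
  frob ℓ hℓ hℓS A hA σ hσ := by
    have hℓ' : ℓ ∉ W.Δ.natAbs.primeFactors := fun h =>
      hℓS (Finset.mem_insert_of_mem (Finset.mem_union_right _ h))
    exact Coeff.charpoly_curveRbar_frobenius C hℓ
      (fun h => hℓS (h ▸ LoweringAtP.HeckeCompat.mem_badSet_self N p W))
      (fun hd => hℓ' (Nat.mem_primeFactors.2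
        ⟨hℓ, Int.natCast_dvd.1 hd, Int.natAbs_ne_zero.2 hΔ⟩)) hA hσ
  not_eisenstein := curveSys_not_eisenstein hp2 hirr

/-- The exact `p`-adic levels of primes deep enough. -/
theorem exists_twDepth {n D : ℕ} {qv : Fin D → ℕ}
    (hq : ∀ i, (qv i).Prime ∧ p ^ (n + 1) ∣ qv i - 1) : ∃ lv : Fin D → ℕ, IsTWDepth p n qv lv := by
  refine ⟨fun i => padicValNat p (qv i - 1), fun i => ?_⟩
  have hne : qv i - 1 ≠ 0 := by have := (hq i).1.one_lt; omega
  exact ⟨(padicValNat_dvd_iff_le (p := p) hne).mp (hq i).2, pow_padicValNat_dvd,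
    fun h => absurd ((padicValNat_dvd_iff_le (p := p) hne).mp h) (Nat.not_succ_le_self _)⟩

omit [(W.map (Int.castRingHom ℚ)).IsElliptic] in
/-- The condition at `p` of the level `M` from that at `M t`. -/
theorem atPCond_of_aux {M t : ℕ} (ha : AuxPrimeFor p W M t) {T : Type} [CommRing T] [IsLocalRing T]
    {ρ : GaloisRepAdic T}
    (h : (¬ p ∣ M * t ∧ ρ.IsFlatAt p) ∨ (p ∣ M * t ∧ ρ.IsStrictOrdinaryAt p)) :
    AtPCond p M ρ :=
  h.imp (fun h => ⟨fun hd => h.1 (hd.mul_right t), h.2⟩) fun h =>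
    ⟨(hp.out.dvd_mul.1 h.1).resolve_right fun hd =>
      ha.ne_p ((Nat.prime_dvd_prime_iff_eq hp.out ha.prime).mp hd).symm, h.2⟩

/-- **Strictness at `p`** of the representations of levels once divisible by `p` congruent to the
curve, when `p` divides a minimal level times an auxiliary prime. -/
theorem strict_of_minLevel (hp2 : p ≠ 2) (hΔ : W.Δ ≠ 0) (hss : W.IsSemistableModel)
    (hirr : W.ModRepIsIrreducible p) {M t : ℕ} (hmin : MinLevel p W M) (ha : AuxPrimeFor p W M t)
    (hpM : p ∣ M * t) {R : Type} [CommRing R] [IsDomain R] [IsDiscreteValuationRing R]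
    [IsAdicComplete (maximalIdeal R) R] [CharZero R] [Finite (ResidueField R)] [Algebra C.O R]
    [IsLocalHom (algebraMap C.O R)] {L : ℕ} [NeZero L] (hpL : p ∣ L) (hp2L : ¬ p ^ 2 ∣ L)
    {S : Finset ℕ} (hLS : ∀ l, l.Prime → l ∣ L → l ∈ S)
    (H : Attach.HeckeRep L (↑S : Set ℕ) R R)
    (hcong : ∀ (ℓ : ℕ) (hℓ : ℓ.Prime) (hℓS : ℓ ∉ S),
      H.π (CuspForm.heckeAlgebra.T hℓ (fun h => hℓS (hLS ℓ hℓ h)) hℓS) -
        algebraMap C.O R (curveSys C W ℓ) ∈ maximalIdeal R) :
    H.ρ.IsStrictOrdinaryAt p :=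
  have hpM' : p ∣ M := (hp.out.dvd_mul.1 hpM).resolve_right fun hd =>
    ha.ne_p ((Nat.prime_dvd_prime_iff_eq hp.out ha.prime).mp hd).symm
  isStrictOrdinaryAt_of_heckeRep C hp2 hΔ hss hirr
    (hmin.not_peuRamifiee hp2 hΔ hss hirr hpM') hpL hp2L hLS H fun ℓ hℓ hℓS => by
      have h := hcong ℓ hℓ hℓS
      rwa [curveSys, map_intCast] at h

end Fermat.Agent.Raising.Modular
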