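/-
One level of a raising step in coordinates.
-/
import Fermat.Agent.LevelLowering.TWHecke
import Fermat.Agent.LevelLowering.TWLevelAct
import Fermat.Agent.Raising.AtResidualPrime.RefinedPoints
import Fermat.Agent.Raising.Modular.System

/-!
# A level of a raising step in coordinates

`PartLevel` is the part of a Taylor–Wiles level at the residual system of the operators outside
`S₀`: a free family over a prescribed basis without auxiliary primes, the action of the operators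
outside `S₁` on it and refined points detecting that action (`exists_partLevel`).
-/

noncomputable section

namespace Fermat.Agent.Raising.Modular

open scoped MatrixGroups IsMulCommutative
open CongruenceSubgroup IsLocalRing Polynomial Fermat.Agent.Grp Fermat.Agent.Ihara
  Fermat.Agent.LevelLowering

local notation "Qbar" => AlgebraicClosure ℚ
local notation "GQ" => (AlgebraicClosure ℚ ≃ₐ[ℚ] AlgebraicClosure ℚ)

section TopSys

variable {k : Type} {r : ℕ} (qs : Fin r → ℕ) (α : Fin r → k) (a : Nat.Primes → k)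

open Classical in
/-- The system with the values `α` at the auxiliary primes. -/
def topSys (ℓ : Nat.Primes) : k := if h : ∃ i, qs i = (ℓ : ℕ) then α h.choose else a ℓ

variable {qs α a}

/-- The top system at an auxiliary prime. -/
theorem topSys_apply (hinj : Function.Injective qs) {i : Fin r} {ℓ : Nat.Primes}
    (h : qs i = (ℓ : ℕ)) : topSys qs α a ℓ = α i := by
  have h' : ∃ i, qs i = (ℓ : ℕ) := ⟨i, h⟩
  rw [topSys, dif_pos h', hinj (h'.choose_spec.trans h.symm)]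

/-- The top system away from the auxiliary primes. -/
theorem topSys_of_ne {ℓ : Nat.Primes} (h : ∀ i, qs i ≠ (ℓ : ℕ)) : topSys qs α a ℓ = a ℓ := by
  rw [topSys, dif_neg fun ⟨i, hi⟩ => h i hi]

end TopSys

variable {O : Type} [CommRing O] [IsDomain O] [IsDiscreteValuationRing O]
  [IsAdicComplete (maximalIdeal O) O] [Finite (ResidueField O)] [CharZero O]
  {p r : ℕ} [Fact p.Prime] {lv : Fin r → ℕ}

section Level

variable (qs : Fin r → ℕ) {N : ℕ} [NeZero N] (Ψ : (ZMod N)ˣ →* DiaGroup p lv)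
  (hΨ : Function.Surjective Ψ) (hneg : (-1 : SL(2, ℤ)) ∈ GammaPsi Ψ) (S₀ S S₁ : Finset ℕ)
  (hNS : ∀ l : ℕ, l.Prime → l ∣ N → l ∈ S) (hNS₁ : ∀ l : ℕ, l.Prime → l ∣ N → l ∈ S₁)
  (a : Nat.Primes → ResidueField O) (K : Type) [Field K] [Algebra O K]

/-- **A level in coordinates with its points.** -/
structure PartLevel (d : ℕ) (Tm : ℕ → Matrix (Fin d) (Fin d) O) : Type 1 where
  /-- A family free over the diamonds spanning the part at the residual system. -/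
  v : Fin d → clHoms O (GammaPsi Ψ) O
  free : Degen.IsFreePart (diaOp O Ψ hΨ) (Degen.partIdem Ψ hΨ hneg (goodSet S₀) a) v
  /-- The action of the operators away from `S₁` in coordinates. -/
  act : levelAlg O Ψ hΨ hneg (goodSet S₁) →ₐ[O]
    Matrix (Fin d) (Fin d) (MvPowerSeries (Fin r) O ⧸ diamondIdeal (𝒪 := O) p lv)
  act_dia : ∀ δ, act (levelElt O Ψ hΨ hneg (goodSet S₁) (.inr δ)) =
    Matrix.scalar (Fin d) (diaClass (O := O) δ)
  act_ker : ∀ x, act x = 0 ↔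
    ∀ w, Degen.partIdem Ψ hΨ hneg (goodSet S₀) a w = w → x.1.1 w = 0
  act_mat : ∀ x, Degen.IsPartMat (diaOp O Ψ hΨ) v v x.1.1 (act x)
  aug : ∀ (ℓ : ℕ) (hℓ : ℓ.Prime), ℓ ∉ S → ∀ (hℓS₁ : ℓ ∉ S₁),
    (act (twGood Ψ hΨ hneg S₁ hNS₁ ⟨ℓ, hℓ⟩ hℓS₁)).map (diaQuotAug (O := O) (p := p) (lv := lv)) =
      Tm ℓ
  /-- The index type of the refined points, which is finite. -/
  κ : Type
  [instFintype : Fintype κ]
  /-- The refined points with their eigenvectors, detecting the action. -/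
  E : κ → AtResidualPrime.EigenPoint (qs := qs) Ψ hΨ hneg S hNS a S₁ K
  mem₀ : ∀ i, (E i).φ ∈ idemSpan O Ψ hΨ hneg S₀ a K
  ker_iff : ∀ x, act x = 0 ↔ ∀ i, (E i).Q.ev₁ x = 0

attribute [instance] PartLevel.instFintype

end Level

section Points

variable {qs : Fin r → ℕ} {N : ℕ} [NeZero N]
  {hN : ∀ i, qs i ∣ N} {π : ∀ i, (ZMod (qs i))ˣ →* Multiplicative (ZMod (p ^ lv i))}
  (Ψ : (ZMod N)ˣ →* DiaGroup p lv) (hΨ : Function.Surjective Ψ)
  (hneg : (-1 : SL(2, ℤ)) ∈ GammaPsi Ψ) (S₀ S S₁ : Finset ℕ)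
  (hNS : ∀ l : ℕ, l.Prime → l ∣ N → l ∈ S) (hNS₁ : ∀ l : ℕ, l.Prime → l ∣ N → l ∈ S₁)
  (a : Nat.Primes → ResidueField O) {ρbar : ResidualGaloisRep (ResidueField O)}

include hNS₁ in
/-- **Refined points in the part detect the larger algebra on it.** -/
theorem exists_eigenPointsOn (hS : S₀ ⊆ S) (h : IsTWLevel hN π Ψ) (hpS : p ∈ S)
    (hqp : ∀ i, qs i ≠ p) (hp : (p : O) ∈ maximalIdeal O) (habs : ρbar.IsAbsolutelyIrreducible)
    (hbar : ∀ (ℓ : ℕ) (hℓ : ℓ.Prime), ℓ ∉ S → ∀ A : ValuationSubring Qbar, A.LiesOverPrime ℓ →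
      ∀ σ : GQ, A.IsFrobeniusAt σ ℓ → LinearMap.charpoly (ρbar.ρ σ) =
        X ^ 2 - C (a ⟨ℓ, hℓ⟩) * X + C ((ℓ : ResidueField O)))
    (K : Type) [Field K] [CharZero K] [IsAlgClosed K] [Algebra O K] [Algebra (FractionRing O) K]
    [IsScalarTower O (FractionRing O) K] :
    ∃ (κ : Type) (_ : Fintype κ) (E : κ → AtResidualPrime.EigenPoint (qs := qs) Ψ hΨ hneg S hNS
      a S₁ K),
      (∀ i, (E i).φ ∈ idemSpan O Ψ hΨ hneg S₀ a K) ∧
      ∀ x : levelAlg O Ψ hΨ hneg (goodSet S₁), (∀ i, (E i).Q.ev₁ x = 0) ↔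
        ∀ w, Degen.partIdem Ψ hΨ hneg (goodSet S₀) a w = w → x.1.1 w = 0 := by
  classical
  have hinjK : Function.Injective (algebraMap O K) := by
    rw [IsScalarTower.algebraMap_eq O (FractionRing O) K]
    exact (algebraMap (FractionRing O) K).injective.comp
      (IsFractionRing.injective O (FractionRing O))
  obtain ⟨b, hbfin, hb, hdet⟩ := exists_eigenSet Ψ h hΨ hneg S₀ a K hinjK
  have := hbfin.to_subtype
  choose E hEφ using fun v : b => AtResidualPrime.exists_eigenPoint Ψ hΨ hneg S hNS a S₁ hNS₁ h hpS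
    hqp hp habs hbar K v.1 (idemSpan_mono Ψ hΨ hneg a hS K (hb v.1 v.2).1) (hb v.1 v.2).2.1
    (hb v.1 v.2).2.2
  refine ⟨b, Fintype.ofFinite b, E, fun v => (hEφ v).symm ▸ (hb v.1 v.2).1, fun x => ?_⟩
  obtain ⟨X, hX⟩ := exists_ext Ψ hΨ hneg S₁ K x
  have hz : ∀ v : b, (E v).Q.ev₁ x = 0 ↔ X v.1 = 0 := fun v => by
    rw [ext_apply_eq_smul Ψ K (Submodule.span_mono (Set.image_subset_range _ _) (hb v.1 v.2).1) hX
      (hEφ v ▸ (E v).hasEigen₁ x), smul_eq_zero, or_iff_left (hb v.1 v.2).2.1, ← (E v).j_ev₁]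
    exact (map_eq_zero_iff _ (E v).Q.j_inj).symm
  exact Iff.trans ⟨fun hx v hv => (hz ⟨v, hv⟩).mp (hx ⟨v, hv⟩), fun hx v => (hz v).mpr (hx v v.2)⟩
    (hdet x.1.1 X hX)

/-- **A level of a raising step in coordinates over a given basis without auxiliary primes.** -/
theorem exists_partLevel (h : IsTWLevel hN π Ψ) {M : ℕ} [NeZero M] (hNM : N = M * ∏ i, qs i)
    (hqM : ∀ i, ¬ qs i ∣ M) (hlv : ∀ i, 1 ≤ lv i) (hdvd : ∀ i, p ^ lv i ∣ qs i - 1)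
    (hΨtr : ∀ g : Gamma0 N, |tr (g : SL(2, ℤ))| ≤ 2 → dChar Ψ g = 1) (hS : S₀ ⊆ S)
    (hqS₀ : ∀ i, qs i ∉ S₀) (hqS : ∀ i, qs i ∈ S) (hpS : p ∈ S₀)
    (hp : (p : O) ∈ maximalIdeal O) (habs : ρbar.IsAbsolutelyIrreducible)
    (hbar : ∀ (ℓ : ℕ) (hℓ : ℓ.Prime), ℓ ∉ S → ∀ A : ValuationSubring Qbar, A.LiesOverPrime ℓ →
      ∀ σ : GQ, A.IsFrobeniusAt σ ℓ → LinearMap.charpoly (ρbar.ρ σ) =
        X ^ 2 - C (a ⟨ℓ, hℓ⟩) * X + C ((ℓ : ResidueField O)))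
    (α β : Fin r → ResidueField O) (hαβ : ∀ i, α i * β i = 1) (hne : ∀ i, α i ≠ β i)
    (haq : ∀ i, a ⟨qs i, h.prime i⟩ = α i + β i)
    (hℓ₀ : ∃ ℓ₀ : Nat.Primes, (ℓ₀ : ℕ) ∉ S₀ ∧ ¬ (ℓ₀ : ℕ) ∣ N ∧ a ℓ₀ ≠ (ℓ₀ : ℕ) + 1)
    (K : Type) [Field K] [CharZero K] [IsAlgClosed K] [Algebra O K] [Algebra (FractionRing O) K]
    [IsScalarTower O (FractionRing O) K]
    {d : ℕ} (b₀ : Fin d → clH O M) (hb₀ : ∀ i, (baseIdem O M (goodSet S₀) a).1 (b₀ i) = b₀ i)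
    (hb₀free : ∀ x, (baseIdem O M (goodSet S₀) a).1 x = x →
      ∃! b : Fin d → O, ∑ i, b i • b₀ i = x)
    (Tm : ℕ → Matrix (Fin d) (Fin d) O)
    (hTm : ∀ (ℓ : goodSet S₀) j, (ℓ.1 : ℕ) ∉ S →
      baseGen O M (goodSet S₀) ℓ (b₀ j) = ∑ i, Tm (ℓ.1 : ℕ) i j • b₀ i) :
    Nonempty (PartLevel qs Ψ hΨ hneg S₀ S S₁ hNS hNS₁ (topSys qs α a) K d Tm) := by
  classical
  obtain ⟨a', v', πM, ha', ha'q, hv'fix, hv'free, hv'π, hπdia, hπgen⟩ :=
    exists_freeFamily Ψ hΨ hneg h.prime h.inj hNM hqM hlv hdvd hΨtr S₀ hqS₀ a hp α β hαβ hne haq hℓ₀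
      b₀ hb₀ hb₀free
  have htopS : ∀ ℓ : Nat.Primes, (ℓ : ℕ) ∉ S → topSys qs α a ℓ = a ℓ := fun ℓ hℓ =>
    topSys_of_ne fun i hi => hℓ (hi ▸ hqS i)
  obtain rfl : a' = topSys qs α a := funext fun ℓ => by
    by_cases hℓ : ∃ i, qs i = (ℓ : ℕ)
    · obtain ⟨i, hi⟩ := hℓ
      rw [topSys_apply h.inj hi, ← ha'q i]
      exact congrArg a' (Subtype.ext hi.symm)
    · rw [topSys_of_ne fun i hi => hℓ ⟨i, hi⟩, ha' ℓ fun i hi => hℓ ⟨i, hi⟩]
  have hv' : Degen.IsFreePart (diaOp O Ψ hΨ)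
      (Degen.partIdem Ψ hΨ hneg (goodSet S₀) (topSys qs α a)) v' := ⟨hv'fix, hv'free⟩
  obtain ⟨act, hdia, hker, hmat⟩ := exists_partActOn Ψ hΨ hneg (topSys qs α a) hp S₀ S₁ v' hv'
  obtain ⟨κ, hκ, E, hE0, hE⟩ := exists_eigenPointsOn Ψ hΨ hneg S₀ S S₁ hNS hNS₁ (topSys qs α a) hS h
    (hS hpS) (fun i hi => hqS₀ i (hi ▸ hpS)) hp habs
    (fun ℓ hℓ hℓS A hA σ hσ => by rw [htopS ⟨ℓ, hℓ⟩ hℓS]; exact hbar ℓ hℓ hℓS A hA σ hσ) K
  refine ⟨{ v := v', free := hv', act := act, act_dia := hdia, act_ker := hker, act_mat := hmat,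
            aug := fun ℓ hℓ hℓS hℓS₁ => ?_, κ := κ, E := E, mem₀ := hE0,
            ker_iff := fun x => (hker x).trans (hE x).symm }⟩
  have : NeZero ℓ := ⟨hℓ.ne_zero⟩
  let ℓ' : goodSet S₀ := ⟨⟨ℓ, hℓ⟩, fun hm => hℓS (hS hm)⟩
  ext i j
  rw [Matrix.map_apply]
  have h1 := Degen.IsPartMat.aug (ρ' := diaOp O Ψ hΨ) (W := clH O M)
    (hmat (twGood Ψ hΨ hneg S₁ hNS₁ ⟨ℓ, hℓ⟩ hℓS₁)) πM hπdia j
  have h2 : πM ((twGood Ψ hΨ hneg S₁ hNS₁ ⟨ℓ, hℓ⟩ hℓS₁).1.1 (v' j)) = ∑ i, Tm ℓ i j • b₀ i :=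
    (hπgen ℓ' (fun k hk => hℓS ((show qs k = ℓ from hk) ▸ hqS k)) _).trans
      ((congrArg (baseGen O M (goodSet S₀) ℓ') ((hπdia _ _).trans (hv'π j))).trans (hTm ℓ' j hℓS))
  rw [h2] at h1
  simp only [hv'π] at h1
  have hfix : (baseIdem O M (goodSet S₀) a).1 (∑ i, Tm ℓ i j • b₀ i) = ∑ i, Tm ℓ i j • b₀ i := by
    simp [map_sum, hb₀]
  exact congrFun ((hb₀free _ hfix).unique h1.symm rfl) i

end Points

section Values

variable {qs : Fin r → ℕ} {N : ℕ} [NeZero N]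
  {Ψ : (ZMod N)ˣ →* DiaGroup p lv} {hΨ : Function.Surjective Ψ}
  {hneg : (-1 : SL(2, ℤ)) ∈ GammaPsi Ψ} {S₀ S S₁ : Finset ℕ}
  {hNS : ∀ l : ℕ, l.Prime → l ∣ N → l ∈ S} {hNS₁ : ∀ l : ℕ, l.Prime → l ∣ N → l ∈ S₁}
  {a : Nat.Primes → ResidueField O} {K : Type} [Field K] [Algebra O K]
  (E : AtResidualPrime.EigenPoint (qs := qs) Ψ hΨ hneg S hNS a S₁ K)

omit [IsDomain O] [IsDiscreteValuationRing O] [IsAdicComplete (maximalIdeal O) O]
  [Finite (ResidueField O)] [CharZero O] in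
/-- The inclusion of Hecke algebras is the identity on operators. -/
theorem inclAlg_coe (hS₁ : S₁ ⊆ S) (x : levelAlg O Ψ hΨ hneg (goodSet S)) :
    (inclAlg Ψ hΨ hneg hS₁ x).1 = x.1 :=
  Subalgebra.coe_inclusion _ _

omit [IsDomain O] [IsDiscreteValuationRing O] [IsAdicComplete (maximalIdeal O) O]
  [Finite (ResidueField O)] [CharZero O] in
/-- Eigenvalues at one vector on the two algebras agree. -/
theorem eigenVal_inclAlg (hS₁ : S₁ ⊆ S) {φ : clHoms K (GammaPsi Ψ) K} (hφ0 : φ ≠ 0)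
    (hspan : φ ∈ Submodule.span K (Set.range (psiCast Ψ O K).toAddMonoidHom))
    {val : levelAlg O Ψ hΨ hneg (goodSet S) →ₐ[O] K}
    {val₁ : levelAlg O Ψ hΨ hneg (goodSet S₁) →ₐ[O] K}
    (h : ∀ x, HasExtEigen (psiCast Ψ O K).toAddMonoidHom φ x.1.1 (val x))
    (h₁ : ∀ x, HasExtEigen (psiCast Ψ O K).toAddMonoidHom φ x.1.1 (val₁ x))
    (x : levelAlg O Ψ hΨ hneg (goodSet S)) :
    val₁ (inclAlg Ψ hΨ hneg hS₁ x) = val x := by
  have h1 := h₁ (inclAlg Ψ hΨ hneg hS₁ x)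
  rw [inclAlg_coe hS₁ x] at h1
  exact h1.unique hφ0 hspan (h x)

omit [Finite (ResidueField O)] [CharZero O] in
/-- The two algebras at the eigenvector of a point. -/
theorem val₁_inclAlg (hS₁ : S₁ ⊆ S) (x : levelAlg O Ψ hΨ hneg (goodSet S)) :
    E.val₁ (inclAlg Ψ hΨ hneg hS₁ x) = E.val x :=
  eigenVal_inclAlg hS₁ E.ne_zero E.span E.hasEigen E.hasEigen₁ x

omit [Finite (ResidueField O)] [CharZero O] in
/-- The refined values extend those of the point. -/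
theorem ev₁_inclAlg (hS₁ : S₁ ⊆ S) (x : levelAlg O Ψ hΨ hneg (goodSet S)) :
    E.Q.ev₁ (inclAlg Ψ hΨ hneg hS₁ x) = E.Q.ext (E.P.ev x) :=
  E.Q.j_inj ((E.j_ev₁ _).trans ((val₁_inclAlg E hS₁ x).trans (E.j_ext _).symm))

end Values

end Fermat.Agent.Raising.Modular

end
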