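/-
The levels of a raising step.
-/
import Fermat.Agent.LevelLowering.TWEigen
import Fermat.Agent.Raising.Degen.Maps

/-!
# The tower of levels of a raising step

`levelSeq N q j = N q₀ ⋯ q_{j-1}` with the character read at every level, and the properties of a
Taylor–Wiles level along the tower.
-/

noncomputable section

namespace Fermat.Agent.Raising.Modular

open scoped MatrixGroups
open CongruenceSubgroup Fermat.Agent.Grp Fermat.Agent.Ihara Fermat.Agent.LevelLowering

/-- The level raised at the first `j` primes. -/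
def levelSeq (N : ℕ) (q : ℕ → ℕ) : ℕ → ℕ
  | 0 => N
  | j + 1 => levelSeq N q j * q j

variable {N : ℕ} {q : ℕ → ℕ}

instance instNeZero_levelSeq [NeZero N] [∀ j, NeZero (q j)] : ∀ j, NeZero (levelSeq N q j)
  | 0 => ‹NeZero N›
  | j + 1 => ⟨mul_ne_zero (instNeZero_levelSeq j).out (NeZero.ne (q j))⟩

/-- A factor of the base level persists along the tower. -/
theorem levelSeq_mul (N P : ℕ) (q : ℕ → ℕ) : ∀ j, levelSeq (N * P) q j = levelSeq N q j * P
  | 0 => rfl
  | j + 1 => by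
    show levelSeq (N * P) q j * q j = levelSeq N q j * q j * P
    rw [levelSeq_mul N P q j]; ring

/-- The levels divide one another along the tower. -/
theorem levelSeq_dvd_of_le (N : ℕ) (q : ℕ → ℕ) {i j : ℕ} (h : i ≤ j) :
    levelSeq N q i ∣ levelSeq N q j := by
  induction h with
  | refl => exact dvd_rfl
  | step _ ih => exact ih.trans (dvd_mul_right _ _)

/-- The base level divides every level. -/
theorem dvd_levelSeq (N : ℕ) (q : ℕ → ℕ) (j : ℕ) : N ∣ levelSeq N q j :=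
  levelSeq_dvd_of_le N q (Nat.zero_le j)

/-- A prime dividing a level divides the base or an earlier factor. -/
theorem exists_of_prime_dvd_levelSeq {l : ℕ} (hl : l.Prime) :
    ∀ {j : ℕ}, l ∣ levelSeq N q j → l ∣ N ∨ ∃ i < j, l ∣ q i
  | 0, h => Or.inl h
  | j + 1, h => by
    rcases hl.dvd_mul.mp h with h | h
    · rcases exists_of_prime_dvd_levelSeq hl h with h | ⟨i, hi, h⟩
      · exact Or.inl h
      · exact Or.inr ⟨i, hi.trans (Nat.lt_succ_self j), h⟩
    · exact Or.inr ⟨j, Nat.lt_succ_self j, h⟩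

variable {Δ : Type} [CommGroup Δ]

/-- The character at the levels of the tower. -/
def psiSeq (Ψ : (ZMod N)ˣ →* Δ) (q : ℕ → ℕ) : ∀ j, (ZMod (levelSeq N q j))ˣ →* Δ
  | 0 => Ψ
  | j + 1 => Degen.liftPsi (psiSeq Ψ q j) (q j)

variable {Ψ : (ZMod N)ˣ →* Δ} [NeZero N] [∀ j, NeZero (q j)]

/-- The lifted characters stay surjective. -/
theorem psiSeq_surjective (hΨ : Function.Surjective Ψ) :
    ∀ j, Function.Surjective (psiSeq Ψ q j)
  | 0 => hΨ
  | j + 1 => Degen.liftPsi_surjective _ (q j) (psiSeq_surjective hΨ j)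

omit [NeZero N] [∀ (j : ℕ), NeZero (q j)] in
/-- The lifted groups contain `-1`. -/
theorem psiSeq_neg (hneg : (-1 : SL(2, ℤ)) ∈ GammaPsi Ψ) :
    ∀ j, (-1 : SL(2, ℤ)) ∈ GammaPsi (psiSeq Ψ q j)
  | 0 => hneg
  | j + 1 => Degen.neg_one_mem_lift _ (q j) (psiSeq_neg hneg j)

omit [NeZero N] [∀ (j : ℕ), NeZero (q j)] in
/-- The lifted characters kill elements of small trace. -/
theorem psiSeq_ker (h : ∀ g : Gamma0 N, |tr (g : SL(2, ℤ))| ≤ 2 → dChar Ψ g = 1) :
    ∀ j, ∀ g : Gamma0 (levelSeq N q j), |tr (g : SL(2, ℤ))| ≤ 2 → dChar (psiSeq Ψ q j) g = 1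
  | 0 => h
  | j + 1 => Degen.lift_kills_small_trace _ (q j) (psiSeq_ker h j)

section TW

variable {p r : ℕ} [Fact p.Prime] {lv : Fin r → ℕ} {qs : Fin r → ℕ} {M : ℕ} [NeZero M]
  {hM : ∀ i, qs i ∣ M} {π : ∀ i, (ZMod (qs i))ˣ →* Multiplicative (ZMod (p ^ lv i))}
  {Φ : (ZMod M)ˣ →* DiaGroup p lv}

omit [Fact (Nat.Prime p)] [NeZero M] in
/-- A Taylor–Wiles level stays one when a prime not among the auxiliary ones is added. -/
theorem isTWLevel_lift (h : IsTWLevel hM π Φ) (l : ℕ) (hl : ∀ i, ¬ qs i ∣ l)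
    (hM' : ∀ i, qs i ∣ M * l) : IsTWLevel hM' π (Degen.liftPsi Φ l) :=
  ⟨h.two, h.prime, h.inj, h.surj, fun i u => by
    rw [Degen.liftPsi_apply, h.comp]
    exact congrArg (π i) ((MonoidHom.comp_apply _ _ u).symm.trans
      (DFunLike.congr_fun (ZMod.unitsMap_comp (hM i) (dvd_mul_right M l)) u)),
  fun i hd => by
    refine h.once i ?_
    exact ((Nat.Coprime.mul_left ((h.prime i).coprime_iff_not_dvd.mpr (hl i))
      ((h.prime i).coprime_iff_not_dvd.mpr (hl i))).dvd_of_dvd_mul_right hd)⟩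

omit [Fact (Nat.Prime p)] [NeZero M] in
/-- The Taylor–Wiles property along the tower. -/
theorem isTWLevel_psiSeq (q : ℕ → ℕ) [∀ j, NeZero (q j)] (h : IsTWLevel hM π Φ)
    (hq : ∀ j i, ¬ qs i ∣ q j) :
    ∀ j, IsTWLevel (fun i => (hM i).trans (dvd_levelSeq M q j)) π (psiSeq Φ q j)
  | 0 => h
  | j + 1 => isTWLevel_lift (isTWLevel_psiSeq q h hq j) (q j) (hq j) _

end TW

end Fermat.Agent.Raising.Modular

end
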