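/-
The levels of a raising over one choice of auxiliary primes.
-/
import Fermat.Agent.Raising.AuxLevel
import Fermat.Agent.Raising.Inputs
import Fermat.Agent.Raising.LocalKind
import Fermat.Agent.Raising.Modular.PartLevel
import Fermat.Agent.Raising.Modular.Tower

/-!
# The levels of a raising

`RaiseLevels`: for auxiliary primes `qv`, the levels `N₀ q₀ ⋯ q_{j-1} ∏ qv` in coordinates over
prescribed coordinates of the levels `N₀ q₀ ⋯ q_{j-1}`, all at one residual system; they exist as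
soon as an auxiliary prime `t ≡ 2 (mod 3)` divides `N₀` (`exists_raiseLevels`).
-/

noncomputable section

namespace Fermat.Agent.Raising.Modular

open scoped MatrixGroups IsMulCommutative
open CongruenceSubgroup IsLocalRing Polynomial Fermat.Agent.Grp Fermat.Agent.Ihara
  Fermat.Agent.LevelLowering

local notation "Qbar" => AlgebraicClosure ℚ
local notation "GQ" => (AlgebraicClosure ℚ ≃ₐ[ℚ] AlgebraicClosure ℚ)

variable {O : Type} [CommRing O] [IsDomain O] [IsDiscreteValuationRing O]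
  [IsAdicComplete (maximalIdeal O) O] [Finite (ResidueField O)] [CharZero O]
  {p : ℕ} [Fact p.Prime] {ρbar : ResidualGaloisRep (ResidueField O)}
  {bbar : Module.Basis (Fin 2) (ResidueField O) ρbar.V} {m D : ℕ}

/-- The prime raised at step `j`, `1` after the last step. -/
def qAt (P : Fin m → RaisedPrime p ρbar bbar) (j : ℕ) : ℕ := if h : j < m then (P ⟨j, h⟩).q else 1

omit [IsAdicComplete (maximalIdeal O) O] [Finite (ResidueField O)] [CharZero O]
  [Fact (Nat.Prime p)] in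
/-- The factor at a raised step is its prime. -/
theorem qAt_eq (P : Fin m → RaisedPrime p ρbar bbar) (j : Fin m) : qAt P j = (P j).q :=
  dif_pos j.2

omit [IsAdicComplete (maximalIdeal O) O] [Finite (ResidueField O)] [CharZero O]
  [Fact (Nat.Prime p)] in
/-- The factor past the last step is one. -/
theorem qAt_of_le (P : Fin m → RaisedPrime p ρbar bbar) {j : ℕ} (h : m ≤ j) : qAt P j = 1 :=
  dif_neg h.not_gt

instance instNeZero_qAt (P : Fin m → RaisedPrime p ρbar bbar) (j : ℕ) : NeZero (qAt P j) := by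
  unfold qAt
  split_ifs with h
  · exact ⟨(P ⟨j, h⟩).prime.ne_zero⟩
  · exact ⟨one_ne_zero⟩

omit [IsAdicComplete (maximalIdeal O) O] [Finite (ResidueField O)] [CharZero O]
  [Fact (Nat.Prime p)] in
/-- A prime dividing a factor is the prime of that step. -/
theorem prime_dvd_qAt (P : Fin m → RaisedPrime p ρbar bbar) {l j : ℕ} (hl : l.Prime)
    (h : l ∣ qAt P j) : ∃ i : Fin m, (i : ℕ) = j ∧ (P i).q = l := by
  unfold qAt at h
  split_ifs at h with hj
  · exact ⟨⟨j, hj⟩, rfl, ((Nat.prime_dvd_prime_iff_eq hl (P ⟨j, hj⟩).prime).mp h).symm⟩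
  · exact absurd (Nat.dvd_one.mp h) hl.ne_one

instance instNeZero_twLev (N₀ : ℕ) [NeZero N₀] (qv : Fin D → ℕ) [∀ i, NeZero (qv i)] :
    NeZero (N₀ * ∏ i, qv i) :=
  ⟨mul_ne_zero (NeZero.ne N₀) (Finset.prod_ne_zero_iff.mpr fun i _ => NeZero.ne (qv i))⟩

/-- The level `N₀ q₀ ⋯ q_{j-1} ∏ qv`. -/
abbrev raiseLev (N₀ : ℕ) (P : Fin m → RaisedPrime p ρbar bbar) (qv : Fin D → ℕ) (j : ℕ) : ℕ :=
  levelSeq (N₀ * ∏ i, qv i) (qAt P) j

/-- The excluded primes common to all levels. -/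
abbrev raiseS (S₀ : Finset ℕ) (qv : Fin D → ℕ) : Finset ℕ := S₀ ∪ Finset.univ.image qv

/-- The excluded primes of the algebra of the level `j`. -/
def raiseS₁ (N₀ : ℕ) (P : Fin m → RaisedPrime p ρbar bbar) (S₀ : Finset ℕ) (qv : Fin D → ℕ)
    (j : ℕ) : Finset ℕ :=
  (raiseS S₀ qv).filter fun l => l ∣ raiseLev N₀ P qv j

omit [IsAdicComplete (maximalIdeal O) O] [Finite (ResidueField O)] [CharZero O]
  [Fact (Nat.Prime p)] in
/-- The bad set of a level lies in the common one. -/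
theorem raiseS₁_subset (N₀ : ℕ) (P : Fin m → RaisedPrime p ρbar bbar) (S₀ : Finset ℕ)
    (qv : Fin D → ℕ) (j : ℕ) : raiseS₁ N₀ P S₀ qv j ⊆ raiseS S₀ qv :=
  Finset.filter_subset _ _

omit [IsAdicComplete (maximalIdeal O) O] [Finite (ResidueField O)] [CharZero O]
  [Fact (Nat.Prime p)] in
/-- The primes dividing a level lie in its bad set. -/
theorem mem_raiseS₁ {N₀ : ℕ} {P : Fin m → RaisedPrime p ρbar bbar} {S₀ : Finset ℕ}
    {qv : Fin D → ℕ} {j : ℕ} (hmem : ∀ l, l.Prime → l ∣ raiseLev N₀ P qv j → l ∈ raiseS S₀ qv)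
    (l : ℕ) (hl : l.Prime) (hd : l ∣ raiseLev N₀ P qv j) : l ∈ raiseS₁ N₀ P S₀ qv j :=
  Finset.mem_filter.mpr ⟨hmem l hl hd, hd⟩

omit [IsAdicComplete (maximalIdeal O) O] [Finite (ResidueField O)] [CharZero O]
  [Fact (Nat.Prime p)] in
/-- A prime of the level `j`. -/
theorem prime_dvd_raiseLev {N₀ : ℕ} {P : Fin m → RaisedPrime p ρbar bbar} {qv : Fin D → ℕ}
    (hqv : ∀ i, (qv i).Prime) {l j : ℕ} (hl : l.Prime) (h : l ∣ raiseLev N₀ P qv j) :
    l ∣ N₀ ∨ (∃ i, qv i = l) ∨ ∃ i : Fin m, (i : ℕ) < j ∧ (P i).q = l := by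
  rcases exists_of_prime_dvd_levelSeq hl h with h | ⟨i, hij, h⟩
  · rcases hl.dvd_mul.mp h with h | h
    · exact Or.inl h
    · obtain ⟨i, -, hi⟩ := (hl.prime.dvd_finsetProd_iff _).mp h
      exact Or.inr (Or.inl ⟨i, ((Nat.prime_dvd_prime_iff_eq hl (hqv i)).mp hi).symm⟩)
  · obtain ⟨i', hi', e⟩ := prime_dvd_qAt P hl h
    exact Or.inr (Or.inr ⟨i', hi' ▸ hij, e⟩)

omit [IsAdicComplete (maximalIdeal O) O] [Finite (ResidueField O)] [CharZero O]
  [Fact (Nat.Prime p)] in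
/-- The level `j` without auxiliary primes. -/
theorem levelSeq_qAt (N₀ : ℕ) (P : Fin m → RaisedPrime p ρbar bbar) :
    ∀ j, levelSeq N₀ (qAt P) j =
      N₀ * ∏ i ∈ Finset.univ.filter (fun i : Fin m => (i : ℕ) < j), (P i).q
  | 0 => by simp [levelSeq]
  | j + 1 => by
    show levelSeq N₀ (qAt P) j * qAt P j = _
    rw [levelSeq_qAt N₀ P j, mul_assoc]
    congr 1
    by_cases hj : j < m
    · rw [show qAt P j = (P ⟨j, hj⟩).q from dif_pos hj,
        show (Finset.univ.filter fun i : Fin m => (i : ℕ) < j + 1) =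
          insert ⟨j, hj⟩ (Finset.univ.filter fun i : Fin m => (i : ℕ) < j) by
          ext i; simp only [Finset.mem_filter, Finset.mem_univ, true_and, Finset.mem_insert,
            Fin.ext_iff]; omega,
        Finset.prod_insert (by simp), mul_comm]
    · rw [qAt_of_le P (not_lt.mp hj), mul_one]
      refine Finset.prod_congr (Finset.filter_congr fun i _ => ?_) fun _ _ => rfl
      have := i.2; omega

omit [IsAdicComplete (maximalIdeal O) O] [Finite (ResidueField O)] [CharZero O]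
  [Fact (Nat.Prime p)] in
/-- A prime of the level `j` is `p`, a ramified prime of that level or an auxiliary prime. -/
theorem mem_of_dvd_raiseLev {N₀ : ℕ} [NeZero N₀] {P : Fin m → RaisedPrime p ρbar bbar}
    {qv : Fin D → ℕ} (hqv : ∀ i, (qv i).Prime) {l j : ℕ} (hl : l.Prime)
    (hd : l ∣ raiseLev N₀ P qv j) :
    l ∈ insert p (ramSet P (N₀.primeFactors.erase p) j ∪ Finset.univ.image qv) := by
  rw [Finset.mem_insert]
  refine or_iff_not_imp_left.mpr fun hlp => ?_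
  rcases prime_dvd_raiseLev hqv hl hd with h | ⟨i, rfl⟩ | ⟨i, hi, rfl⟩
  · exact Finset.mem_union_left _ (Finset.mem_union_left _
      (Finset.mem_erase.mpr ⟨hlp, Nat.mem_primeFactors.mpr ⟨hl, h, NeZero.ne N₀⟩⟩))
  · exact Finset.mem_union_right _ (Finset.mem_image.mpr ⟨i, Finset.mem_univ _, rfl⟩)
  · exact Finset.mem_union_left _ (Finset.mem_union_right _
      (Finset.mem_image.mpr ⟨i, Finset.mem_filter.mpr ⟨Finset.mem_univ _, hi⟩, rfl⟩))

omit [IsAdicComplete (maximalIdeal O) O] [Finite (ResidueField O)] [CharZero O]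
  [Fact (Nat.Prime p)] in
/-- A ramified prime of the level `j` divides it once and is not auxiliary. -/
theorem dvd_once_of_mem {N₀ : ℕ} {P : Fin m → RaisedPrime p ρbar bbar} {S₀ : Finset ℕ}
    {qv : Fin D → ℕ} (hsq : Squarefree N₀) (hqv : ∀ i, (qv i).Prime) (hqvS : ∀ i, qv i ∉ S₀)
    (hN₀S : ∀ l : ℕ, l.Prime → l ∣ N₀ → l ∈ S₀) (hPS : ∀ i, (P i).q ∈ S₀)
    (hPinj : Function.Injective fun i => (P i).q) (hPN : ∀ i, ¬ (P i).q ∣ N₀) {l j : ℕ}
    (hl : l.Prime) (h : l ∈ ramSet P (N₀.primeFactors.erase p) j) :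
    l ∣ raiseLev N₀ P qv j ∧ ¬ l ^ 2 ∣ raiseLev N₀ P qv j ∧ ∀ i, qv i ≠ l := by
  set M := N₀ * ∏ i ∈ Finset.univ.filter (fun i : Fin m => (i : ℕ) < j), (P i).q with hM
  have hlev : raiseLev N₀ P qv j = M * ∏ i, qv i := by
    show levelSeq (N₀ * ∏ i, qv i) (qAt P) j = _
    rw [levelSeq_mul, levelSeq_qAt]
  have hdvd : l ∣ M ∧ l ∈ S₀ := by
    rcases Finset.mem_union.mp h with h' | h'
    · have hd := Nat.dvd_of_mem_primeFactors (Finset.mem_of_mem_erase h')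
      exact ⟨dvd_mul_of_dvd_left hd _, hN₀S l hl hd⟩
    · obtain ⟨i, hi, rfl⟩ := Finset.mem_image.mp h'
      exact ⟨dvd_mul_of_dvd_right (Finset.dvd_prod_of_mem (fun k : Fin m => (P k).q) hi) _, hPS i⟩
  have hne : ∀ i, qv i ≠ l := fun i e => hqvS i (e ▸ hdvd.2)
  have hsqf : Squarefree M := by
    refine (Nat.squarefree_mul ?_).2 ⟨hsq, ?_⟩
    · exact Nat.Coprime.prod_right fun i _ =>
        ((P i).prime.coprime_iff_not_dvd.2 (hPN i)).symm
    · generalize Finset.univ.filter (fun i : Fin m => (i : ℕ) < j) = s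
      induction s using Finset.induction_on with
      | empty => simp
      | insert a s ha ih =>
        rw [Finset.prod_insert ha]
        refine (Nat.squarefree_mul ?_).2 ⟨(P a).prime.squarefree, ih⟩
        exact Nat.Coprime.prod_right fun i hi => (Nat.coprime_primes (P a).prime (P i).prime).2
          fun e => ha (hPinj e ▸ hi)
  refine ⟨hlev ▸ dvd_mul_of_dvd_left hdvd.1 _, fun h2 => ?_, hne⟩
  rw [hlev] at h2
  have hcop : (l ^ 2).Coprime (∏ i, qv i) :=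
    (Nat.Coprime.prod_right fun i _ => (Nat.coprime_primes hl (hqv i)).mpr (hne i).symm).pow_left 2
  exact Nat.squarefree_iff_prime_squarefree.mp hsqf l hl (sq l ▸ hcop.dvd_of_dvd_mul_right h2)

variable (K : Type) [Field K] [Algebra O K] (P : Fin m → RaisedPrime p ρbar bbar)
  (N₀ : ℕ) [NeZero N₀] (S₀ : Finset ℕ) (c₀ : ℕ → O) (d : ℕ → ℕ)
  (Tm : ∀ j, ℕ → Matrix (Fin (d j)) (Fin (d j)) O) (qv : Fin D → ℕ) [∀ i, NeZero (qv i)]
  (lv : Fin D → ℕ)

/-- **The levels of a raising at one choice of auxiliary primes.** -/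
structure RaiseLevels : Type 1 where
  /-- A residual root of Frobenius at each auxiliary prime. -/
  α : Fin D → ResidueField O
  /-- The characters of `(ℤ/qv i)ˣ` to the cyclic groups of order `p ^ lv i`. -/
  π : ∀ i, (ZMod (qv i))ˣ →* Multiplicative (ZMod (p ^ lv i))
  /-- The character of `(ℤ/N₀ ∏ qv)ˣ` onto the group of diamonds. -/
  Ψ : (ZMod (N₀ * ∏ i, qv i))ˣ →* DiaGroup p lv
  hΨ : Function.Surjective Ψ
  hneg : (-1 : SL(2, ℤ)) ∈ GammaPsi Ψ
  hN : ∀ i, qv i ∣ N₀ * ∏ i, qv i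
  tw : IsTWLevel hN π Ψ
  htr : ∀ g : Gamma0 (N₀ * ∏ i, qv i), |tr (g : SL(2, ℤ))| ≤ 2 →
    dChar Ψ g = 1
  not_dvd : ∀ i j, ¬ qv i ∣ qAt P j
  /-- `α i` and a second value are the residual roots at `qv i`. -/
  roots : ∀ i, ∃ β : ResidueField O, α i ≠ β ∧ α i * β = 1 ∧
    α i + β = sysOf c₀ ⟨qv i, tw.prime i⟩
  mem : ∀ j l, l.Prime → l ∣ raiseLev N₀ P qv j → l ∈ raiseS S₀ qv
  /-- The level raised at the first `j` primes, in coordinates. -/
  L : ∀ j, PartLevel qv (psiSeq Ψ (qAt P) j) (psiSeq_surjective hΨ j) (psiSeq_neg hneg j) S₀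
    (raiseS S₀ qv) (raiseS₁ N₀ P S₀ qv j) (mem j) (mem_raiseS₁ (mem j))
    (topSys qv α (sysOf c₀)) K (d j) (Tm j)

variable {K P N₀ S₀ c₀ d Tm qv lv}

omit [Finite (ResidueField O)] [CharZero O] in
/-- Every level of the raising is a Taylor–Wiles level. -/
theorem RaiseLevels.twAt (R : RaiseLevels K P N₀ S₀ c₀ d Tm qv lv) (j : ℕ) :
    IsTWLevel (fun i => (R.hN i).trans (dvd_levelSeq (N₀ * ∏ i, qv i) (qAt P) j)) R.π
      (psiSeq R.Ψ (qAt P) j) :=
  isTWLevel_psiSeq (qAt P) R.tw (fun j' i => R.not_dvd i j') j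

omit [Finite (ResidueField O)] [CharZero O] in
/-- At every level of the raising the diamonds kill elements of small trace. -/
theorem RaiseLevels.trAt (R : RaiseLevels K P N₀ S₀ c₀ d Tm qv lv) (j : ℕ) :
    ∀ g : Gamma0 (raiseLev N₀ P qv j), |tr (g : SL(2, ℤ))| ≤ 2 →
      dChar (psiSeq R.Ψ (qAt P) j) g = 1 :=
  psiSeq_ker R.htr j

variable (K P) in
/-- **The levels of a raising exist.** -/
theorem exists_raiseLevels [CharZero K] [IsAlgClosed K] [Algebra (FractionRing O) K]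
    [IsScalarTower O (FractionRing O) K] (hs : SysHyp p ρbar S₀ c₀)
    (hN₀S : ∀ l : ℕ, l.Prime → l ∣ N₀ → l ∈ S₀) {t : ℕ} (ht : t.Prime) (htN : t ∣ N₀)
    (ht3 : t % 3 = 2) (hPS : ∀ i, (P i).q ∈ S₀) (lvl : ℕ → ℕ) [∀ j, NeZero (lvl j)]
    (hlvl : ∀ j, lvl j = N₀ * ∏ i ∈ Finset.univ.filter (fun i : Fin m => (i : ℕ) < j), (P i).q)
    (b₀ : ∀ j, Fin (d j) → clH O (lvl j))
    (hb₀ : ∀ j i, (baseIdem O (lvl j) (goodSet S₀) (sysOf c₀)).1 (b₀ j i) = b₀ j i)
    (hb₀free : ∀ j x, (baseIdem O (lvl j) (goodSet S₀) (sysOf c₀)).1 x = x →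
      ∃! b : Fin (d j) → O, ∑ i, b i • b₀ j i = x)
    (hTm : ∀ j (ℓ : goodSet S₀) k,
      baseGen O (lvl j) (goodSet S₀) ℓ (b₀ j k) = ∑ i, Tm j (ℓ.1 : ℕ) i k • b₀ j i)
    (hinj : Function.Injective qv) (hqv : ∀ i, (qv i).Prime) (hqvS : ∀ i, qv i ∉ S₀)
    (hlv : ∀ i, 1 ≤ lv i) (hdvd : ∀ i, p ^ lv i ∣ qv i - 1)
    (hroots : ∀ i, ∀ A : ValuationSubring Qbar, A.LiesOverPrime (qv i) →
      ∀ φ : GQ, A.IsFrobeniusAt φ (qv i) → ∃ α β : ResidueField O, α ≠ β ∧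
        LinearMap.charpoly (ρbar.ρ φ) =
          (Polynomial.X - Polynomial.C α) * (Polynomial.X - Polynomial.C β)) :
    Nonempty (RaiseLevels K P N₀ S₀ c₀ d Tm qv lv) := by
  classical
  have : CharP (ResidueField O) p := charP_residueField_of_mem Fact.out hs.p_mem
  have hdvdM : ∀ i, qv i ∣ N₀ * ∏ i, qv i := fun i =>
    dvd_mul_of_dvd_right (Finset.dvd_prod_of_mem qv (Finset.mem_univ i)) N₀
  have hqN₀ : ∀ i, ¬ qv i ∣ N₀ := fun i hd => hqvS i (hN₀S _ (hqv i) hd)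
  have hnot : ∀ i j, ¬ qv i ∣ qAt P j := fun i j hd => by
    obtain ⟨i', -, e⟩ := prime_dvd_qAt P (hqv i) hd
    exact hqvS i (e ▸ hPS i')
  have hmem : ∀ j l, l.Prime → l ∣ raiseLev N₀ P qv j → l ∈ raiseS S₀ qv := fun j l hl hd => by
    rcases prime_dvd_raiseLev hqv hl hd with h | ⟨i, rfl⟩ | ⟨i, -, rfl⟩
    · exact Finset.mem_union_left _ (hN₀S l hl h)
    · exact Finset.mem_union_right _ (Finset.mem_image.mpr ⟨i, Finset.mem_univ _, rfl⟩)
    · exact Finset.mem_union_left _ (hPS i)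
  obtain ⟨π, Ψ, hΨ, hπ, hcomp⟩ := exists_twPsi (lv := lv) qv hqv hinj hdvd hdvdM
  have hker : ∀ x : Gamma0 (N₀ * ∏ i, qv i), |tr (x : SL(2, ℤ))| ≤ 2 → dChar Ψ x = 1 :=
    twPsi_abs_tr_le_aux hs.two hqv hdvdM π Ψ hcomp ht (htN.trans (dvd_mul_right _ _)) ht3
  have hneg : (-1 : SL(2, ℤ)) ∈ GammaPsi Ψ := by
    refine (mem_GammaPsi Ψ ⟨-1, neg_one_mem_Gamma0 _⟩).mpr (hker _ ?_)
    show |Matrix.trace ((-1 : SL(2, ℤ)) : Matrix (Fin 2) (Fin 2) ℤ)| ≤ 2
    simp
  have htw : IsTWLevel hdvdM π Ψ := ⟨hs.two, hqv, hinj, hπ, hcomp, fun i hd => by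
    have hM : N₀ * ∏ k, qv k = qv i * (N₀ * ∏ k ∈ Finset.univ.erase i, qv k) := by
      rw [← Finset.mul_prod_erase Finset.univ qv (Finset.mem_univ i)]; ring
    rw [hM] at hd
    rcases (hqv i).dvd_mul.mp (Nat.dvd_of_mul_dvd_mul_left (hqv i).pos hd) with h | h
    · exact hqN₀ i h
    · obtain ⟨k, hk, hik⟩ := ((hqv i).prime.dvd_finsetProd_iff _).mp h
      exact (Finset.mem_erase.mp hk).1
        (hinj ((Nat.prime_dvd_prime_iff_eq (hqv i) (hqv k)).mp hik)).symm⟩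
  have hone : ∀ i, ((qv i : ℕ) : ResidueField O) = 1 := fun i => by
    have h2 := (CharP.cast_eq_zero_iff (ResidueField O) p _).mpr
      ((dvd_pow_self p (Nat.one_le_iff_ne_zero.mp (hlv i))).trans (hdvd i))
    rwa [Nat.cast_sub (hqv i).one_le, Nat.cast_one, sub_eq_zero] at h2
  have hroots' : ∀ i, ∃ α β : ResidueField O, α ≠ β ∧ α * β = 1 ∧
      α + β = sysOf c₀ ⟨qv i, hqv i⟩ := fun i => by
    obtain ⟨A, hA⟩ := Gal.exists_liesOverPrime (hqv i)
    obtain ⟨φ, hφ⟩ := Gal.exists_isFrobeniusAt (hqv i) hA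
    obtain ⟨a, b, hab, he⟩ := hroots i A hA φ hφ
    rw [hs.frob (qv i) (hqv i) (hqvS i) A hA φ hφ] at he
    have h0 := congrArg (fun F : Polynomial (ResidueField O) => F.coeff 0) he
    have h1 := congrArg (fun F : Polynomial (ResidueField O) => F.coeff 1) he
    simp [mul_sub, sub_mul, Polynomial.coeff_X, Polynomial.coeff_X_pow, Polynomial.coeff_C,
      Polynomial.coeff_mul_C] at h0 h1
    refine ⟨a, b, hab, ?_, ?_⟩
    · rw [← hone i]; linear_combination -h0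
    · show a + b = residue O (c₀ (qv i))
      linear_combination h1
  choose α β hne hαβ hsum using hroots'
  have hL : ∀ j, Nonempty (PartLevel qv (psiSeq Ψ (qAt P) j) (psiSeq_surjective hΨ j)
      (psiSeq_neg hneg j) S₀ (raiseS S₀ qv) (raiseS₁ N₀ P S₀ qv j) (hmem j)
      (mem_raiseS₁ (hmem j)) (topSys qv α (sysOf c₀)) K (d j) (Tm j)) := fun j => by
    obtain ⟨ℓ₀, hℓ₀, hℓ₀T, hℓ₀a, -⟩ :=
      hs.not_eisenstein (S₀ ∪ (raiseLev N₀ P qv j).primeFactors)
    rw [Finset.mem_union, not_or] at hℓ₀T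
    refine exists_partLevel (psiSeq Ψ (qAt P) j) (psiSeq_surjective hΨ j) (psiSeq_neg hneg j) S₀
      (raiseS S₀ qv) (raiseS₁ N₀ P S₀ qv j) (hmem j) (mem_raiseS₁ (hmem j)) (sysOf c₀)
      (isTWLevel_psiSeq (qAt P) htw (fun j' i => hnot i j') j) (M := lvl j) ?_ ?_ hlv hdvd
      (psiSeq_ker hker j) Finset.subset_union_left hqvS
      (fun i => Finset.mem_union_right _ (Finset.mem_image.mpr ⟨i, Finset.mem_univ _, rfl⟩))
      hs.p_bad hs.p_mem hs.absIrr
      (fun ℓ hℓ hℓS A hA σ hσ =>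
        hs.frob ℓ hℓ (fun hm => hℓS (Finset.mem_union_left _ hm)) A hA σ hσ)
      α β hαβ hne (fun i => (hsum i).symm)
      ⟨⟨ℓ₀, hℓ₀⟩, hℓ₀T.1,
        fun hd => hℓ₀T.2 (Nat.mem_primeFactors.mpr ⟨hℓ₀, hd, NeZero.ne _⟩), hℓ₀a⟩
      K (b₀ j) (hb₀ j) (hb₀free j) (Tm j) (fun ℓ k _ => hTm j ℓ k)
    · show levelSeq (N₀ * ∏ i, qv i) (qAt P) j = lvl j * ∏ i, qv i
      rw [levelSeq_mul, hlvl, levelSeq_qAt]
    · intro i hd
      rw [hlvl, ← levelSeq_qAt] at hd
      rcases exists_of_prime_dvd_levelSeq (hqv i) hd with h | ⟨k, -, h⟩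
      · exact hqN₀ i h
      · exact hnot i k h
  exact ⟨{ α := α, π := π, Ψ := Ψ, hΨ := hΨ, hneg := hneg, hN := hdvdM, tw := htw, htr := hker,
           not_dvd := hnot, mem := hmem,
           roots := fun i => ⟨β i, hne i, hαβ i, hsum i⟩, L := fun j => (hL j).some }⟩

end Fermat.Agent.Raising.Modular

end
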