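/-
The trace of Frobenius at a refined point, at primes outside the smaller set.
-/
import Fermat.Agent.LevelLowering.Scalar.PointsGlue
import Fermat.Agent.Raising.AtResidualPrime.RefinedPoints
import Fermat.Agent.Raising.AtResidualPrime.UnitRootPoint

/-!
# The trace of Frobenius at a prime outside the smaller set

A refined point knows the value of the twisted operator at every prime `l ∉ S₁`; it is the trace of
Frobenius at `l`, by comparison with the representation attached to the eigenvector with the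
smaller bad set `S \ {l}`.
-/

noncomputable section

open scoped MatrixGroups
open Polynomial CongruenceSubgroup IsLocalRing Fermat.Agent.Grp Fermat.Agent.Ihara
  Fermat.Agent.LevelLowering

namespace Fermat.Agent.Raising.Modular

local notation "Qbar" => AlgebraicClosure ℚ
local notation "GQ" => (AlgebraicClosure ℚ ≃ₐ[ℚ] AlgebraicClosure ℚ)

variable {O : Type} [CommRing O] [IsDomain O] [IsDiscreteValuationRing O]
  [IsAdicComplete (maximalIdeal O) O] [Finite (ResidueField O)] [CharZero O]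
  {p r : ℕ} [Fact p.Prime] {lv : Fin r → ℕ} {qs : Fin r → ℕ} {N : ℕ} [NeZero N]
  {hN : ∀ i, qs i ∣ N} {π : ∀ i, (ZMod (qs i))ˣ →* Multiplicative (ZMod (p ^ lv i))}
  {Ψ : (ZMod N)ˣ →* DiaGroup p lv} {hΨ : Function.Surjective Ψ}
  {hneg : (-1 : SL(2, ℤ)) ∈ GammaPsi Ψ} {S : Finset ℕ}
  {hNS : ∀ l : ℕ, l.Prime → l ∣ N → l ∈ S} {a : Nat.Primes → ResidueField O}
  {S₁ : Finset ℕ} {K : Type} [Field K] [CharZero K] [Algebra O K]
  (E : AtResidualPrime.EigenPoint (qs := qs) Ψ hΨ hneg S hNS a S₁ K)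
  (hNS₁ : ∀ l : ℕ, l.Prime → l ∣ N → l ∈ S₁)

omit [Finite (ResidueField O)] [CharZero O] [CharZero K] in
/-- Outside `S` the refined value of the twisted operator extends that of the point. -/
theorem ev₁_twGood_eq (hS : S₁ ⊆ S) (l : Nat.Primes) (hlS : (l : ℕ) ∉ S) :
    E.Q.ev₁ (twGood Ψ hΨ hneg S₁ hNS₁ l fun h => hlS (hS h)) =
      E.Q.ext (E.P.ev (twGood Ψ hΨ hneg S hNS l hlS)) :=
  E.Q.j_inj (by
    rw [E.j_ev₁, E.j_ext]
    exact AtResidualPrime.val_twGood_eq (hΨ := hΨ) (hneg := hneg) S₁ hNS₁ K hS E.ne_zero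
      E.span E.val
      E.hasEigen E.val₁ E.hasEigen₁ l hlS)

include hNS₁ in
omit [Finite (ResidueField O)] [CharZero O] in
/-- **The trace of Frobenius at a prime outside `S₁`.** -/
theorem trace_ev₁ (h : IsTWLevel hN π Ψ) (hp : (p : O) ∈ maximalIdeal O) (hS : S₁ ⊆ S)
    (hpS : p ∈ S) (l : ℕ) (hl : l.Prime) (hlS₁ : l ∉ S₁) (hlp : l ≠ p)
    (A : ValuationSubring Qbar) (hA : A.LiesOverPrime l) (σ : GQ) (hσ : A.IsFrobeniusAt σ l) :
    LinearMap.trace E.Q.F E.Q.ρ.V (E.Q.ρ.ρ σ) =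
      E.Q.ev₁ (twGood Ψ hΨ hneg S₁ hNS₁ ⟨l, hl⟩ hlS₁) := by
  classical
  by_cases hlS : l ∈ S
  swap
  · rw [(trace_det_of_charpoly E.Q.ρ.finrank_eq (E.Q.charpoly_frob l hl hlS A hA σ hσ)).1]
    exact (ev₁_twGood_eq E hNS₁ hS ⟨l, hl⟩ hlS).symm
  set S' := S.erase l with hS'def
  have hS' : S₁ ⊆ S' := fun x hx => Finset.mem_erase.2 ⟨fun e => hlS₁ (e ▸ hx), hS hx⟩
  have hNS' : ∀ m : ℕ, m.Prime → m ∣ N → m ∈ S' := fun m hm hd => hS' (hNS₁ m hm hd)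
  have hpS' : p ∈ S' := Finset.mem_erase.2 ⟨Ne.symm hlp, hpS⟩
  have hle : levelAlg O Ψ hΨ hneg (goodSet S') ≤ levelAlg O Ψ hΨ hneg (goodSet S₁) := by
    refine Algebra.adjoin_mono ?_
    rintro _ ⟨(m | δ), rfl⟩
    · exact ⟨.inl ⟨m.1, fun hm => m.2 (hS' hm)⟩, rfl⟩
    · exact ⟨.inr δ, rfl⟩
  let incl := Subalgebra.inclusion hle
  let ev' : levelAlg O Ψ hΨ hneg (goodSet S') →ₐ[O] E.Q.F := E.Q.ev₁.comp incl
  let val' : levelAlg O Ψ hΨ hneg (goodSet S') →ₐ[O] K := E.val₁.comp incl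
  have hincl : ∀ (m : Nat.Primes) (hm : (m : ℕ) ∉ S'), incl (twGood Ψ hΨ hneg S' hNS' m hm) =
      twGood Ψ hΨ hneg S₁ hNS₁ m (fun h' => hm (hS' h')) := fun m hm => Subtype.ext rfl
  obtain ⟨L, hL0, hLN, θ, hθ⟩ := AtResidualPrime.exists_gamma0_of_eigen (S := S')
    (Ψ := Ψ) h hΨ hneg hNS' K
    E.φ E.ne_zero val' E.χ (fun δ => E.val₁_dia δ) E.diaOp_eq
    (fun m => E.kerOp_eq ⟨m.1, fun hm => m.2 (hS' hm)⟩) E.Q.j E.Q.j_inj ev'
    (fun z => E.j_ev₁ (incl z))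
  have hLS : ∀ q, q.Prime → q ∣ L → q ∈ S' := fun q hq hd => hNS' q hq ((hLN q hq).1 hd)
  have hpF : (p : E.Q.F) ∈ maximalIdeal E.Q.F := by
    rw [← map_natCast (algebraMap O E.Q.F)]
    exact map_nonunit (algebraMap O E.Q.F) _ hp
  obtain ⟨R, iR, iD, iV, iC, iF, iZ, iA, iM, iL, hinjR, ρ, hρ, -⟩ :=
    Attach.exists_galoisRep_of_inputs (Attach.nonempty_jacobianInputs L p).some hpS' hLS E.Q.F
      hpF θ
  let φR := algebraMap E.Q.F R
  let ρ' := E.Q.ρ.baseChangeAlong φR iL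
  have hρ' : ∀ g, LinearMap.charpoly (ρ'.ρ g) = (LinearMap.charpoly (E.Q.ρ.ρ g)).map φR := fun g =>
    Attach.charpoly_baseChangeAlong φR iL E.Q.ρ g
  have heq := Gal.charpoly_eq_of_frobenius ρ' ρ S (fun m hm hmS B hB τ hτ => by
    have hmS' : m ∉ S' := fun h' => hmS (Finset.mem_of_mem_erase h')
    have hmL : ¬ m ∣ L := fun hd => hmS' (hLS m hm hd)
    rw [hρ', E.Q.charpoly_frob m hm hmS B hB τ hτ, hρ m hm hmL hmS' B hB τ hτ, hθ m hm hmL hmS']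
    show _ = X ^ 2 - C (φR (E.Q.ev₁ (incl _))) * X + _
    rw [hincl, ev₁_twGood_eq E hNS₁ hS ⟨m, hm⟩ hmS]
    simp) σ
  have hlS' : l ∉ S' := fun h' => (Finset.mem_erase.1 h').1 rfl
  have hlL : ¬ l ∣ L := fun hd => hlS' (hLS l hl hd)
  rw [hρ l hl hlL hlS' A hA σ hσ, hθ l hl hlL hlS'] at heq
  refine hinjR ?_
  have h1 := (trace_det_of_charpoly ρ'.finrank_eq heq).1
  have h2 : LinearMap.trace R ρ'.V (ρ'.ρ σ) = φR (LinearMap.trace E.Q.F E.Q.ρ.V (E.Q.ρ.ρ σ)) := by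
    let : Algebra E.Q.F R := φR.toAlgebra
    exact LinearMap.trace_baseChange (E.Q.ρ.ρ σ) R
  rw [← h2, h1]
  show φR (E.Q.ev₁ (incl _)) = _
  rw [hincl]

end Fermat.Agent.Raising.Modular

end
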