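/-
A level in coordinates as an `OpLevel`.
-/
import Fermat.Agent.Raising.Inputs
import Fermat.Agent.Raising.Modular.PartLevel
import Fermat.Agent.Raising.Modular.RefinedFrob

/-!
# A level in coordinates as a level of a raising step

`PartLevel.opLevel`: the operators outside `S₁` on the part, with the refined points and their
representations.
-/

noncomputable section

namespace Fermat.Agent.Raising.Modular

open scoped MatrixGroups IsMulCommutative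
open CongruenceSubgroup IsLocalRing Polynomial Fermat.Agent.Grp Fermat.Agent.Ihara
  Fermat.Agent.LevelLowering

variable {O : Type} [CommRing O] [IsDomain O] [IsDiscreteValuationRing O]
  [IsAdicComplete (maximalIdeal O) O] [Finite (ResidueField O)] [CharZero O]
  {p r : ℕ} [Fact p.Prime] {lv : Fin r → ℕ} {qs : Fin r → ℕ} {N : ℕ} [NeZero N]
  {Ψ : (ZMod N)ˣ →* DiaGroup p lv} {hΨ : Function.Surjective Ψ}
  {hneg : (-1 : SL(2, ℤ)) ∈ GammaPsi Ψ} {S₀ S S₁ : Finset ℕ}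
  {hNS : ∀ l : ℕ, l.Prime → l ∣ N → l ∈ S} {hNS₁ : ∀ l : ℕ, l.Prime → l ∣ N → l ∈ S₁}
  {a : Nat.Primes → ResidueField O} {K : Type} [Field K] [CharZero K] [Algebra O K]
  {d : ℕ} {Tm : ℕ → Matrix (Fin d) (Fin d) O}

/-- The operators as a function of a natural number. -/
def opAt (hNS₁ : ∀ l : ℕ, l.Prime → l ∣ N → l ∈ S₁) (ℓ : ℕ) :
    levelAlg O Ψ hΨ hneg (goodSet S₁) :=
  if h : ℓ.Prime ∧ ℓ ∉ S₁ then twGood Ψ hΨ hneg S₁ hNS₁ ⟨ℓ, h.1⟩ h.2 else 0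

omit [IsDomain O] [IsDiscreteValuationRing O] [IsAdicComplete (maximalIdeal O) O]
  [Finite (ResidueField O)] [CharZero O] in
/-- The operator at a prime off the bad set. -/
theorem opAt_eq (hNS₁ : ∀ l : ℕ, l.Prime → l ∣ N → l ∈ S₁) {ℓ : ℕ} (hℓ : ℓ.Prime)
    (hℓS₁ : ℓ ∉ S₁) :
    opAt (O := O) (Ψ := Ψ) (hΨ := hΨ) (hneg := hneg) hNS₁ ℓ =
      twGood Ψ hΨ hneg S₁ hNS₁ ⟨ℓ, hℓ⟩ hℓS₁ :=
  dif_pos ⟨hℓ, hℓS₁⟩

namespace PartLevel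

variable (L : PartLevel qs Ψ hΨ hneg S₀ S S₁ hNS hNS₁ a K d Tm)

omit [Finite (ResidueField O)] [CharZero O] [CharZero K] in
include L in
/-- The values at a point have the residual system. -/
theorem residual_ev₁ (hS₁ : S₁ ⊆ S) {c₀ : ℕ → O}
    (hc₀ : ∀ (ℓ : ℕ) (hℓ : ℓ.Prime), ℓ ∉ S → a ⟨ℓ, hℓ⟩ = residue O (c₀ ℓ)) (i : L.κ) (ℓ : ℕ)
    (hℓ : ℓ.Prime) (hℓS : ℓ ∉ S) :
    (L.E i).Q.ev₁ (opAt hNS₁ ℓ) - algebraMap O (L.E i).Q.F (c₀ ℓ) ∈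
      maximalIdeal (L.E i).Q.F := by
  rw [opAt_eq hNS₁ hℓ fun h => hℓS (hS₁ h), ev₁_twGood_eq (L.E i) hNS₁ hS₁ ⟨ℓ, hℓ⟩ hℓS,
    ← AlgHom.commutes (L.E i).Q.ext, ← map_sub]
  have := (L.E i).Q.ext_local
  refine map_nonunit (L.E i).Q.ext.toRingHom _ ((residue_eq_zero_iff _).mp ?_)
  rw [map_sub, residue_ev_twGood Ψ hΨ hneg S hNS a (L.E i).P.ev (L.E i).P.ev_idem ⟨ℓ, hℓ⟩ hℓS,
    hc₀ ℓ hℓ hℓS, ← ResidueField.map_residue, sub_self]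

/-- **The level in coordinates.** -/
def opLevel (hS₁ : S₁ ⊆ S) (c₀ : ℕ → O)
    (hc₀ : ∀ (ℓ : ℕ) (hℓ : ℓ.Prime), ℓ ∉ S → a ⟨ℓ, hℓ⟩ = residue O (c₀ ℓ)) :
    OpLevel O S c₀ (DiaCoords O p lv) d where
  A := levelAlg O Ψ hΨ hneg (goodSet S₁)
  Φ := L.act
  x := opAt hNS₁
  κ := L.κ
  F := fun i => (L.E i).Q.F
  ev := fun i => (L.E i).Q.ev₁
  ker_iff := L.ker_iff
  residual := L.residual_ev₁ hS₁ hc₀
  ρ := fun i => (L.E i).Q.ρ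
  frob := fun i ℓ hℓ hℓS A hA σ hσ => by
    rw [opAt_eq hNS₁ hℓ fun h => hℓS (hS₁ h), ev₁_twGood_eq (L.E i) hNS₁ hS₁ ⟨ℓ, hℓ⟩ hℓS]
    exact (L.E i).Q.charpoly_frob ℓ hℓ hℓS A hA σ hσ

omit [Finite (ResidueField O)] [CharZero O] [CharZero K] in
/-- The operators without auxiliary primes. -/
theorem opLevel_aug (hS₁ : S₁ ⊆ S) {ℓ : ℕ} (hℓ : ℓ.Prime) (hℓS : ℓ ∉ S) :
    (L.act (opAt hNS₁ ℓ)).map
      (Ideal.Quotient.lift _ MvPowerSeries.constantCoeff (diamondIdeal_aug p lv)) = Tm ℓ := by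
  rw [opAt_eq hNS₁ hℓ fun h => hℓS (hS₁ h)]
  exact L.aug ℓ hℓ hℓS fun h => hℓS (hS₁ h)

end PartLevel

end Fermat.Agent.Raising.Modular

end
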