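/-
Operators of a larger Hecke algebra against the degeneracy matrices.
-/
import Fermat.Agent.Raising.Degen.Saturation

/-!
# Intertwining for any set of primes away from `q`

The parts are cut out by the primes of `𝓟`; elements of the algebra on any set `T` of primes
avoiding `q` still commute with the degeneracy matrices.  The saturation statements for such
elements are `Degen.exists_up_factor_on` and `Degen.kills_of_eigen_on`.
-/

noncomputable section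

namespace Fermat.Agent.Raising.Degen

open scoped MatrixGroups IsMulCommutative
open CongruenceSubgroup IsLocalRing Fermat.Agent.Grp Fermat.Agent.Ihara Fermat.Agent.LevelLowering

variable {O : Type} [CommRing O] [IsDomain O] [IsDiscreteValuationRing O]
  [IsAdicComplete (maximalIdeal O) O] [Finite (ResidueField O)] [IsAddTorsionFree O]
  {p r : ℕ} [Fact p.Prime] [CharP (ResidueField O) p] {lv : Fin r → ℕ} {N : ℕ} [NeZero N]
  {Ψ : (ZMod N)ˣ →* DiaGroup p lv} (hΨ : Function.Surjective Ψ)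
  (hneg : (-1 : SL(2, ℤ)) ∈ GammaPsi Ψ) (𝓟 : Set Nat.Primes) (a : Nat.Primes → ResidueField O)
  {q : ℕ} [NeZero q] (hq : q.Prime) (hqN : ¬ q ∣ N) (hΨ' : Function.Surjective (liftPsi Ψ q))
  (hneg' : (-1 : SL(2, ℤ)) ∈ GammaPsi (liftPsi Ψ q))
  {d d' : ℕ} {v : Fin d → clHoms O (GammaPsi Ψ) O}
  {v' : Fin d' → clHoms O (GammaPsi (liftPsi Ψ q)) O}

local notation "Sd" => MvPowerSeries (Fin r) O ⧸ diamondIdeal (𝒪 := O) p lv

omit [CharP (ResidueField O) p] [Finite (ResidueField O)] in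
/-- **Partners away from `q` commute with the degeneracy matrices.** -/
theorem partMat_intertwine_on
    (hv : IsFreePart (diaOp O Ψ hΨ) (partIdem Ψ hΨ hneg 𝓟 a) v)
    (hv' : IsFreePart (diaOp O (liftPsi Ψ q) hΨ') (partIdem (liftPsi Ψ q) hΨ' hneg' 𝓟 a) v')
    (T : Set Nat.Primes) (hT : ∀ i : T, (i.1 : ℕ) ≠ q)
    {MA MB : Matrix (Fin d') (Fin d) Sd} {DA DB : Matrix (Fin d) (Fin d') Sd}
    (hMA : IsPartMat (diaOp O (liftPsi Ψ q) hΨ') v v' (upA O q Ψ) MA)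
    (hMB : IsPartMat (diaOp O (liftPsi Ψ q) hΨ') v v' (upB O hΨ hq hqN) MB)
    (hDA : IsPartMat (diaOp O Ψ hΨ) v' v (downA O q Ψ) DA)
    (hDB : IsPartMat (diaOp O Ψ hΨ) v' v (downB O hΨ hq hqN) DB)
    {x : levelAlg O Ψ hΨ hneg T} {x' : levelAlg O (liftPsi Ψ q) hΨ' hneg' T}
    (h : LevelPartner O hΨ hneg T hΨ' hneg' x x')
    {Bx : Matrix (Fin d) (Fin d) Sd} (hBx : IsPartMat (diaOp O Ψ hΨ) v v x.1.1 Bx)
    {Mx : Matrix (Fin d') (Fin d') Sd}
    (hMx : IsPartMat (diaOp O (liftPsi Ψ q) hΨ') v' v' x'.1.1 Mx) :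
    (MA * Bx = Mx * MA ∧ MB * Bx = Mx * MB) ∧ (DA * Mx = Bx * DA ∧ DB * Mx = Bx * DB) := by
  have heρ := partIdem_diaOp Ψ hΨ hneg 𝓟 a
  have heρ' := partIdem_diaOp (liftPsi Ψ q) hΨ' hneg' 𝓟 a
  exact ⟨⟨(hBx.comp hMA (upA_diaOp hΨ hΨ')).eq_of hv' heρ'
      (hMA.comp hMx (levelAlg_diaOp (liftPsi Ψ q) hΨ' hneg' T x'))
      fun j => (upA_intertwine hΨ hneg T hq hΨ' hneg' hT h (v j)).symm,
    (hBx.comp hMB (upB_diaOp hΨ hq hqN hΨ')).eq_of hv' heρ'
      (hMB.comp hMx (levelAlg_diaOp (liftPsi Ψ q) hΨ' hneg' T x'))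
      fun j => (upB_intertwine hΨ hneg T hq hqN hΨ' hneg' hT h (v j)).symm⟩,
    (hMx.comp hDA (downA_diaOp hΨ hΨ')).eq_of hv heρ
      (hDA.comp hBx (levelAlg_diaOp Ψ hΨ hneg T x))
      fun j => (downA_intertwine hΨ hneg T hq hΨ' hneg' hT h (v' j)).symm,
    (hMx.comp hDB (downB_diaOp hΨ hq hqN hΨ')).eq_of hv heρ
      (hDB.comp hBx (levelAlg_diaOp Ψ hΨ hneg T x))
      fun j => (downB_intertwine hΨ hneg T hq hqN hΨ' hneg' hT h (v' j)).symm⟩

end Fermat.Agent.Raising.Degen
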