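/-
One step of the raising between two levels in coordinates.
-/
import Fermat.Agent.Raising.AtResidualPrime.NoExtremeRoot
import Fermat.Agent.Raising.AtResidualPrime.PointEmb
import Fermat.Agent.Raising.Modular.PartLevel
import Fermat.Agent.Raising.Modular.SaturationOn
import Fermat.Agent.Raising.NewPoints.Bridge

/-!
# A step of the raising

Between a level and the level with one more prime `q`, both in coordinates: the degeneracy matrices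
intertwining the operators, the operator at `q`, and saturation by the eigensystems whose trace of
Frobenius at `q` is `± (q + 1)` (`exists_step`).
-/

noncomputable section

namespace Fermat.Agent.Raising.Modular

open scoped MatrixGroups IsMulCommutative
open CongruenceSubgroup IsLocalRing Polynomial Fermat.Agent.Grp Fermat.Agent.Ihara
  Fermat.Agent.LevelLowering

local notation "Qbar" => AlgebraicClosure ℚ
local notation "GQ" => (AlgebraicClosure ℚ ≃ₐ[ℚ] AlgebraicClosure ℚ)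

variable {O : Type} [CommRing O] [IsDomain O] [IsDiscreteValuationRing O]
  [IsAdicComplete (maximalIdeal O) O] [Finite (ResidueField O)] [CharZero O]
  {p r : ℕ} [Fact p.Prime] {lv : Fin r → ℕ} {qs : Fin r → ℕ} {N : ℕ} [NeZero N]

local notation "Sd" => MvPowerSeries (Fin r) O ⧸ diamondIdeal (𝒪 := O) p lv

section Values

variable {Ψ : (ZMod N)ˣ →* DiaGroup p lv} {hΨ : Function.Surjective Ψ}
  {hneg : (-1 : SL(2, ℤ)) ∈ GammaPsi Ψ} {S₀ S S₁ : Finset ℕ}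
  {hNS : ∀ l : ℕ, l.Prime → l ∣ N → l ∈ S} {hNS₁ : ∀ l : ℕ, l.Prime → l ∣ N → l ∈ S₁}
  {a : Nat.Primes → ResidueField O} {K : Type} [Field K] [Algebra O K]
  (E : AtResidualPrime.EigenPoint (qs := qs) Ψ hΨ hneg S hNS a S₁ K)

omit [Finite (ResidueField O)] [CharZero O] in
/-- The point and the refined point vanish together. -/
theorem ev_eq_zero_iff (hS₁ : S₁ ⊆ S) (x : levelAlg O Ψ hΨ hneg (goodSet S)) :
    E.P.ev x = 0 ↔ E.Q.ev₁ (inclAlg Ψ hΨ hneg hS₁ x) = 0 := by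
  rw [ev₁_inclAlg E hS₁]
  exact (map_eq_zero_iff E.Q.ext E.Q.ext_inj).symm

omit [IsDomain O] [IsDiscreteValuationRing O] [IsAdicComplete (maximalIdeal O) O]
  [Finite (ResidueField O)] [CharZero O] in
/-- The operator of a prime is the same in every algebra containing it. -/
theorem twGood_val_eq {T T' : Finset ℕ} (hT : ∀ l : ℕ, l.Prime → l ∣ N → l ∈ T)
    (hT' : ∀ l : ℕ, l.Prime → l ∣ N → l ∈ T') (ℓ : Nat.Primes) (h : (ℓ : ℕ) ∉ T)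
    (h' : (ℓ : ℕ) ∉ T') :
    ((twGood (O := O) Ψ hΨ hneg T hT ℓ h).1 : levelEnd O Ψ) =
      (twGood (O := O) Ψ hΨ hneg T' hT' ℓ h').1 := by
  rw [twGood, twGood, twElt, twElt, MulMemClass.coe_mul, MulMemClass.coe_mul]
  rfl

omit [Finite (ResidueField O)] [CharZero O] in
/-- The trace at the refined point. -/
theorem trace_ρ (σ : GQ) :
    LinearMap.trace E.Q.F E.Q.ρ.V (E.Q.ρ.ρ σ) =
      E.Q.ext (LinearMap.trace E.P.R E.P.H.ρ.V (E.P.H.ρ.ρ σ)) := by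
  let : Algebra E.P.R E.Q.F := E.Q.ext.toRingHom.toAlgebra
  exact LinearMap.trace_baseChange (E.P.H.ρ.ρ σ) E.Q.F

end Values

section Step

variable {hN : ∀ i, qs i ∣ N} {π : ∀ i, (ZMod (qs i))ˣ →* Multiplicative (ZMod (p ^ lv i))}
  {Ψ : (ZMod N)ˣ →* DiaGroup p lv} {hΨ : Function.Surjective Ψ}
  {hneg : (-1 : SL(2, ℤ)) ∈ GammaPsi Ψ} {q : ℕ} [NeZero q]
  {hΨ' : Function.Surjective (Degen.liftPsi Ψ q)}
  {hneg' : (-1 : SL(2, ℤ)) ∈ GammaPsi (Degen.liftPsi Ψ q)} {S₀ S S₁ S₁' : Finset ℕ}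
  {hNS : ∀ l : ℕ, l.Prime → l ∣ N → l ∈ S} {hNS₁ : ∀ l : ℕ, l.Prime → l ∣ N → l ∈ S₁}
  {hNS' : ∀ l : ℕ, l.Prime → l ∣ N * q → l ∈ S}
  {hNS₁' : ∀ l : ℕ, l.Prime → l ∣ N * q → l ∈ S₁'}
  {a : Nat.Primes → ResidueField O} {K : Type} [Field K] [CharZero K] [IsAlgClosed K]
  [Algebra O K] {d d' : ℕ} {Tm : ℕ → Matrix (Fin d) (Fin d) O}
  {Tm' : ℕ → Matrix (Fin d') (Fin d') O}
  (L : PartLevel qs Ψ hΨ hneg S₀ S S₁ hNS hNS₁ a K d Tm)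
  (L' : PartLevel qs (Degen.liftPsi Ψ q) hΨ' hneg' S₀ S S₁' hNS' hNS₁' a K d' Tm')
  {hN' : ∀ i, qs i ∣ N * q} (h' : IsTWLevel hN' π (Degen.liftPsi Ψ q))
  (hS : S₀ ⊆ S) (hq : q.Prime) (hqN : ¬ q ∣ N)

include h' hqN hq in
omit [Finite (ResidueField O)] [CharZero O] in
/-- An element killing the points of trace `± (q + 1)` kills the new eigenvectors of the part. -/
theorem hasExtEigen_zero_of_new (hS₁' : S₁' ⊆ S) (hqs : ∀ i, qs i ≠ q) (hpS : p ∈ S) (hqp : q ≠ p)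
    (hp : (p : O) ∈ maximalIdeal O) (hinj : Function.Injective (algebraMap O K))
    (A : ValuationSubring Qbar) (hA : A.LiesOverPrime q) (σ : GQ) (hσ : A.IsFrobeniusAt σ q)
    (z : levelAlg O (Degen.liftPsi Ψ q) hΨ' hneg' (goodSet S₁'))
    (hz : ∀ i : L'.κ,
      (LinearMap.trace (L'.E i).Q.F (L'.E i).Q.ρ.V ((L'.E i).Q.ρ.ρ σ) = (q : (L'.E i).Q.F) + 1 ∨
        LinearMap.trace (L'.E i).Q.F (L'.E i).Q.ρ.V ((L'.E i).Q.ρ.ρ σ) =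
          -((q : (L'.E i).Q.F) + 1)) →
      (L'.E i).Q.ev₁ z = 0)
    (φ : clHoms K (GammaPsi (Degen.liftPsi Ψ q)) K)
    (hφ : φ ∈ idemSpan O (Degen.liftPsi Ψ q) hΨ' hneg' S₀ a K) (hφ0 : φ ≠ 0)
    (heig : ∀ i, ∃ c : K, goodOps hΨ' hneg' i φ = c • φ)
    (hA0 : Degen.psiCorA Ψ q K φ = 0) (hB0 : Degen.psiCorB Ψ q K φ = 0) :
    HasExtEigen (psiCast (Degen.liftPsi Ψ q) O K).toAddMonoidHom φ z.1.1 (0 : K) := by
  have : Fact q.Prime := ⟨hq⟩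
  have hspan : φ ∈ Submodule.span K
      (Set.range (psiCast (Degen.liftPsi Ψ q) O K).toAddMonoidHom) :=
    Submodule.span_mono (Set.image_subset_range _ _) hφ
  obtain ⟨val, χ, hval, hχ, hD, hT⟩ :=
    exists_eigData _ hΨ' hneg' S hNS' K φ hφ0 hspan heig
  obtain ⟨val₁, χ₁, hval₁, -, -, -⟩ :=
    exists_eigData _ hΨ' hneg' S₁' hNS₁' K φ hφ0 hspan heig
  have : Algebra.IsIntegral O (levelAlg O (Degen.liftPsi Ψ q) hΨ' hneg' (goodSet S₁')) :=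
    haveI := finite_levelAlg O (Degen.liftPsi Ψ q) hΨ' hneg' (goodSet S₁')
    Algebra.IsIntegral.of_finite O _
  obtain ⟨i, hi⟩ := exists_ker_eq hinj (fun i => fun x y e => (L'.E i).P.inj ((L'.E i).Q.ext_inj
      (by rwa [AlgHom.commutes, AlgHom.commutes]))) (fun i => (L'.E i).Q.ev₁) val₁ fun x hx => by
    obtain ⟨X, hX, hXφ⟩ := hval₁ x
    have h0 : X φ = 0 := by
      have := LinearMap.eqOn_span (R := K) (f := X) (g := 0)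
        (s := (psiCast (Degen.liftPsi Ψ q) O K).toAddMonoidHom ''
          {w | Degen.partIdem (Degen.liftPsi Ψ q) hΨ' hneg' (goodSet S₀) a w = w})
        (by
          rintro _ ⟨w, hw, rfl⟩
          rw [← hX w, (L'.act_ker x).mp ((L'.ker_iff x).mpr hx) w hw, map_zero,
            LinearMap.zero_apply]) hφ
      exact this
    rw [hXφ] at h0
    exact (smul_eq_zero.mp h0).resolve_right hφ0
  have hker : ∀ x, (L'.E i).P.ev x = 0 ↔ val x = 0 := fun x => by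
    rw [← eigenVal_inclAlg hS₁' hφ0 hspan hval hval₁ x]
    exact (ev_eq_zero_iff (L'.E i) hS₁' x).trans (hi _).symm
  obtain ⟨j, hj, hjev⟩ := AtResidualPrime.exists_pointEmb (L'.E i).P.ev val hker
  obtain ⟨hA', hB'⟩ := (psiCor_eq_zero_iff Ψ ((hq.coprime_iff_not_dvd.mpr hqN).symm) φ).mp
    ⟨hA0, hB0⟩
  have htr := (trace_frobenius_of_new Ψ (Degen.liftPsi Ψ q) rfl h' hΨ' hneg' S hNS' hqN hqs hpS
    hqp hp K φ hφ0 val χ hχ hD hT hA' hB' j hj (L'.E i).P.ev hjev (L'.E i).P.H.ρ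
    (L'.E i).P.charpoly_frob hA hσ).1
  have h0 : val₁ z = 0 := (hi z).mpr (hz i (by
    rw [trace_ρ]
    exact htr.imp (fun e => (congrArg (L'.E i).Q.ext e).trans (by simp))
      fun e => (congrArg (L'.E i).Q.ext e).trans (by simp)))
  have h1 := hval₁ z
  rw [h0] at h1
  exact h1

omit [CharZero K] [IsAlgClosed K] in
include hq hqN in
/-- The degeneracy matrices between the two levels. -/
theorem exists_degen (hp2 : p ≠ 2) (hp : (p : O) ∈ maximalIdeal O)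
    (hΨtr : ∀ g : Gamma0 N, |tr (g : SL(2, ℤ))| ≤ 2 → dChar Ψ g = 1)
    (hqS₀ : q ∈ S₀) (hqS₁ : q ∉ S₁)
    (hℓ₀ : ∀ T : Finset ℕ, ∃ ℓ : Nat.Primes, (ℓ : ℕ) ∉ T ∧ (ℓ : ℕ) ∉ S₀ ∧
      a ℓ ≠ ((ℓ : ℕ) : ResidueField O) + 1 ∧ a ℓ ≠ -(((ℓ : ℕ) : ResidueField O) + 1)) :
    ∃ (MA MB : Matrix (Fin d') (Fin d) Sd) (DA DB : Matrix (Fin d) (Fin d') Sd)
      (t : Matrix (Fin d) (Fin d) Sd),
      (Degen.IsPartMat (diaOp O (Degen.liftPsi Ψ q) hΨ') L.v L'.v (Degen.upA O q Ψ) MA ∧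
        Degen.IsPartMat (diaOp O (Degen.liftPsi Ψ q) hΨ') L.v L'.v (Degen.upB O hΨ hq hqN) MB ∧
        Degen.IsPartMat (diaOp O Ψ hΨ) L'.v L.v (Degen.downA O q Ψ) DA ∧
        Degen.IsPartMat (diaOp O Ψ hΨ) L'.v L.v (Degen.downB O hΨ hq hqN) DB ∧
        Degen.IsPartMat (diaOp O Ψ hΨ) L.v L.v (Degen.tEnd O hΨ hneg hq hqN) t) ∧
      (∃ X : Matrix (Fin d ⊕ Fin d) (Fin d') Sd, X * Matrix.fromCols MA MB = 1) ∧
      (∃ X : Matrix (Fin d') (Fin d ⊕ Fin d) Sd, Matrix.fromRows DA DB * X = 1) ∧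
      t = L.act (twGood Ψ hΨ hneg S₁ hNS₁ ⟨q, hq⟩ hqS₁) ∧
      Matrix.fromRows DA DB * Matrix.fromCols MA MB =
        Matrix.fromBlocks (Matrix.scalar (Fin d) ((q : Sd) + 1)) t t
          (Matrix.scalar (Fin d) ((q : Sd) + 1)) := by
  have : CharP (ResidueField O) p := charP_residueField_of_mem Fact.out hp
  obtain ⟨act, -, -, hact⟩ := exists_partActOn Ψ hΨ hneg a hp S₀ S₀ L.v L.free
  obtain ⟨act', -, -, hact'⟩ :=
    exists_partActOn (Degen.liftPsi Ψ q) hΨ' hneg' a hp S₀ S₀ L'.v L'.free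
  have hq𝓟 : ∀ i : goodSet S₀, (i.1 : ℕ) ≠ q := fun i e => i.2 (e ▸ hqS₀)
  have hexp0 : q ^ (4 * N ^ 2) - 1 ≠ 0 :=
    Nat.sub_ne_zero_of_lt (Nat.one_lt_pow (by have := NeZero.ne N; positivity) hq.one_lt)
  obtain ⟨ℓ₀, hℓT, hℓ₀S, h1, h2⟩ := hℓ₀ (N.primeFactors ∪ (q ^ (4 * N ^ 2) - 1).primeFactors)
  simp only [Finset.mem_union, not_or] at hℓT
  have hℓ₀N : ¬ (ℓ₀ : ℕ) ∣ N := fun hd =>
    hℓT.1 (Nat.mem_primeFactors.mpr ⟨ℓ₀.2, hd, NeZero.ne N⟩)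
  have hexp : ¬ ((ℓ₀ : ℕ) : ℤ) ∣ (q : ℤ) ^ (4 * N ^ 2) - 1 := fun hd => by
    refine hℓT.2 (Nat.mem_primeFactors.mpr ⟨ℓ₀.2, ?_, hexp0⟩)
    have e : (q : ℤ) ^ (4 * N ^ 2) - 1 = ((q ^ (4 * N ^ 2) - 1 : ℕ) : ℤ) := by
      rw [Nat.cast_sub (Nat.one_le_pow _ _ hq.pos)]; push_cast; rfl
    rw [e] at hd
    exact_mod_cast hd
  obtain ⟨MA, MB, DA, DB, t, hmats, -, hup, hdown, hDU⟩ :=
    Degen.exists_degenMat hΨ hneg (goodSet S₀) a hq hqN hΨ' hneg' hq𝓟 L.free L'.free hp2 hΨtr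
      (ℓ₀ := ℓ₀) hℓ₀S hℓ₀N hexp h1 h2 act hact act' hact'
  exact ⟨MA, MB, DA, DB, t, hmats, hup, hdown,
    hmats.2.2.2.2.eq_of L.free (Degen.partIdem_diaOp Ψ hΨ hneg (goodSet S₀) a)
      (L.act_mat (twGood Ψ hΨ hneg S₁ hNS₁ ⟨q, hq⟩ hqS₁)) fun j => rfl, hDU⟩

omit [CharZero K] [IsAlgClosed K] [Finite (ResidueField O)] in
include hS hq hqN in
/-- The operators away from `S` commute with the degeneracy matrices. -/
theorem degen_comm (hqS₀ : q ∈ S₀) (hS₁ : S₁ ⊆ S) (hS₁' : S₁' ⊆ S)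
    {MA MB : Matrix (Fin d') (Fin d) Sd} {DA DB : Matrix (Fin d) (Fin d') Sd}
    (hMA : Degen.IsPartMat (diaOp O (Degen.liftPsi Ψ q) hΨ') L.v L'.v (Degen.upA O q Ψ) MA)
    (hMB : Degen.IsPartMat (diaOp O (Degen.liftPsi Ψ q) hΨ') L.v L'.v
      (Degen.upB O hΨ hq hqN) MB)
    (hDA : Degen.IsPartMat (diaOp O Ψ hΨ) L'.v L.v (Degen.downA O q Ψ) DA)
    (hDB : Degen.IsPartMat (diaOp O Ψ hΨ) L'.v L.v (Degen.downB O hΨ hq hqN) DB)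
    (hp : (p : O) ∈ maximalIdeal O) (ℓ : ℕ) (hℓ : ℓ.Prime) (hℓS : ℓ ∉ S) :
    (MA * L.act (twGood Ψ hΨ hneg S₁ hNS₁ ⟨ℓ, hℓ⟩ fun hm => hℓS (hS₁ hm)) =
        L'.act (twGood (Degen.liftPsi Ψ q) hΨ' hneg' S₁' hNS₁' ⟨ℓ, hℓ⟩
          fun hm => hℓS (hS₁' hm)) * MA ∧
      MB * L.act (twGood Ψ hΨ hneg S₁ hNS₁ ⟨ℓ, hℓ⟩ fun hm => hℓS (hS₁ hm)) =
        L'.act (twGood (Degen.liftPsi Ψ q) hΨ' hneg' S₁' hNS₁' ⟨ℓ, hℓ⟩
          fun hm => hℓS (hS₁' hm)) * MB) ∧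
    (DA * L'.act (twGood (Degen.liftPsi Ψ q) hΨ' hneg' S₁' hNS₁' ⟨ℓ, hℓ⟩
          fun hm => hℓS (hS₁' hm)) =
        L.act (twGood Ψ hΨ hneg S₁ hNS₁ ⟨ℓ, hℓ⟩ fun hm => hℓS (hS₁ hm)) * DA ∧
      DB * L'.act (twGood (Degen.liftPsi Ψ q) hΨ' hneg' S₁' hNS₁' ⟨ℓ, hℓ⟩
          fun hm => hℓS (hS₁' hm)) =
        L.act (twGood Ψ hΨ hneg S₁ hNS₁ ⟨ℓ, hℓ⟩ fun hm => hℓS (hS₁ hm)) * DB) := by
  have : CharP (ResidueField O) p := charP_residueField_of_mem Fact.out hp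
  have hB := L.act_mat (twGood Ψ hΨ hneg S₁ hNS₁ ⟨ℓ, hℓ⟩ fun hm => hℓS (hS₁ hm))
  rw [twGood_val_eq (Ψ := Ψ) hNS₁ hNS ⟨ℓ, hℓ⟩ (fun hm => hℓS (hS₁ hm)) hℓS] at hB
  have hM := L'.act_mat (twGood (Degen.liftPsi Ψ q) hΨ' hneg' S₁' hNS₁' ⟨ℓ, hℓ⟩
    fun hm => hℓS (hS₁' hm))
  rw [twGood_val_eq (Ψ := Degen.liftPsi Ψ q) hNS₁' hNS' ⟨ℓ, hℓ⟩ (fun hm => hℓS (hS₁' hm)) hℓS] at hM
  exact Degen.partMat_intertwine_on hΨ hneg (goodSet S₀) a hq hqN hΨ' hneg' L.free L'.free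
    (goodSet S) (fun i e => i.2 (e ▸ hS hqS₀)) hMA hMB hDA hDB
    (x := twGood Ψ hΨ hneg S hNS ⟨ℓ, hℓ⟩ hℓS)
    (x' := twGood (Degen.liftPsi Ψ q) hΨ' hneg' S hNS' ⟨ℓ, hℓ⟩ hℓS)
    (Degen.levelPartner_twElt hΨ hneg (goodSet S) hΨ' hneg' ⟨⟨ℓ, hℓ⟩, hℓS⟩ _ _)
    hB hM

include h' hq hqN in
/-- An element killing the points of trace `± (q + 1)` comes from below. -/
theorem degen_saturated (hp : (p : O) ∈ maximalIdeal O) (h : IsTWLevel hN π Ψ)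
    (hS₁' : S₁' ⊆ S) (hqS₁' : q ∈ S₁')
    (hqs : ∀ i, qs i ≠ q) (hpS : p ∈ S) (hqp : q ≠ p) (hinj : Function.Injective (algebraMap O K))
    {MA MB : Matrix (Fin d') (Fin d) Sd} {DA DB : Matrix (Fin d) (Fin d') Sd}
    {t : Matrix (Fin d) (Fin d) Sd}
    (hMA : Degen.IsPartMat (diaOp O (Degen.liftPsi Ψ q) hΨ') L.v L'.v (Degen.upA O q Ψ) MA)
    (hMB : Degen.IsPartMat (diaOp O (Degen.liftPsi Ψ q) hΨ') L.v L'.v
      (Degen.upB O hΨ hq hqN) MB)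
    (hDA : Degen.IsPartMat (diaOp O Ψ hΨ) L'.v L.v (Degen.downA O q Ψ) DA)
    (hDB : Degen.IsPartMat (diaOp O Ψ hΨ) L'.v L.v (Degen.downB O hΨ hq hqN) DB)
    (ht : Degen.IsPartMat (diaOp O Ψ hΨ) L.v L.v (Degen.tEnd O hΨ hneg hq hqN) t)
    (hDU : Matrix.fromRows DA DB * Matrix.fromCols MA MB =
      Matrix.fromBlocks (Matrix.scalar (Fin d) ((q : Sd) + 1)) t t
        (Matrix.scalar (Fin d) ((q : Sd) + 1)))
    {Lx : Matrix (Fin d ⊕ Fin d) (Fin d') Sd} (hLx : Lx * Matrix.fromCols MA MB = 1)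
    (A : ValuationSubring Qbar) (hA : A.LiesOverPrime q) (σ : GQ) (hσ : A.IsFrobeniusAt σ q)
    (z : levelAlg O (Degen.liftPsi Ψ q) hΨ' hneg' (goodSet S₁'))
    (hz : ∀ i : L'.κ,
      (LinearMap.trace (L'.E i).Q.F (L'.E i).Q.ρ.V ((L'.E i).Q.ρ.ρ σ) = (q : (L'.E i).Q.F) + 1 ∨
        LinearMap.trace (L'.E i).Q.F (L'.E i).Q.ρ.V ((L'.E i).Q.ρ.ρ σ) =
          -((q : (L'.E i).Q.F) + 1)) →
      (L'.E i).Q.ev₁ z = 0) :
    ∃ XA XB : Matrix (Fin d) (Fin d') Sd, L'.act z = MA * XA + MB * XB := by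
  have : CharP (ResidueField O) p := charP_residueField_of_mem Fact.out hp
  have : NeZero p := ⟨(Fact.out : p.Prime).ne_zero⟩
  have hqT : ∀ i : goodSet S₁', (i.1 : ℕ) ≠ q := fun i e => i.2 (e ▸ hqS₁')
  obtain ⟨x, hx⟩ := Degen.exists_partner_of_top hΨ hneg (goodSet S₁') hΨ' hneg' z
  obtain ⟨actT, -, -, hactT⟩ := exists_partActOn Ψ hΨ hneg a hp S₀ S₁' L.v L.free
  have hMz := L'.act_mat z
  have hcomm := Degen.partMat_intertwine_on hΨ hneg (goodSet S₀) a hq hqN hΨ' hneg'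
    L.free L'.free (goodSet S₁') hqT hMA hMB hDA hDB hx (hactT x) hMz
  have hkill : ∀ w, Degen.partIdem (Degen.liftPsi Ψ q) hΨ' hneg' (goodSet S₀) a w = w →
      Degen.downA O q Ψ w = 0 → Degen.downB O hΨ hq hqN w = 0 → z.1.1 w = 0 :=
    fun w hw hwA hwB => Degen.kills_of_eigen_on hΨ hneg S₀ a hq hqN K hinj hΨ' hneg' h' S₁' z
      (fun φ hφ hφ0 heig hA0 hB0 => hasExtEigen_zero_of_new L' h' hq hqN hS₁' hqs hpS hqp hp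
        hinj A hA σ hσ z hz φ hφ hφ0 heig hA0 hB0) w hw hwA hwB
  have hFz := Degen.levelAlg_diaOp (Degen.liftPsi Ψ q) hΨ' hneg' (goodSet S₁') z
  obtain ⟨X, hX⟩ := Degen.exists_up_factor_on hΨ hneg (goodSet S₀) a hq hqN hΨ' hneg' L.free
    L'.free hp hDA hDB ht hDU hLx
    (fun w hw hc => AtResidualPrime.tEnd_ne Ψ h hΨ hneg hq hqN K hinj S₀ a _ (.inl rfl) w hw hc)
    (fun w hw hc => AtResidualPrime.tEnd_ne Ψ h hΨ hneg hq hqN K hinj S₀ a _ (.inr rfl) w hw hc)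
    z.1.1 hFz (Mx := L'.act z) hMz (Bx := actT x) (fromCols_comm hcomm.1.1 hcomm.1.2) hkill
  exact ⟨X.toRows₁, X.toRows₂, by
    rw [hX, ← Matrix.fromCols_mul_fromRows, Matrix.fromRows_toRows]⟩

include h' hS hq hqN in
/-- **A step of the raising.** -/
theorem exists_step (hp2 : p ≠ 2) (hp : (p : O) ∈ maximalIdeal O)
    (h : IsTWLevel hN π Ψ)
    (hΨtr : ∀ g : Gamma0 N, |tr (g : SL(2, ℤ))| ≤ 2 → dChar Ψ g = 1)
    (hqS₀ : q ∈ S₀) (hS₁ : S₁ ⊆ S) (hS₁' : S₁' ⊆ S) (hqS₁ : q ∉ S₁) (hqS₁' : q ∈ S₁')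
    (hqs : ∀ i, qs i ≠ q) (hpS : p ∈ S) (hqp : q ≠ p) (hinj : Function.Injective (algebraMap O K))
    (hℓ₀ : ∀ T : Finset ℕ, ∃ ℓ : Nat.Primes, (ℓ : ℕ) ∉ T ∧ (ℓ : ℕ) ∉ S₀ ∧
      a ℓ ≠ ((ℓ : ℕ) : ResidueField O) + 1 ∧ a ℓ ≠ -(((ℓ : ℕ) : ResidueField O) + 1))
    (A : ValuationSubring Qbar) (hA : A.LiesOverPrime q) (σ : GQ) (hσ : A.IsFrobeniusAt σ q) :
    ∃ (MA MB : Matrix (Fin d') (Fin d) Sd) (DA DB : Matrix (Fin d) (Fin d') Sd),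
      (∀ (ℓ : ℕ) (hℓ : ℓ.Prime) (hℓS : ℓ ∉ S),
        (MA * L.act (twGood Ψ hΨ hneg S₁ hNS₁ ⟨ℓ, hℓ⟩ fun hm => hℓS (hS₁ hm)) =
            L'.act (twGood (Degen.liftPsi Ψ q) hΨ' hneg' S₁' hNS₁' ⟨ℓ, hℓ⟩
              fun hm => hℓS (hS₁' hm)) * MA ∧
          MB * L.act (twGood Ψ hΨ hneg S₁ hNS₁ ⟨ℓ, hℓ⟩ fun hm => hℓS (hS₁ hm)) =
            L'.act (twGood (Degen.liftPsi Ψ q) hΨ' hneg' S₁' hNS₁' ⟨ℓ, hℓ⟩
              fun hm => hℓS (hS₁' hm)) * MB) ∧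
        (DA * L'.act (twGood (Degen.liftPsi Ψ q) hΨ' hneg' S₁' hNS₁' ⟨ℓ, hℓ⟩
              fun hm => hℓS (hS₁' hm)) =
            L.act (twGood Ψ hΨ hneg S₁ hNS₁ ⟨ℓ, hℓ⟩ fun hm => hℓS (hS₁ hm)) * DA ∧
          DB * L'.act (twGood (Degen.liftPsi Ψ q) hΨ' hneg' S₁' hNS₁' ⟨ℓ, hℓ⟩
              fun hm => hℓS (hS₁' hm)) =
            L.act (twGood Ψ hΨ hneg S₁ hNS₁ ⟨ℓ, hℓ⟩ fun hm => hℓS (hS₁ hm)) * DB)) ∧
      (∃ X : Matrix (Fin d ⊕ Fin d) (Fin d') Sd, X * Matrix.fromCols MA MB = 1) ∧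
      (∃ X : Matrix (Fin d') (Fin d ⊕ Fin d) Sd, Matrix.fromRows DA DB * X = 1) ∧
      (DA * MA = ((q : Sd) + 1) • (1 : Matrix (Fin d) (Fin d) Sd) ∧
        DA * MB = L.act (twGood Ψ hΨ hneg S₁ hNS₁ ⟨q, hq⟩ hqS₁) ∧
        DB * MA = L.act (twGood Ψ hΨ hneg S₁ hNS₁ ⟨q, hq⟩ hqS₁) ∧
        DB * MB = ((q : Sd) + 1) • (1 : Matrix (Fin d) (Fin d) Sd)) ∧
      ∀ z : levelAlg O (Degen.liftPsi Ψ q) hΨ' hneg' (goodSet S₁'),
        (∀ i : L'.κ,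
          (LinearMap.trace (L'.E i).Q.F (L'.E i).Q.ρ.V ((L'.E i).Q.ρ.ρ σ) =
              (q : (L'.E i).Q.F) + 1 ∨
            LinearMap.trace (L'.E i).Q.F (L'.E i).Q.ρ.V ((L'.E i).Q.ρ.ρ σ) =
              -((q : (L'.E i).Q.F) + 1)) →
          (L'.E i).Q.ev₁ z = 0) →
        ∃ XA XB : Matrix (Fin d) (Fin d') Sd, L'.act z = MA * XA + MB * XB := by
  have hdeg := exists_degen L L' hq hqN hp2 hp hΨtr hqS₀ hqS₁ hℓ₀
  obtain ⟨MA, MB, DA, DB, t, ⟨hMA, hMB, hDA, hDB, ht⟩, hup, hdown, htq, hDU⟩ := hdeg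
  have hblocks := blocks_of_fromRows_mul_fromCols hDU
  exact ⟨MA, MB, DA, DB,
    fun ℓ hℓ hℓS => degen_comm L L' hS hq hqN hqS₀ hS₁ hS₁' hMA hMB hDA hDB hp ℓ hℓ hℓS,
    hup, hdown, ⟨hblocks.1, hblocks.2.1.trans htq, hblocks.2.2.1.trans htq, hblocks.2.2.2⟩,
    fun z hz => hup.elim fun Lx hLx => degen_saturated L L' h' hq hqN hp h hS₁' hqS₁' hqs hpS
      hqp hinj hMA hMB hDA hDB ht hDU hLx A hA σ hσ z hz⟩

end Step

end Fermat.Agent.Raising.Modular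

end
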