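/-
The levels of a raising and the steps between them.
-/
import Fermat.Agent.Raising.Modular.Levels
import Fermat.Agent.Raising.Modular.OpLevelOf
import Fermat.Agent.Raising.Modular.Steps

/-!
# The steps of a raising

`RaiseLevels.levelOp`: the level `j` of a raising as an `OpLevel`; between the levels `j` and
`j + 1` the degeneracy matrices, the operator at the prime raised next and saturation
(`RaiseStep`, `RaiseLevels.nonempty_raiseStep`).
-/

noncomputable section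

namespace Fermat.Agent.Raising.Modular

open scoped MatrixGroups IsMulCommutative
open CongruenceSubgroup IsLocalRing Polynomial Fermat.Agent.Grp Fermat.Agent.Ihara
  Fermat.Agent.LevelLowering

local notation "Qbar" => AlgebraicClosure ℚ
local notation "GQ" => (AlgebraicClosure ℚ ≃ₐ[ℚ] AlgebraicClosure ℚ)

variable {O : Type} [CommRing O] [IsDomain O] [IsDiscreteValuationRing O]
  [IsAdicComplete (maximalIdeal O) O] [Finite (ResidueField O)] [CharZero O]
  {p : ℕ} [Fact p.Prime] {ρbar : ResidualGaloisRep (ResidueField O)}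
  {bbar : Module.Basis (Fin 2) (ResidueField O) ρbar.V} {m D : ℕ}
  {K : Type} [Field K] [CharZero K] [Algebra O K] {P : Fin m → RaisedPrime p ρbar bbar}
  {N₀ : ℕ} [NeZero N₀] {S₀ : Finset ℕ} {c₀ : ℕ → O} {d : ℕ → ℕ}
  {Tm : ∀ j, ℕ → Matrix (Fin (d j)) (Fin (d j)) O} {qv : Fin D → ℕ} [∀ i, NeZero (qv i)]
  {lv : Fin D → ℕ}

/-- Trace `± (q + 1)` in the form with the sign `ε = ± 1`. -/
theorem sign_cases {A F : Type} [CommRing A] [CommRing F] {ε : A} (he : ε = 1 ∨ ε = -1) {x q q' : F}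
    (hq : q = q') (f : A →+* F) (h : x = q + 1 ∨ x = -(q + 1)) :
    x = f ε * (q' + 1) ∨ x = -(f ε * (q' + 1)) := by
  subst hq
  rcases he with rfl | rfl
  · rwa [map_one, one_mul]
  · rw [map_neg, map_one, neg_one_mul, neg_neg]; exact h.symm

namespace RaiseLevels

variable (R : RaiseLevels K P N₀ S₀ c₀ d Tm qv lv)

omit [Finite (ResidueField O)] [CharZero O] [CharZero K] in
/-- Away from the excluded primes the system of the levels is the residual one. -/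
theorem sys_eq (ℓ : ℕ) (hℓ : ℓ.Prime) (hℓS : ℓ ∉ raiseS S₀ qv) :
    topSys qv R.α (sysOf c₀) ⟨ℓ, hℓ⟩ = residue O (c₀ ℓ) :=
  (topSys_of_ne (ℓ := ⟨ℓ, hℓ⟩) fun i hi =>
    hℓS (Finset.mem_union_right _ (Finset.mem_image.mpr ⟨i, Finset.mem_univ _, hi⟩))).trans rfl

/-- The level `j` of the raising. -/
def levelOp (j : ℕ) : OpLevel O (raiseS S₀ qv) c₀ (DiaCoords O p lv) (d j) :=
  (R.L j).opLevel (raiseS₁_subset N₀ P S₀ qv j) c₀ R.sys_eq

omit [CharZero K] [Finite (ResidueField O)] [CharZero O] in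
/-- Without the diamonds the operators of a level are the prescribed matrices. -/
theorem levelOp_aug (j : ℕ) {ℓ : ℕ} (hℓ : ℓ.Prime) (hℓS : ℓ ∉ raiseS S₀ qv) :
    ((R.levelOp j).Φ ((R.levelOp j).x ℓ)).map
      (Ideal.Quotient.lift _ MvPowerSeries.constantCoeff (diamondIdeal_aug p lv)) = Tm j ℓ :=
  (R.L j).opLevel_aug (raiseS₁_subset N₀ P S₀ qv j) hℓ hℓS

omit [IsAdicComplete (maximalIdeal O) O] [Finite (ResidueField O)] [CharZero O]
  [Fact (Nat.Prime p)] [∀ (i : Fin D), NeZero (qv i)] in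
/-- The auxiliary primes are not the raised ones. -/
theorem qv_ne_of_mem (hPS : ∀ i, (P i).q ∈ S₀) (hqvS : ∀ i, qv i ∉ S₀) (i : Fin D) (j : Fin m) :
    qv i ≠ (P j).q := fun h => hqvS i (h ▸ hPS j)

omit [Finite (ResidueField O)] [CharZero O] [CharZero K] in
include R in
/-- The prime raised next does not divide the level. -/
theorem not_dvd_raiseLev (hPinj : Function.Injective fun i => (P i).q)
    (hPN : ∀ i, ¬ (P i).q ∣ N₀) (hPS : ∀ i, (P i).q ∈ S₀) (hqvS : ∀ i, qv i ∉ S₀) (j : Fin m) :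
    ¬ qAt P j ∣ raiseLev N₀ P qv j := by
  rw [qAt_eq]
  intro hd
  rcases prime_dvd_raiseLev R.tw.prime (P j).prime hd with h | ⟨i, h⟩ | ⟨i, hi, h⟩
  · exact hPN j h
  · exact qv_ne_of_mem hPS hqvS i j h
  · exact hi.ne (congrArg Fin.val (hPinj h))

end RaiseLevels

/-- The step of a raising from the level `j` to the level `j + 1`. -/
structure RaiseStep (R : RaiseLevels K P N₀ S₀ c₀ d Tm qv lv) (j : Fin m) : Type where
  /-- The first degeneracy map from level `j` to level `j + 1`. -/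
  upA : Matrix (Fin (d (j + 1))) (Fin (d j)) (DiaCoords O p lv)
  /-- The second degeneracy map from level `j` to level `j + 1`. -/
  upB : Matrix (Fin (d (j + 1))) (Fin (d j)) (DiaCoords O p lv)
  /-- The transfer of the first degeneracy map. -/
  downA : Matrix (Fin (d j)) (Fin (d (j + 1))) (DiaCoords O p lv)
  /-- The transfer of the second degeneracy map. -/
  downB : Matrix (Fin (d j)) (Fin (d (j + 1))) (DiaCoords O p lv)
  /-- The operator at the prime raised next. -/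
  tq : (R.levelOp j).A
  comm : ∀ ℓ : ℕ, ℓ.Prime → ℓ ∉ raiseS S₀ qv →
    (upA * (R.levelOp j).Φ ((R.levelOp j).x ℓ) =
        (R.levelOp (j + 1)).Φ ((R.levelOp (j + 1)).x ℓ) * upA ∧
      upB * (R.levelOp j).Φ ((R.levelOp j).x ℓ) =
        (R.levelOp (j + 1)).Φ ((R.levelOp (j + 1)).x ℓ) * upB) ∧
    (downA * (R.levelOp (j + 1)).Φ ((R.levelOp (j + 1)).x ℓ) =
        (R.levelOp j).Φ ((R.levelOp j).x ℓ) * downA ∧
      downB * (R.levelOp (j + 1)).Φ ((R.levelOp (j + 1)).x ℓ) =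
        (R.levelOp j).Φ ((R.levelOp j).x ℓ) * downB)
  up_inv : ∃ X : Matrix (Fin (d j) ⊕ Fin (d j)) (Fin (d (j + 1))) (DiaCoords O p lv),
    X * Matrix.fromCols upA upB = 1
  down_inv : ∃ X : Matrix (Fin (d (j + 1))) (Fin (d j) ⊕ Fin (d j)) (DiaCoords O p lv),
    Matrix.fromRows downA downB * X = 1
  tq_ev : ∀ a : (R.levelOp j).κ,
    (R.levelOp j).ev a tq = LinearMap.trace _ _ (((R.levelOp j).ρ a).ρ (P j).φ)
  down_up :
    downA * upA = ((P j).q + 1 : DiaCoords O p lv) • (1 : Matrix (Fin (d j)) (Fin (d j)) _) ∧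
    downA * upB = (R.levelOp j).Φ tq ∧
    downB * upA = (R.levelOp j).Φ tq ∧
    downB * upB = ((P j).q + 1 : DiaCoords O p lv) • (1 : Matrix (Fin (d j)) (Fin (d j)) _)
  saturated : ∀ z : (R.levelOp (j + 1)).A,
    (∀ a : (R.levelOp (j + 1)).κ,
      (LinearMap.trace _ _ (((R.levelOp (j + 1)).ρ a).ρ (P j).φ) =
          algebraMap O ((R.levelOp (j + 1)).F a) ((P j).ε) *
            (((P j).q : (R.levelOp (j + 1)).F a) + 1) ∨
        LinearMap.trace _ _ (((R.levelOp (j + 1)).ρ a).ρ (P j).φ) =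
          -(algebraMap O ((R.levelOp (j + 1)).F a) ((P j).ε) *
            (((P j).q : (R.levelOp (j + 1)).F a) + 1))) →
      (R.levelOp (j + 1)).ev a z = 0) →
    ∃ XA XB : Matrix (Fin (d j)) (Fin (d (j + 1))) (DiaCoords O p lv),
      (R.levelOp (j + 1)).Φ z = upA * XA + upB * XB

namespace RaiseLevels

variable (R : RaiseLevels K P N₀ S₀ c₀ d Tm qv lv)

/-- **The steps of the raising exist.** -/
theorem nonempty_raiseStep [IsAlgClosed K] (hs : SysHyp p ρbar S₀ c₀)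
    (hPinj : Function.Injective fun i => (P i).q) (hPN : ∀ i, ¬ (P i).q ∣ N₀)
    (hPS : ∀ i, (P i).q ∈ S₀) (hqvS : ∀ i, qv i ∉ S₀)
    (hinjK : Function.Injective (algebraMap O K)) (j : Fin m) : Nonempty (RaiseStep R j) := by
  have hqe : qAt P j = (P j).q := qAt_eq P j
  have hq : (qAt P j).Prime := hqe ▸ (P j).prime
  have hqS₀ : qAt P j ∈ S₀ := hqe ▸ hPS j
  have hqS₁ : qAt P j ∉ raiseS₁ N₀ P S₀ qv j := fun h =>
    R.not_dvd_raiseLev hPinj hPN hPS hqvS j (Finset.mem_filter.mp h).2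
  have hqS₁' : qAt P j ∈ raiseS₁ N₀ P S₀ qv (j + 1) := Finset.mem_filter.mpr
    ⟨Finset.mem_union_left _ hqS₀, dvd_mul_left (qAt P j) (raiseLev N₀ P qv j)⟩
  have hS₁ := raiseS₁_subset N₀ P S₀ qv j
  have hS₁' := raiseS₁_subset N₀ P S₀ qv (j + 1)
  have hpS : p ∈ raiseS S₀ qv := Finset.mem_union_left _ hs.p_bad
  have hA : (P j).A.LiesOverPrime (qAt P j) := hqe ▸ (P j).lies
  have hσ : (P j).A.IsFrobeniusAt (P j).φ (qAt P j) := hqe ▸ (P j).frob
  obtain ⟨MA, MB, DA, DB, hcomm, hup, hdown, hdu, hsat⟩ :=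
    exists_step (R.L j) (R.L (j + 1)) (R.twAt (j + 1)) Finset.subset_union_left hq
      (R.not_dvd_raiseLev hPinj hPN hPS hqvS j) hs.two hs.p_mem (R.twAt j) (R.trAt j) hqS₀ hS₁
      hS₁' hqS₁ hqS₁' (fun i => hqe ▸ qv_ne_of_mem hPS hqvS i j) hpS (hqe ▸ (P j).ne_p) hinjK
      (fun T => by
        obtain ⟨ℓ, hℓ, hℓT, h1, h2⟩ := hs.not_eisenstein (T ∪ raiseS S₀ qv)
        rw [Finset.mem_union, not_or] at hℓT
        refine ⟨⟨ℓ, hℓ⟩, hℓT.1, fun hm => hℓT.2 (Finset.mem_union_left _ hm), ?_, ?_⟩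
        · rw [R.sys_eq ℓ hℓ hℓT.2]; exact h1
        · rw [R.sys_eq ℓ hℓ hℓT.2]; exact h2)
      (P j).A hA (P j).φ hσ
  have hqD : ((qAt P j : ℕ) : DiaCoords O p lv) = ((P j).q : DiaCoords O p lv) :=
    congrArg Nat.cast hqe
  have hqSd : (qAt P j : MvPowerSeries (Fin D) O ⧸ diamondIdeal (𝒪 := O) p lv) + 1 =
      ((P j).q : DiaCoords O p lv) + 1 := congrArg (fun x : DiaCoords O p lv => x + 1) hqD
  rw [hqSd] at hdu
  refine ⟨⟨MA, MB, DA, DB, twGood _ _ _ _ (mem_raiseS₁ (R.mem j)) ⟨qAt P j, hq⟩ hqS₁,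
    fun ℓ hℓ hℓS => ?_,
    hup, hdown, fun a => ?_, hdu, fun z hz => hsat z fun a ha => hz a ?_⟩⟩
  · have e1 : (R.levelOp j).Φ ((R.levelOp j).x ℓ) = (R.L j).act
        (twGood _ _ _ _ (mem_raiseS₁ (R.mem j)) ⟨ℓ, hℓ⟩ fun h => hℓS (hS₁ h)) :=
      congrArg (R.L j).act (opAt_eq (mem_raiseS₁ (R.mem j)) hℓ fun h => hℓS (hS₁ h))
    have e2 : (R.levelOp (j + 1)).Φ ((R.levelOp (j + 1)).x ℓ) = (R.L (j + 1)).act
        (twGood _ _ _ _ (mem_raiseS₁ (R.mem (j + 1))) ⟨ℓ, hℓ⟩ fun h => hℓS (hS₁' h)) :=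
      congrArg (R.L (j + 1)).act
        (opAt_eq (mem_raiseS₁ (R.mem (j + 1))) hℓ fun h => hℓS (hS₁' h))
    rw [e1, e2]
    exact hcomm ℓ hℓ hℓS
  · exact (trace_ev₁ ((R.L j).E a) (mem_raiseS₁ (R.mem j)) (R.twAt j) hs.p_mem hS₁ hpS (qAt P j) hq
      hqS₁ (hqe ▸ (P j).ne_p) (P j).A hA (P j).φ hσ).symm
  · exact sign_cases (mul_self_eq_one_iff.mp (P j).sign) (congrArg Nat.cast hqe)
      (algebraMap O ((R.L (j + 1)).E a).Q.F) ha

end RaiseLevels

end Fermat.Agent.Raising.Modular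

end
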