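/-
The inputs of the raising theorem from the levels in coordinates.
-/
import Fermat.Agent.Raising.Inputs
import Fermat.Agent.Raising.Modular.RaiseSteps

/-!
# The modular inputs of the raising theorem

`RaiseFacts`: the local behaviour and the eigencharacters of the levels of a `RaiseLevels`;
`raiseInputsOf`: the `RaiseInputs` built on those levels, its level `j` being `levelOp j`.
-/

noncomputable section

namespace Fermat.Agent.Raising.Modular

open scoped MatrixGroups IsMulCommutative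
open CongruenceSubgroup IsLocalRing Polynomial Fermat.Agent.Grp Fermat.Agent.Ihara
  Fermat.Agent.LevelLowering

variable {O : Type} [CommRing O] [IsDomain O] [IsDiscreteValuationRing O]
  [IsAdicComplete (maximalIdeal O) O] [Finite (ResidueField O)] [CharZero O]
  {p : ℕ} [Fact p.Prime] {ρbar : ResidualGaloisRep (ResidueField O)}
  {bbar : Module.Basis (Fin 2) (ResidueField O) ρbar.V} {m D : ℕ}
  {K : Type} [Field K] [CharZero K] [Algebra O K] {P : Fin m → RaisedPrime p ρbar bbar}
  {N₀ : ℕ} [NeZero N₀] {S₀ : Finset ℕ} {c₀ : ℕ → O} {d : ℕ → ℕ}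
  {Tm : ∀ j, ℕ → Matrix (Fin (d j)) (Fin (d j)) O} {qv : Fin D → ℕ} [∀ i, NeZero (qv i)]
  {lv : Fin D → ℕ}

/-- The local behaviour and the eigencharacters of the levels. -/
structure RaiseFacts (R : RaiseLevels K P N₀ S₀ c₀ d Tm qv lv) : Prop where
  unramified : ∀ (j : ℕ) (a : (R.levelOp j).κ) (l : ℕ), l.Prime → ¬ l ∣ raiseLev N₀ P qv j →
    l ≠ p → ((R.levelOp j).ρ a).IsUnramifiedAt l
  unipotent : ∀ (j : ℕ) (a : (R.levelOp j).κ) (l : ℕ), l.Prime → l ≠ p →
    l ∣ raiseLev N₀ P qv j → ¬ l ^ 2 ∣ raiseLev N₀ P qv j → (∀ i, qv i ≠ l) →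
    ((R.levelOp j).ρ a).IsUnipotentOnInertiaAt l
  tw_point : ∀ (j : ℕ) (φ : DiaCoords O p lv →ₐ[O] K) (e : (R.levelOp j).A →+* K),
    (∃ w : Fin (d j) → K, w ≠ 0 ∧ ∀ z, (((R.levelOp j).Φ z).map φ).mulVec w = e z • w) →
    ∃ a : (R.levelOp j).κ, (∀ z, e z = 0 ↔ (R.levelOp j).ev a z = 0) ∧
      (∀ i, φ (diaX O p lv i) = 0 → ((R.levelOp j).ρ a).IsUnipotentOnInertiaAt (qv i)) ∧
      ∀ i, (∀ i', i' ≠ i → φ (diaX O p lv i') = 0) →
        IsPrimitiveRoot (1 + φ (diaX O p lv i)) p →
          ¬ ((R.levelOp j).ρ a).IsUnipotentOnInertiaAt (qv i)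

/-- **The inputs of the raising theorem on the levels in coordinates.** -/
def raiseInputsOf [IsAlgClosed K] (R : RaiseLevels K P N₀ S₀ c₀ d Tm qv lv)
    (hs : SysHyp p ρbar S₀ c₀) (hsqf : Squarefree N₀)
    (hN₀S : ∀ l : ℕ, l.Prime → l ∣ N₀ → l ∈ S₀) (hPinj : Function.Injective fun i => (P i).q)
    (hPN : ∀ i, ¬ (P i).q ∣ N₀) (hPS : ∀ i, (P i).q ∈ S₀) (hqvS : ∀ i, qv i ∉ S₀)
    (hinjK : Function.Injective (algebraMap O K)) (F : RaiseFacts R) :
    RaiseInputs K P (N₀.primeFactors.erase p) c₀ d Tm S₀ qv lv :=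
  let step : ∀ j : Fin m, RaiseStep R j := fun j =>
    (R.nonempty_raiseStep hs hPinj hPN hPS hqvS hinjK j).some
  { S := raiseS S₀ qv
    subset := Finset.subset_union_left
    L := R.levelOp
    aug_x := fun j _ hℓ hℓS => R.levelOp_aug j hℓ hℓS
    upA := fun j => (step j).upA
    upB := fun j => (step j).upB
    downA := fun j => (step j).downA
    downB := fun j => (step j).downB
    up_comm := fun j ℓ hℓ hℓS => ((step j).comm ℓ hℓ hℓS).1
    down_comm := fun j ℓ hℓ hℓS => ((step j).comm ℓ hℓ hℓS).2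
    up_inv := fun j => (step j).up_inv
    down_inv := fun j => (step j).down_inv
    tq := fun j => (step j).tq
    tq_ev := fun j => (step j).tq_ev
    down_up := fun j => (step j).down_up
    saturated := fun j => (step j).saturated
    unramified := fun j a l hl h => F.unramified j a l hl
      (fun hd => h (mem_of_dvd_raiseLev R.tw.prime hl hd))
      fun e => h (Finset.mem_insert.mpr (Or.inl e))
    unipotent := fun j a l h hl hlp =>
      let hl' := dvd_once_of_mem hsqf R.tw.prime hqvS hN₀S hPS hPinj hPN hl h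
      F.unipotent j a l hl hlp hl'.1 hl'.2.1 hl'.2.2
    tw_point := F.tw_point }

end Fermat.Agent.Raising.Modular

end
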