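/-
Facts feeding the last step at `p`.
-/
import Fermat.Agent.Raising.AtResidualPrime.CurveAtP
import Fermat.Agent.Raising.Modular.PartLevel

/-!
# Facts for the last step at `p`

The auxiliary prime `ℓ₀` of the degeneracy maps exists for every level and prime, and the residual
representation of a curve multiplicative at `p` is ordinary there.
-/

noncomputable section

namespace Fermat.Agent.Raising.Modular

open IsLocalRing Polynomial Fermat.Agent.LevelLowering WeierstrassCurve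

variable {O : Type} [CommRing O] [IsDomain O] [IsDiscreteValuationRing O]
  [IsAdicComplete (maximalIdeal O) O] [Finite (ResidueField O)]

omit [IsAdicComplete (maximalIdeal O) O] [Finite (ResidueField O)] in
/-- **The prime of the degeneracy maps.** -/
theorem exists_degenPrime {p : ℕ} {ρbar : ResidualGaloisRep (ResidueField O)} {S₀ : Finset ℕ}
    {c₀ : ℕ → O} (hs : SysHyp p ρbar S₀ c₀) (N : ℕ) [NeZero N] {q : ℕ} (hq : q.Prime)
    (a : Nat.Primes → ResidueField O) (S : Finset ℕ) (hS : S₀ ⊆ S)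
    (ha : ∀ ℓ : Nat.Primes, (ℓ : ℕ) ∉ S → a ℓ = sysOf c₀ ℓ) :
    ∃ ℓ₀ : Nat.Primes, (ℓ₀ : ℕ) ∉ S₀ ∧ ¬ (ℓ₀ : ℕ) ∣ N ∧
      ¬ ((ℓ₀ : ℕ) : ℤ) ∣ (q : ℤ) ^ (4 * N ^ 2) - 1 ∧ a ℓ₀ ≠ ((ℓ₀ : ℕ) : ResidueField O) + 1 ∧
      a ℓ₀ ≠ -(((ℓ₀ : ℕ) : ResidueField O) + 1) := by
  classical
  have he : 4 * N ^ 2 ≠ 0 := mul_ne_zero (by norm_num) (pow_ne_zero 2 (NeZero.ne N))
  have hne : q ^ (4 * N ^ 2) - 1 ≠ 0 := by
    have h1 := Nat.one_lt_pow he hq.one_lt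
    omega
  obtain ⟨ℓ, hℓ, hℓT, h1, h2⟩ :=
    hs.not_eisenstein (S ∪ N.primeFactors ∪ (q ^ (4 * N ^ 2) - 1).primeFactors)
  simp only [Finset.mem_union, not_or, Nat.mem_primeFactors, not_and] at hℓT
  obtain ⟨⟨hℓS, hℓN⟩, hℓq⟩ := hℓT
  refine ⟨⟨ℓ, hℓ⟩, fun h => hℓS (hS h), fun hd => (hℓN hℓ hd) (NeZero.ne N), fun hd => ?_, ?_, ?_⟩
  · have hcast : ((q : ℤ) ^ (4 * N ^ 2) - 1) = ((q ^ (4 * N ^ 2) - 1 : ℕ) : ℤ) := by
      rw [Nat.cast_sub (Nat.one_le_pow _ _ hq.pos)]; push_cast; ring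
    rw [hcast, Int.natCast_dvd_natCast] at hd
    exact (hℓq hℓ hd) hne
  · rw [ha ⟨ℓ, hℓ⟩ hℓS]; exact h1
  · rw [ha ⟨ℓ, hℓ⟩ hℓS]; exact h2

/-- **The residual representation of a curve multiplicative at `p`** is ordinary at `p`. -/
theorem isOrdinaryAt_curveRbar_of_dvd {p : ℕ} [Fact p.Prime] (C : Coeff.CoeffRing p)
    {W : WeierstrassCurve ℤ} [(W.map (Int.castRingHom ℚ)).IsElliptic] (hp2 : p ≠ 2) (hΔ : W.Δ ≠ 0)
    (hdvd : (p : ℤ) ∣ W.Δ) (hss : W.IsSemistableModel) (hirr : W.ModRepIsIrreducible p) :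
    (GaloisRepAdic.ofResidualGaloisRep
      (Coeff.curveRbar C (W.map (Int.castRingHom ℚ)))).IsOrdinaryAt p := by
  obtain ⟨F⟩ := Tate.nonempty_tateFrame (E := W.map (Int.castRingHom ℚ)) (p := p)
  exact AtResidualPrime.isOrdinaryAt_curveRbar C F hp2 hΔ hdvd hss
    (F.detIsCyclotomic hΔ (Tate.exists_smul_notMem_zmultiples hirr))

end Fermat.Agent.Raising.Modular
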