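/-
The degeneracy data of the last step at `p`.
-/
import Fermat.Agent.Raising.AtResidualPrime.RefinedRootOn
import Fermat.Agent.Raising.AtResidualPrime.SaturatedRefined
import Fermat.Agent.Raising.Modular.PartLevel
import Fermat.Agent.Raising.Modular.SaturationOn

/-!
# The last step at `p` between two levels in coordinates

`exists_lastMatrices`: between a level `N` prime to `p` and the level `N p`, both in coordinates,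
the two degeneracy maps in both directions, their composite through the operator at `p`, and
saturation by the refined points of the top level that are new at `p`.
-/

noncomputable section

namespace Fermat.Agent.Raising.Modular

open scoped MatrixGroups IsMulCommutative
open CongruenceSubgroup IsLocalRing Fermat.Agent.Grp Fermat.Agent.Ihara Fermat.Agent.LevelLowering

variable {O : Type} [CommRing O] [IsDomain O] [IsDiscreteValuationRing O]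
  [IsAdicComplete (maximalIdeal O) O] [Finite (ResidueField O)] [CharZero O]
  {p r : ℕ} [Fact p.Prime] [NeZero p] {lv : Fin r → ℕ} {qs : Fin r → ℕ} {N : ℕ} [NeZero N]
  {hN : ∀ i, qs i ∣ N} {π : ∀ i, (ZMod (qs i))ˣ →* Multiplicative (ZMod (p ^ lv i))}
  {hN' : ∀ i, qs i ∣ N * p} {π' : ∀ i, (ZMod (qs i))ˣ →* Multiplicative (ZMod (p ^ lv i))}
  (Ψ : (ZMod N)ˣ →* DiaGroup p lv) (hΨ : Function.Surjective Ψ)
  (hneg : (-1 : SL(2, ℤ)) ∈ GammaPsi Ψ) (hΨ' : Function.Surjective (Degen.liftPsi Ψ p))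
  (hneg' : (-1 : SL(2, ℤ)) ∈ GammaPsi (Degen.liftPsi Ψ p)) (S₀ S S₁ S₁' : Finset ℕ)
  (hNS : ∀ l : ℕ, l.Prime → l ∣ N → l ∈ S) (hNS₁ : ∀ l : ℕ, l.Prime → l ∣ N → l ∈ S₁)
  (hNS' : ∀ l : ℕ, l.Prime → l ∣ N * p → l ∈ S)
  (hNS₁' : ∀ l : ℕ, l.Prime → l ∣ N * p → l ∈ S₁')
  (a : Nat.Primes → ResidueField O) (K : Type) [Field K] [CharZero K] [IsAlgClosed K] [Algebra O K]
  {d d' : ℕ} {Tm : ℕ → Matrix (Fin d) (Fin d) O} {Tm' : ℕ → Matrix (Fin d') (Fin d') O}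

local notation "Sd" => MvPowerSeries (Fin r) O ⧸ diamondIdeal (𝒪 := O) p lv

omit [IsDomain O] [IsDiscreteValuationRing O] [IsAdicComplete (maximalIdeal O) O]
  [Finite (ResidueField O)] [CharZero O] [NeZero p] in
/-- The first component of the twisted operator at a prime `ℓ` outside `T` and the level. -/
theorem twElt_fst (T : Finset ℕ) (ℓ : Nat.Primes) (h : (ℓ : ℕ) ∉ T) (hN' : ¬ (ℓ : ℕ) ∣ N) :
    haveI : NeZero (ℓ : ℕ) := ⟨ℓ.2.ne_zero⟩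
    (twElt Ψ hΨ hneg (goodSet T) ⟨ℓ, h⟩ hN').1.1 = (kerOp O Ψ hΨ hneg ℓ *
      diaOp O Ψ hΨ (Degen.halfQ ℓ.2 hN' Ψ) : Module.End O (clHoms O (GammaPsi Ψ) O)) := by
  unfold twElt levelElt Degen.halfQ
  rw [MulMemClass.coe_mul, Prod.fst_mul]
  rfl

omit [IsDomain O] [IsDiscreteValuationRing O] [IsAdicComplete (maximalIdeal O) O]
  [Finite (ResidueField O)] [CharZero O] [NeZero p] in
/-- The same, `T` containing the primes of the level. -/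
theorem twGood_fst (T : Finset ℕ) (hT : ∀ l : ℕ, l.Prime → l ∣ N → l ∈ T) (ℓ : Nat.Primes)
    (h : (ℓ : ℕ) ∉ T) (hN' : ¬ (ℓ : ℕ) ∣ N) :
    haveI : NeZero (ℓ : ℕ) := ⟨ℓ.2.ne_zero⟩
    (twGood Ψ hΨ hneg T hT ℓ h).1.1 = kerOp O Ψ hΨ hneg ℓ *
      diaOp O Ψ hΨ (Degen.halfQ ℓ.2 hN' Ψ) :=
  twElt_fst Ψ hΨ hneg T ℓ h hN'

/-- **The degeneracy data of the last step.** -/
theorem exists_lastMatrices (h : IsTWLevel hN π Ψ)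
    (h' : IsTWLevel hN' π' (Degen.liftPsi Ψ p)) (hp2 : p ≠ 2) (hp : (p : O) ∈ maximalIdeal O)
    (hpN : ¬ p ∣ N) (hqs : ∀ i, qs i ≠ p) (hpS₀ : p ∈ S₀) (hpS : p ∈ S) (hpS₁ : p ∉ S₁)
    (hpS₁' : p ∈ S₁') (hS₁' : S₁' ⊆ S) (hS₁ : S₁ ⊆ S)
    (htr : ∀ g : Gamma0 N, |tr (g : SL(2, ℤ))| ≤ 2 → dChar Ψ g = 1)
    (hℓ₀ : ∃ ℓ₀ : Nat.Primes, (ℓ₀ : ℕ) ∉ S₀ ∧ ¬ (ℓ₀ : ℕ) ∣ N ∧
      ¬ ((ℓ₀ : ℕ) : ℤ) ∣ (p : ℤ) ^ (4 * N ^ 2) - 1 ∧ a ℓ₀ ≠ ((ℓ₀ : ℕ) : ResidueField O) + 1 ∧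
      a ℓ₀ ≠ -(((ℓ₀ : ℕ) : ResidueField O) + 1))
    (hinj : Function.Injective (algebraMap O K))
    (L : PartLevel qs Ψ hΨ hneg S₀ S S₁ hNS hNS₁ a K d Tm)
    (L' : PartLevel qs (Degen.liftPsi Ψ p) hΨ' hneg' S₀ S S₁' hNS' hNS₁' a K d' Tm')
    (hres : ∀ i, (GaloisRepAdic.ofResidualGaloisRep (L'.E i).P.H.ρ.residual).IsOrdinaryAt p) :
    ∃ (upA upB : Matrix (Fin d') (Fin d) Sd) (downA downB : Matrix (Fin d) (Fin d') Sd),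
      (∀ (ℓ : ℕ) (hℓ : ℓ.Prime) (hℓS : ℓ ∉ S),
        (upA * L.act (twGood Ψ hΨ hneg S₁ hNS₁ ⟨ℓ, hℓ⟩ fun hm => hℓS (hS₁ hm)) =
            L'.act (twGood (Degen.liftPsi Ψ p) hΨ' hneg' S₁' hNS₁' ⟨ℓ, hℓ⟩
              fun hm => hℓS (hS₁' hm)) * upA ∧
          upB * L.act (twGood Ψ hΨ hneg S₁ hNS₁ ⟨ℓ, hℓ⟩ fun hm => hℓS (hS₁ hm)) =
            L'.act (twGood (Degen.liftPsi Ψ p) hΨ' hneg' S₁' hNS₁' ⟨ℓ, hℓ⟩
              fun hm => hℓS (hS₁' hm)) * upB) ∧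
        (downA * L'.act (twGood (Degen.liftPsi Ψ p) hΨ' hneg' S₁' hNS₁' ⟨ℓ, hℓ⟩
              fun hm => hℓS (hS₁' hm)) =
            L.act (twGood Ψ hΨ hneg S₁ hNS₁ ⟨ℓ, hℓ⟩ fun hm => hℓS (hS₁ hm)) * downA ∧
          downB * L'.act (twGood (Degen.liftPsi Ψ p) hΨ' hneg' S₁' hNS₁' ⟨ℓ, hℓ⟩
              fun hm => hℓS (hS₁' hm)) =
            L.act (twGood Ψ hΨ hneg S₁ hNS₁ ⟨ℓ, hℓ⟩ fun hm => hℓS (hS₁ hm)) * downB)) ∧
      (∃ X : Matrix (Fin d ⊕ Fin d) (Fin d') Sd, X * Matrix.fromCols upA upB = 1) ∧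
      (∃ X : Matrix (Fin d') (Fin d ⊕ Fin d) Sd, Matrix.fromRows downA downB * X = 1) ∧
      (downA * upA = ((p : Sd) + 1) • (1 : Matrix (Fin d) (Fin d) Sd) ∧
        downA * upB = L.act (twGood Ψ hΨ hneg S₁ hNS₁ ⟨p, Fact.out⟩ hpS₁) ∧
        downB * upA = L.act (twGood Ψ hΨ hneg S₁ hNS₁ ⟨p, Fact.out⟩ hpS₁) ∧
        downB * upB = ((p : Sd) + 1) • (1 : Matrix (Fin d) (Fin d) Sd)) ∧
      ∀ z : levelAlg O (Degen.liftPsi Ψ p) hΨ' hneg' (goodSet S₁'),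
        (∀ i, IsNewAtP (L'.E i).Q.ρ p → (L'.E i).Q.ev₁ z = 0) →
        ∃ XA XB : Matrix (Fin d) (Fin d') Sd, L'.act z = upA * XA + upB * XB := by
  classical
  have hpp : p.Prime := Fact.out
  have : CharP (ResidueField O) p := charP_residueField_of_mem hpp hp
  have : IsAddTorsionFree O := inferInstance
  obtain ⟨ℓ₀, hℓ₀S, hℓ₀N, hexp, h1, h2⟩ := hℓ₀
  -- `obtain` on a term abstracts it in the goal, which is costly here; name the term first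
  have hA₀ := exists_partActOn Ψ hΨ hneg a hp S₀ S₀ L.v L.free
  obtain ⟨act₀, -, -, hact₀⟩ := hA₀
  have hA₀' := exists_partActOn (Degen.liftPsi Ψ p) hΨ' hneg' a hp S₀ S₀ L'.v L'.free
  obtain ⟨act₀', -, -, hact₀'⟩ := hA₀'
  have hdeg :=
    Degen.exists_degenMat hΨ hneg (goodSet S₀) a hpp hpN hΨ' hneg'
      (fun i e => i.2 (e.symm ▸ hpS₀)) L.free L'.free hp2 htr (ℓ₀ := ℓ₀) hℓ₀S hℓ₀N hexp h1 h2
      act₀ hact₀ act₀' hact₀'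
  obtain ⟨MA, MB, DA, DB, t, ⟨hMA, hMB, hDA, hDB, ht⟩, -, hX, hY, hDU⟩ := hdeg
  have ht' : t = L.act (twGood Ψ hΨ hneg S₁ hNS₁ ⟨p, hpp⟩ hpS₁) :=
    ht.eq_of L.free (Degen.partIdem_diaOp Ψ hΨ hneg (goodSet S₀) a)
      (L.act_mat (twGood Ψ hΨ hneg S₁ hNS₁ ⟨p, hpp⟩ hpS₁))
      fun j => (LinearMap.congr_fun (twGood_fst Ψ hΨ hneg S₁ hNS₁ ⟨p, hpp⟩ hpS₁ hpN) (L.v j)).symm
  refine ⟨MA, MB, DA, DB, fun ℓ hℓ hℓS => ?_, hX, hY, ?_, fun z hz => ?_⟩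
  · have hℓN : ¬ ℓ ∣ N := fun hd => hℓS (hNS ℓ hℓ hd)
    have hℓN' : ¬ ℓ ∣ N * p := fun hd => hℓS (hNS' ℓ hℓ hd)
    have hB := L.act_mat (twGood Ψ hΨ hneg S₁ hNS₁ ⟨ℓ, hℓ⟩ fun hm => hℓS (hS₁ hm))
    rw [twGood_fst Ψ hΨ hneg S₁ hNS₁ ⟨ℓ, hℓ⟩ _ hℓN,
      ← twElt_fst Ψ hΨ hneg S ⟨ℓ, hℓ⟩ hℓS hℓN] at hB
    have hM := L'.act_mat (twGood (Degen.liftPsi Ψ p) hΨ' hneg' S₁' hNS₁' ⟨ℓ, hℓ⟩
      fun hm => hℓS (hS₁' hm))
    rw [twGood_fst (Degen.liftPsi Ψ p) hΨ' hneg' S₁' hNS₁' ⟨ℓ, hℓ⟩ _ hℓN',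
      ← twElt_fst (Degen.liftPsi Ψ p) hΨ' hneg' S ⟨ℓ, hℓ⟩ hℓS hℓN'] at hM
    exact Degen.partMat_intertwine_on hΨ hneg (goodSet S₀) a hpp hpN hΨ' hneg' L.free L'.free
      (goodSet S) (fun i e => i.2 (e.symm ▸ hpS)) hMA hMB hDA hDB
      (Degen.levelPartner_twElt hΨ hneg (goodSet S) hΨ' hneg' ⟨⟨ℓ, hℓ⟩, hℓS⟩ hℓN hℓN') hB hM
  · rw [← ht']
    exact blocks_of_fromRows_mul_fromCols hDU
  · obtain ⟨x, hx⟩ := Degen.exists_partner_of_top hΨ hneg (goodSet S₁') hΨ' hneg' z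
    obtain ⟨act₁, -, -, hact₁⟩ := exists_partActOn Ψ hΨ hneg a hp S₀ S₁' L.v L.free
    obtain ⟨⟨c1, c2⟩, -⟩ := Degen.partMat_intertwine_on hΨ hneg (goodSet S₀) a hpp hpN hΨ' hneg'
      L.free L'.free (goodSet S₁') (fun i e => i.2 (e.symm ▸ hpS₁')) hMA hMB hDA hDB hx (hact₁ x)
      (L'.act_mat z)
    have hcomm := fromCols_comm c1 c2
    exact AtResidualPrime.exists_saturated_refined Ψ h hΨ hneg hpN h' hΨ' hneg' S₀ a S hNS' a S₁'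
      hNS₁' L.free
      L'.free hS₁' hp2 hqs hp K hinj L'.E
      (fun y hy w hw => (L'.act_ker y).mp ((L'.ker_iff y).mpr hy) w hw) hres z hz (L'.act_mat z)
      hDA hDB ht hDU hX hcomm

end Fermat.Agent.Raising.Modular
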