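/-
The top level of the last step at `p` in coordinates.
-/
import Fermat.Agent.Raising.Modular.PartLevel
import Fermat.Agent.Raising.Modular.Tower
import Fermat.Agent.Raising.Supply

/-!
# The level with `p` once more in it

`exists_topPartLevel`: over coordinates of `M p` without auxiliary primes, the level `N p` above a
Taylor–Wiles level `N` prime to `p`, in coordinates with refined points.  For a curve the
coordinates are those of a `SupplyBase`.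
-/

noncomputable section

namespace Fermat.Agent.Raising.Modular

open scoped MatrixGroups
open CongruenceSubgroup IsLocalRing Polynomial Fermat.Agent.Grp Fermat.Agent.Ihara
  Fermat.Agent.LevelLowering

local notation "Qbar" => AlgebraicClosure ℚ
local notation "GQ" => (AlgebraicClosure ℚ ≃ₐ[ℚ] AlgebraicClosure ℚ)

variable {O : Type} [CommRing O] [IsDomain O] [IsDiscreteValuationRing O]
  [IsAdicComplete (maximalIdeal O) O] [Finite (ResidueField O)] [CharZero O]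
  {p r : ℕ} [Fact p.Prime] [NeZero p] {lv : Fin r → ℕ} {qs : Fin r → ℕ} {N : ℕ} [NeZero N]
  {hN : ∀ i, qs i ∣ N} {π : ∀ i, (ZMod (qs i))ˣ →* Multiplicative (ZMod (p ^ lv i))}
  {Ψ : (ZMod N)ˣ →* DiaGroup p lv} {ρbar : ResidualGaloisRep (ResidueField O)}

omit [NeZero N] [NeZero p] in
/-- Adding `p` keeps a Taylor–Wiles level one. -/
theorem isTWLevel_top (h : IsTWLevel hN π Ψ) (hqs : ∀ i, qs i ≠ p) :
    IsTWLevel (fun i => (hN i).trans (dvd_mul_right N p)) π (Degen.liftPsi Ψ p) :=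
  isTWLevel_lift h p (fun i hd => hqs i ((Nat.prime_dvd_prime_iff_eq (h.prime i) Fact.out).mp hd)) _

/-- **The level `N p` in coordinates with its points.** -/
theorem exists_topPartLevel (h : IsTWLevel hN π Ψ) (hΨ : Function.Surjective Ψ)
    (hneg : (-1 : SL(2, ℤ)) ∈ GammaPsi Ψ) {M : ℕ} [NeZero M] (hNM : N = M * ∏ i, qs i)
    (hqM : ∀ i, ¬ qs i ∣ M) (hlv : ∀ i, 1 ≤ lv i) (hdvd : ∀ i, p ^ lv i ∣ qs i - 1)
    (hΨtr : ∀ g : Gamma0 N, |tr (g : SL(2, ℤ))| ≤ 2 → dChar Ψ g = 1) (S₀ S S₁ : Finset ℕ)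
    (hNS : ∀ l : ℕ, l.Prime → l ∣ N * p → l ∈ S) (hNS₁ : ∀ l : ℕ, l.Prime → l ∣ N * p → l ∈ S₁)
    (hS : S₀ ⊆ S) (hqS₀ : ∀ i, qs i ∉ S₀) (hqS : ∀ i, qs i ∈ S) {c₀ : ℕ → O}
    (hs : SysHyp p ρbar S₀ c₀) (α β : Fin r → ResidueField O) (hαβ : ∀ i, α i * β i = 1)
    (hne : ∀ i, α i ≠ β i) (haq : ∀ i, sysOf c₀ ⟨qs i, h.prime i⟩ = α i + β i)
    (K : Type) [Field K] [CharZero K] [IsAlgClosed K] [Algebra O K] [Algebra (FractionRing O) K]
    [IsScalarTower O (FractionRing O) K]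
    {d : ℕ} (b₀ : Fin d → clH O (M * p))
    (hb₀ : ∀ i, (baseIdem O (M * p) (goodSet S₀) (sysOf c₀)).1 (b₀ i) = b₀ i)
    (hb₀free : ∀ x, (baseIdem O (M * p) (goodSet S₀) (sysOf c₀)).1 x = x →
      ∃! b : Fin d → O, ∑ i, b i • b₀ i = x)
    (Tm : ℕ → Matrix (Fin d) (Fin d) O)
    (hTm : ∀ (ℓ : goodSet S₀) j,
      baseGen O (M * p) (goodSet S₀) ℓ (b₀ j) = ∑ i, Tm (ℓ.1 : ℕ) i j • b₀ i) :
    Nonempty (PartLevel qs (Degen.liftPsi Ψ p) (Degen.liftPsi_surjective Ψ p hΨ)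
      (Degen.neg_one_mem_lift Ψ p hneg) S₀ S S₁ hNS hNS₁ (topSys qs α (sysOf c₀)) K d Tm) := by
  have hpp : p.Prime := Fact.out
  have hqs : ∀ i, qs i ≠ p := fun i e => hqS₀ i (e ▸ hs.p_bad)
  obtain ⟨ℓ₀, hℓ₀, hℓ₀T, hℓ₀a, -⟩ := hs.not_eisenstein (S₀ ∪ (N * p).primeFactors)
  rw [Finset.mem_union, not_or] at hℓ₀T
  exact exists_partLevel (Degen.liftPsi Ψ p) (Degen.liftPsi_surjective Ψ p hΨ)
    (Degen.neg_one_mem_lift Ψ p hneg) S₀ S S₁ hNS hNS₁ (sysOf c₀) (isTWLevel_top h hqs) (M := M * p)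
    (by rw [hNM]; ring)
    (fun i hd => ((h.prime i).dvd_mul.mp hd).elim (hqM i)
      fun hp' => hqs i ((Nat.prime_dvd_prime_iff_eq (h.prime i) hpp).mp hp'))
    hlv hdvd (Degen.lift_kills_small_trace Ψ p hΨtr) hS hqS₀ hqS hs.p_bad hs.p_mem hs.absIrr
    (fun ℓ hℓ hℓS A hA σ hσ => hs.frob ℓ hℓ (fun hm => hℓS (hS hm)) A hA σ hσ)
    α β hαβ hne haq
    ⟨⟨ℓ₀, hℓ₀⟩, hℓ₀T.1, fun hd => hℓ₀T.2 (Nat.mem_primeFactors.mpr ⟨hℓ₀, hd, NeZero.ne _⟩), hℓ₀a⟩
    K b₀ hb₀ hb₀free Tm fun ℓ j _ => hTm ℓ j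

section Curve

open WeierstrassCurve Fermat.Agent.LevelLowering.Semistable

variable {C : Coeff.CoeffRing p} {W : WeierstrassCurve ℤ}

omit [NeZero p] in
/-- The bad set does not see one more `p`. -/
theorem levelBad_mul_self (n : ℕ) [NeZero n] : levelBad p (n * p) W = levelBad p n W := by
  have hp : p.Prime := Fact.out
  show insert p ((n * p).primeFactors ∪ _) = insert p (n.primeFactors ∪ _)
  rw [Nat.primeFactors_mul (NeZero.ne n) hp.ne_zero, hp.primeFactors]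
  ext x
  simp only [Finset.mem_insert, Finset.mem_union, Finset.mem_singleton]
  tauto

omit [NeZero p] in
/-- The coordinates of a `SupplyBase`, read at a given set of excluded primes. -/
theorem supplyBase_coords {n : ℕ} [NeZero n] (B : SupplyBase C W n) {S₀ : Finset ℕ}
    (h : levelBad p n W = S₀) :
    (∀ i, (baseIdem C.O n (goodSet S₀) (sysOf (curveSys C W))).1 (B.v i) = B.v i) ∧
      (∀ x, (baseIdem C.O n (goodSet S₀) (sysOf (curveSys C W))).1 x = x →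
        ∃! b : Fin B.d → C.O, ∑ i, b i • B.v i = x) ∧
      ∀ (ℓ : goodSet S₀) j, baseGen C.O n (goodSet S₀) ℓ (B.v j) =
        ∑ i, B.Tm (ℓ.1 : ℕ) i j • B.v i := by
  subst h
  exact ⟨B.fix, B.basis, B.Tm_spec⟩

end Curve

end Fermat.Agent.Raising.Modular
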