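/-
The inputs of the last step from two levels in coordinates.
-/
import Fermat.Agent.Raising.AtResidualPrime.LastInputs
import Fermat.Agent.Raising.Modular.LastFacts
import Fermat.Agent.Raising.Modular.LastLevel
import Fermat.Agent.Raising.Modular.OpLevelOf
import Fermat.Agent.Raising.Modular.TopLevel
import Fermat.Agent.TW.BaseChange

/-!
# The inputs of the last step at `p`

`exists_lastInputs`: a `RaiseInputs` whose level `m` is a level in coordinates, together with the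
level `N p` in coordinates, gives the inputs of the last step.
-/

noncomputable section

namespace Fermat.Agent.Raising.Modular

open scoped MatrixGroups
open CongruenceSubgroup IsLocalRing Polynomial Fermat.Agent.Grp Fermat.Agent.Ihara
  Fermat.Agent.LevelLowering

local notation "Qbar" => AlgebraicClosure ℚ
local notation "GQ" => (AlgebraicClosure ℚ ≃ₐ[ℚ] AlgebraicClosure ℚ)

variable {O : Type} [CommRing O] [IsDomain O] [IsDiscreteValuationRing O]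
  [IsAdicComplete (maximalIdeal O) O] [Finite (ResidueField O)] [CharZero O]
  {p D : ℕ} [Fact p.Prime] {lv : Fin D → ℕ} {qs : Fin D → ℕ} {N : ℕ} [NeZero N]
  {K : Type} [Field K] [CharZero K] [IsAlgClosed K] [Algebra O K]

variable [NeZero p] {ρbar : ResidualGaloisRep (ResidueField O)}
  {bbar : Module.Basis (Fin 2) (ResidueField O) ρbar.V} {m : ℕ}
  {P : Fin m → RaisedPrime p ρbar bbar} {Smin : Finset ℕ} {c₀ : ℕ → O}
  {d : ℕ → ℕ} {Tm : ∀ j, ℕ → Matrix (Fin (d j)) (Fin (d j)) O} {S₀ : Finset ℕ}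
  {hN : ∀ i, qs i ∣ N} {π : ∀ i, (ZMod (qs i))ˣ →* Multiplicative (ZMod (p ^ lv i))}
  {Ψ : (ZMod N)ˣ →* DiaGroup p lv} {hΨ : Function.Surjective Ψ}
  {hneg : (-1 : SL(2, ℤ)) ∈ GammaPsi Ψ} {S₁ S₁' : Finset ℕ}
  {α : Fin D → ResidueField O} {dp : ℕ} {Tp : ℕ → Matrix (Fin dp) (Fin dp) O}

/-- **The inputs of the last step from two levels in coordinates.** -/
theorem exists_lastInputs (R : RaiseInputs K P Smin c₀ d Tm S₀ qs lv)
    {hNS : ∀ l : ℕ, l.Prime → l ∣ N → l ∈ R.S} {hNS₁ : ∀ l : ℕ, l.Prime → l ∣ N → l ∈ S₁}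
    {hNS' : ∀ l : ℕ, l.Prime → l ∣ N * p → l ∈ R.S}
    {hNS₁' : ∀ l : ℕ, l.Prime → l ∣ N * p → l ∈ S₁'}
    (L : PartLevel qs Ψ hΨ hneg S₀ R.S S₁ hNS hNS₁ (topSys qs α (sysOf c₀)) K (d m) (Tm m))
    (L' : PartLevel qs (Degen.liftPsi Ψ p) (Degen.liftPsi_surjective Ψ p hΨ)
      (Degen.neg_one_mem_lift Ψ p hneg) S₀ R.S S₁' hNS' hNS₁' (topSys qs α (sysOf c₀)) K dp Tp)
    (hS₁ : S₁ ⊆ R.S) (hS₁' : S₁' ⊆ R.S)
    (ha : ∀ ℓ : Nat.Primes, (ℓ : ℕ) ∉ R.S → topSys qs α (sysOf c₀) ℓ = residue O (c₀ ℓ))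
    (hR : R.L m = L.opLevel hS₁ c₀ fun ℓ hℓ hℓS => ha ⟨ℓ, hℓ⟩ hℓS)
    (h : IsTWLevel hN π Ψ) (hs : SysHyp p ρbar S₀ c₀)
    (hord : (GaloisRepAdic.ofResidualGaloisRep ρbar).IsOrdinaryAt p)
    (hinj : Function.Injective (algebraMap O K))
    (hqS₀ : ∀ i, qs i ∉ S₀) (hpS₁ : p ∉ S₁) (hpS₁' : p ∈ S₁')
    (hpN : ¬ p ∣ N) (htr : ∀ g : Gamma0 N, |tr (g : SL(2, ℤ))| ≤ 2 → dChar Ψ g = 1)
    (hflat : ∀ (j : ℕ) (a : (R.L j).κ), j ≤ m → ((R.L j).ρ a).IsFlatAt p)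
    (hordj : ∀ (j : ℕ) (a : (R.L j).κ), j ≤ m → HasOrdBases ((R.L j).ρ a) p)
    (hram : ∀ l : ℕ, l.Prime → l ∣ N → l ∈ ramSet P Smin m ∪ Finset.univ.image qs)
    (hram1 : ∀ l ∈ ramSet P Smin m, l.Prime → l ≠ p → l ∣ N ∧ ¬ l ^ 2 ∣ N ∧ ∀ i, qs i ≠ l)
    (htwp : ∀ (φ : DiaCoords O p lv →ₐ[O] K)
      (e : levelAlg O (Degen.liftPsi Ψ p) (Degen.liftPsi_surjective Ψ p hΨ)
        (Degen.neg_one_mem_lift Ψ p hneg) (goodSet S₁') →+* K),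
      (∃ w : Fin dp → K, w ≠ 0 ∧ ∀ z, ((L'.act z).map φ).mulVec w = e z • w) →
      ∃ a : L'.κ, (∀ z, e z = 0 ↔ (L'.E a).Q.ev₁ z = 0) ∧
        (∀ i, φ (diaX O p lv i) = 0 → (L'.E a).Q.ρ.IsUnipotentOnInertiaAt (qs i)) ∧
        ∀ i, (∀ i', i' ≠ i → φ (diaX O p lv i') = 0) →
          IsPrimitiveRoot (1 + φ (diaX O p lv i)) p →
            ¬ (L'.E a).Q.ρ.IsUnipotentOnInertiaAt (qs i)) :
    Nonempty (LastInputs R dp Tp) := by
  classical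
  have hpp : p.Prime := Fact.out
  have hpS₀ := hs.p_bad
  have hpS : p ∈ R.S := R.subset hpS₀
  have hqs : ∀ i, qs i ≠ p := fun i e => hqS₀ i (e ▸ hpS₀)
  have htop := isTWLevel_top h hqs
  have hbar : ∀ (ℓ : ℕ) (hℓ : ℓ.Prime), ℓ ∉ R.S → ∀ A : ValuationSubring Qbar,
      A.LiesOverPrime ℓ → ∀ σ : GQ, A.IsFrobeniusAt σ ℓ → LinearMap.charpoly (ρbar.ρ σ) =
        X ^ 2 - C (topSys qs α (sysOf c₀) ⟨ℓ, hℓ⟩) * X + C ((ℓ : ResidueField O)) :=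
    fun ℓ hℓ hℓS A hA σ hσ => by
      rw [ha ⟨ℓ, hℓ⟩ hℓS]; exact hs.frob ℓ hℓ (fun hm => hℓS (R.subset hm)) A hA σ hσ
  have hℓ₀ := exists_degenPrime hs N hpp (topSys qs α (sysOf c₀)) R.S R.subset ha
  obtain ⟨upA, upB, downA, downB, hcomm, hX, hY, hDU, hsat⟩ :=
    exists_lastMatrices Ψ hΨ hneg _ _ S₀ R.S S₁ S₁' hNS hNS₁ hNS' hNS₁' (topSys qs α (sysOf c₀)) K
      h htop hs.two hs.p_mem hpN hqs hpS₀ hpS hpS₁ hpS₁' hS₁' hS₁ htr hℓ₀ hinj L L'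
      (fun i => AtResidualPrime.isOrdinaryAt_residual_point (L'.E i).P hbar hord)
  let top := L'.opLevel hS₁' c₀ fun ℓ hℓ hℓS => ha ⟨ℓ, hℓ⟩ hℓS
  have key : ∀ Lm, Lm = L.opLevel hS₁ c₀ (fun ℓ hℓ hℓS => ha ⟨ℓ, hℓ⟩ hℓS) → ∃ tp : Lm.A,
      (∀ ℓ : ℕ, ℓ.Prime → ℓ ∉ R.S →
        (upA * Lm.Φ (Lm.x ℓ) = top.Φ (top.x ℓ) * upA ∧
          upB * Lm.Φ (Lm.x ℓ) = top.Φ (top.x ℓ) * upB) ∧
        (downA * top.Φ (top.x ℓ) = Lm.Φ (Lm.x ℓ) * downA ∧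
          downB * top.Φ (top.x ℓ) = Lm.Φ (Lm.x ℓ) * downB)) ∧
      (downA * upA = (p + 1 : DiaCoords O p lv) • (1 : Matrix (Fin (d m)) (Fin (d m)) _) ∧
        downA * upB = Lm.Φ tp ∧ downB * upA = Lm.Φ tp ∧
        downB * upB = (p + 1 : DiaCoords O p lv) • (1 : Matrix (Fin (d m)) (Fin (d m)) _)) ∧
      ∀ (a : Lm.κ) (A : ValuationSubring Qbar), A.LiesOverPrime p →
        ∀ b : Module.Basis (Fin 2) (Lm.F a) (Lm.ρ a).V, IsOrdBasisAt (Lm.ρ a) A b →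
          ∀ σ : GQ, A.IsFrobeniusAt σ p → ∀ α : Lm.F a,
            (∀ v, (Lm.ρ a).ρ σ v - α • v ∈ Lm.F a ∙ b 0) →
              α * α - Lm.ev a tp * α + (p : Lm.F a) = 0 := by
    intro Lm e
    subst e
    refine ⟨twGood Ψ hΨ hneg S₁ hNS₁ ⟨p, hpp⟩ hpS₁, fun ℓ hℓ hℓS => ?_, hDU, fun i => ?_⟩
    · have e1 : (L.opLevel hS₁ c₀ fun ℓ hℓ hℓS => ha ⟨ℓ, hℓ⟩ hℓS).x ℓ =
          twGood Ψ hΨ hneg S₁ hNS₁ ⟨ℓ, hℓ⟩ (fun hm => hℓS (hS₁ hm)) :=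
        opAt_eq hNS₁ hℓ fun hm => hℓS (hS₁ hm)
      have e2 : top.x ℓ = twGood (Degen.liftPsi Ψ p) (Degen.liftPsi_surjective Ψ p hΨ)
          (Degen.neg_one_mem_lift Ψ p hneg) S₁' hNS₁' ⟨ℓ, hℓ⟩ (fun hm => hℓS (hS₁' hm)) :=
        opAt_eq hNS₁' hℓ fun hm => hℓS (hS₁' hm)
      rw [e1, e2]
      exact hcomm ℓ hℓ hℓS
    · exact (AtResidualPrime.exists_ordBases_eigen (L.E i) hs.absIrr hbar hord hNS₁ h hs.two hpN
        hs.p_mem hS₁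
        hpS hpS₁).2
  obtain ⟨tp, hc, hd, hev⟩ := key (R.L m) hR
  refine ⟨{ top := top, aug_x := fun ℓ hℓ hℓS => ?_, upA := upA, upB := upB, downA := downA,
            downB := downB, up_comm := fun ℓ hℓ hℓS => (hc ℓ hℓ hℓS).1,
            down_comm := fun ℓ hℓ hℓS => (hc ℓ hℓ hℓS).2, up_inv := hX, down_inv := hY,
            tp := tp, down_up := hd, flat := hflat, ordinary := hordj,
            ordinary_top := fun i => ?_, tp_ev := hev, saturated := hsat,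
            unramified := fun i l hl hln => ?_, unipotent := fun i l hl hlp hne => ?_,
            tw_point := htwp }⟩
  · have e2 : top.x ℓ = twGood (Degen.liftPsi Ψ p) (Degen.liftPsi_surjective Ψ p hΨ)
        (Degen.neg_one_mem_lift Ψ p hneg) S₁' hNS₁' ⟨ℓ, hℓ⟩ (fun hm => hℓS (hS₁' hm)) :=
      opAt_eq hNS₁' hℓ fun hm => hℓS (hS₁' hm)
    rw [e2]
    exact L'.aug ℓ hℓ hℓS _
  · exact AtResidualPrime.hasOrdBases_eigen_top (L'.E i) hbar hord hs.two hs.p_mem hqs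
      (dvd_mul_left p N) fun hd => hpN ((Nat.mul_dvd_mul_iff_right hpp.pos).mp (by rwa [← sq]))
  · rw [Finset.mem_insert, not_or] at hln
    exact TW.isUnramifiedAt_baseChange (L'.E i).Q.ext_local ((L'.E i).P.unramified l hl
      (fun hd => (hl.dvd_mul.mp hd).elim (fun h' => hln.2 (hram l hl h'))
        fun h' => hln.1 ((Nat.prime_dvd_prime_iff_eq hl hpp).mp h')) hln.1)
  · obtain ⟨hlN, hl2, hlq⟩ := hram1 l hl hlp hne
    refine TW.isUnipotentOnInertiaAt_baseChange (L'.E i).Q.ext_local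
      ((L'.E i).P.unipotent hpS hs.p_mem hlp hne (hlN.mul_right p) (fun hd => hl2 ?_)
        fun k hk => absurd hk (hlq k))
    exact ((Nat.coprime_primes hlp hpp).mpr hne).pow_left 2 |>.dvd_of_dvd_mul_right hd

end Fermat.Agent.Raising.Modular
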