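/-
The top level over the levels of a raising.
-/
import Fermat.Agent.Raising.Modular.Levels
import Fermat.Agent.Raising.Modular.TopLevel

/-!
# The top level of the last step over the levels of a raising

`exists_lastTop`: over coordinates of `N₀ q₀ ⋯ q_{m-1} p` without auxiliary primes, the level
`raiseLev m · p` in coordinates at the system of a `RaiseLevels`.
-/

noncomputable section

namespace Fermat.Agent.Raising.Modular

open scoped MatrixGroups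
open CongruenceSubgroup IsLocalRing Polynomial Fermat.Agent.Grp Fermat.Agent.Ihara
  Fermat.Agent.LevelLowering

variable {O : Type} [CommRing O] [IsDomain O] [IsDiscreteValuationRing O]
  [IsAdicComplete (maximalIdeal O) O] [Finite (ResidueField O)] [CharZero O]
  {p : ℕ} [Fact p.Prime] {ρbar : ResidualGaloisRep (ResidueField O)}
  {bbar : Module.Basis (Fin 2) (ResidueField O) ρbar.V} {m D : ℕ}
  {P : Fin m → RaisedPrime p ρbar bbar} {N₀ : ℕ} [NeZero N₀] {S₀ : Finset ℕ} {c₀ : ℕ → O}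
  {d : ℕ → ℕ} {Tm : ∀ j, ℕ → Matrix (Fin (d j)) (Fin (d j)) O} {qv lv : Fin D → ℕ}
  [∀ i, NeZero (qv i)] {K : Type} [Field K] [Algebra O K]

omit [IsAdicComplete (maximalIdeal O) O] [Finite (ResidueField O)] [CharZero O] [NeZero N₀]
  [∀ (i : Fin D), NeZero (qv i)] in
/-- `p` stays outside the level. -/
theorem not_dvd_raiseLev (hp : p ∈ S₀) (hpN₀ : ¬ p ∣ N₀) (hqv : ∀ i, (qv i).Prime)
    (hqvS : ∀ i, qv i ∉ S₀) (hPp : ∀ i, (P i).q ≠ p) (j : ℕ) :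
    ¬ p ∣ raiseLev N₀ P qv j := fun h => by
  rcases prime_dvd_raiseLev hqv Fact.out h with h | ⟨i, hi⟩ | ⟨i, -, hi⟩
  · exact hpN₀ h
  · exact hqvS i (hi ▸ hp)
  · exact hPp i hi

omit [IsAdicComplete (maximalIdeal O) O] [Finite (ResidueField O)] [CharZero O] [Fact (Nat.Prime p)]
  [NeZero N₀] [∀ (i : Fin D), NeZero (qv i)] in
/-- `p` is outside the excluded primes of the algebra of the level. -/
theorem notMem_raiseS₁ (h : ¬ p ∣ raiseLev N₀ P qv m) : p ∉ raiseS₁ N₀ P S₀ qv m := fun hm =>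
  h (Finset.mem_filter.mp hm).2

variable [NeZero p]

/-- **The top level of the last step in coordinates.** -/
theorem exists_lastTop [CharZero K] [IsAlgClosed K] [Algebra (FractionRing O) K]
    [IsScalarTower O (FractionRing O) K] (Ls : RaiseLevels K P N₀ S₀ c₀ d Tm qv lv)
    (hs : SysHyp p ρbar S₀ c₀) (hqv : ∀ i, (qv i).Prime) (hqvS : ∀ i, qv i ∉ S₀)
    (hN₀S : ∀ l : ℕ, l.Prime → l ∣ N₀ → l ∈ S₀) (hPS : ∀ i, (P i).q ∈ S₀)
    (hlv : ∀ i, 1 ≤ lv i) (hdvd : ∀ i, p ^ lv i ∣ qv i - 1) {M : ℕ} [NeZero M]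
    (hM : M = N₀ * ∏ i ∈ Finset.univ.filter (fun i : Fin m => (i : ℕ) < m), (P i).q)
    {dp : ℕ} (b₀ : Fin dp → clH O (M * p))
    (hb₀ : ∀ i, (baseIdem O (M * p) (goodSet S₀) (sysOf c₀)).1 (b₀ i) = b₀ i)
    (hb₀free : ∀ x, (baseIdem O (M * p) (goodSet S₀) (sysOf c₀)).1 x = x →
      ∃! b : Fin dp → O, ∑ i, b i • b₀ i = x)
    (Tp : ℕ → Matrix (Fin dp) (Fin dp) O)
    (hTm : ∀ (ℓ : goodSet S₀) j,
      baseGen O (M * p) (goodSet S₀) ℓ (b₀ j) = ∑ i, Tp (ℓ.1 : ℕ) i j • b₀ i) :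
    ∃ (S₁' : Finset ℕ) (hNS : ∀ l : ℕ, l.Prime → l ∣ raiseLev N₀ P qv m * p → l ∈ raiseS S₀ qv)
      (hNS₁ : ∀ l : ℕ, l.Prime → l ∣ raiseLev N₀ P qv m * p → l ∈ S₁'),
      S₁' ⊆ raiseS S₀ qv ∧ p ∈ S₁' ∧
      Nonempty (PartLevel qv (Degen.liftPsi (psiSeq Ls.Ψ (qAt P) m) p)
        (Degen.liftPsi_surjective _ p (psiSeq_surjective Ls.hΨ m))
        (Degen.neg_one_mem_lift _ p (psiSeq_neg Ls.hneg m)) S₀ (raiseS S₀ qv) S₁' hNS hNS₁
        (topSys qv Ls.α (sysOf c₀)) K dp Tp) := by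
  classical
  have hpp : p.Prime := Fact.out
  have hmem : ∀ l : ℕ, l.Prime → l ∣ raiseLev N₀ P qv m * p → l ∈ raiseS S₀ qv := fun l hl hd =>
    (hl.dvd_mul.mp hd).elim (Ls.mem m l hl) fun h =>
      Finset.mem_union_left _ (((Nat.prime_dvd_prime_iff_eq hl hpp).mp h).symm ▸ hs.p_bad)
  choose β hne hαβ hsum using Ls.roots
  refine ⟨(raiseS S₀ qv).filter (· ∣ raiseLev N₀ P qv m * p), hmem,
    fun l hl hd => Finset.mem_filter.mpr ⟨hmem l hl hd, hd⟩, Finset.filter_subset _ _,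
    Finset.mem_filter.mpr ⟨Finset.mem_union_left _ hs.p_bad, dvd_mul_left p _⟩, ?_⟩
  refine exists_topPartLevel (Ls.twAt m) (psiSeq_surjective Ls.hΨ m) (psiSeq_neg Ls.hneg m) (M := M)
    ?_ ?_ hlv hdvd (Ls.trAt m) S₀ _ _ _ _ Finset.subset_union_left hqvS
    (fun i => Finset.mem_union_right _ (Finset.mem_image.mpr ⟨i, Finset.mem_univ _, rfl⟩))
    hs Ls.α β hαβ hne (fun i => (hsum i).symm) K b₀ hb₀ hb₀free Tp hTm
  · show levelSeq (N₀ * ∏ i, qv i) (qAt P) m = M * ∏ i, qv i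
    rw [levelSeq_mul, hM, levelSeq_qAt]
  · intro i hd
    rw [hM] at hd
    rcases (hqv i).dvd_mul.mp hd with h | h
    · exact hqvS i (hN₀S _ (hqv i) h)
    · obtain ⟨k, -, hk⟩ := ((hqv i).prime.dvd_finsetProd_iff _).mp h
      exact hqvS i ((Nat.prime_dvd_prime_iff_eq (hqv i) (P k).prime).mp hk ▸ hPS k)

end Fermat.Agent.Raising.Modular
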