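/-
Local behaviour of the points of a level in coordinates.
-/
import Fermat.Agent.LevelLowering.TWEigenPoint
import Fermat.Agent.Raising.Coeff.BaseChange
import Fermat.Agent.Raising.Modular.OpLevelOf
import Fermat.Agent.TW.BaseChange

/-!
# The points of a level in coordinates

The representations at the refined points of a `PartLevel` are unramified outside the level,
unipotent at the primes dividing it once, flat or strictly ordinary at `p`; an eigencharacter at a
character of the diamonds has the kernel of a point (`PartLevel.tw_point`).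
-/

noncomputable section

namespace Fermat.Agent.Raising.Modular

open scoped MatrixGroups IsMulCommutative
open CongruenceSubgroup IsLocalRing Polynomial Fermat.Agent.Grp Fermat.Agent.Ihara
  Fermat.Agent.LevelLowering

variable {O : Type} [CommRing O] [IsDomain O] [IsDiscreteValuationRing O]
  [IsAdicComplete (maximalIdeal O) O] [Finite (ResidueField O)] [CharZero O]
  {p r : ℕ} [Fact p.Prime] {lv : Fin r → ℕ} {qs : Fin r → ℕ} {N : ℕ} [NeZero N]
  {hN : ∀ i, qs i ∣ N} {π : ∀ i, (ZMod (qs i))ˣ →* Multiplicative (ZMod (p ^ lv i))}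
  {Ψ : (ZMod N)ˣ →* DiaGroup p lv} {hΨ : Function.Surjective Ψ}
  {hneg : (-1 : SL(2, ℤ)) ∈ GammaPsi Ψ} {S₀ S S₁ : Finset ℕ}
  {hNS : ∀ l : ℕ, l.Prime → l ∣ N → l ∈ S} {hNS₁ : ∀ l : ℕ, l.Prime → l ∣ N → l ∈ S₁}
  {a : Nat.Primes → ResidueField O} {K : Type} [Field K] [Algebra O K]
  {d : ℕ} {Tm : ℕ → Matrix (Fin d) (Fin d) O}

omit [Finite (ResidueField O)] [CharZero O] in
/-- The refined value of a diamond is the extension of its value at the point. -/
theorem ev₁_dia (E : AtResidualPrime.EigenPoint (qs := qs) Ψ hΨ hneg S hNS a S₁ K) (hS₁ : S₁ ⊆ S)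
    (δ : DiaGroup p lv) :
    E.Q.ev₁ (levelElt O Ψ hΨ hneg (goodSet S₁) (.inr δ)) =
      E.Q.ext (E.P.ev (levelElt O Ψ hΨ hneg (goodSet S) (.inr δ))) := by
  rw [← ev₁_inclAlg E hS₁]
  exact congrArg E.Q.ev₁ (Subtype.ext rfl)

omit [Finite (ResidueField O)] [CharZero O] in
/-- Unipotence descends to the ring of the point. -/
theorem unipotent_of_ρ (E : AtResidualPrime.EigenPoint (qs := qs) Ψ hΨ hneg S hNS a S₁ K) {l : ℕ}
    (h : E.Q.ρ.IsUnipotentOnInertiaAt l) : E.P.H.ρ.IsUnipotentOnInertiaAt l := by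
  intro A hA σ hσ
  refine Polynomial.map_injective E.Q.ext.toRingHom E.Q.ext_inj ?_
  rw [← E.Q.charpoly_ρ σ, h A hA σ hσ]
  simp

namespace PartLevel

variable (L : PartLevel qs Ψ hΨ hneg S₀ S S₁ hNS hNS₁ a K d Tm) (i : L.κ)

omit [Finite (ResidueField O)] [CharZero O] in
/-- A point is unramified outside the level and `p`. -/
theorem unramified_ρ {l : ℕ} (hl : l.Prime) (hlN : ¬ l ∣ N) (hlp : l ≠ p) :
    (L.E i).Q.ρ.IsUnramifiedAt l :=
  TW.isUnramifiedAt_baseChange _ ((L.E i).P.unramified l hl hlN hlp)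

omit [Finite (ResidueField O)] [CharZero O] in
/-- A point is unipotent at a prime dividing the level once, prime to the auxiliary primes. -/
theorem unipotent_ρ (hpS : p ∈ S) (hp : (p : O) ∈ maximalIdeal O) {l : ℕ} (hl : l.Prime)
    (hlp : l ≠ p) (hlN : l ∣ N) (hl2 : ¬ l ^ 2 ∣ N) (hlq : ∀ k, qs k ≠ l) :
    (L.E i).Q.ρ.IsUnipotentOnInertiaAt l :=
  TW.isUnipotentOnInertiaAt_baseChange _
    ((L.E i).P.unipotent hpS hp hl hlp hlN hl2 fun k hk => absurd hk (hlq k))

omit [Finite (ResidueField O)] [CharZero O] in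
/-- A point trivial at an auxiliary prime is unipotent there. -/
theorem unipotent_qs (h : IsTWLevel hN π Ψ) (hpS : p ∈ S) (hp : (p : O) ∈ maximalIdeal O)
    (k : Fin r) (hk : qs k ≠ p) (htriv : TrivialAt Ψ hΨ hneg S (L.E i).P.ev k) :
    (L.E i).Q.ρ.IsUnipotentOnInertiaAt (qs k) :=
  TW.isUnipotentOnInertiaAt_baseChange _
    ((L.E i).P.unipotent hpS hp (h.prime k) hk (hN k) (fun h2 => h.once k (by rwa [← pow_two]))
      fun k' hk' => by
        obtain rfl := h.inj hk'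
        exact htriv)

omit [Finite (ResidueField O)] [CharZero O] in
/-- A point is flat at `p` prime to the level. -/
theorem flat_ρ (hpS : p ∈ S) (hp : (p : O) ∈ maximalIdeal O) (hpN : ¬ p ∣ N) :
    (L.E i).Q.ρ.IsFlatAt p :=
  Coeff.isFlatAt_baseChange_of_finite _ ((L.E i).P.flat hpS hp hpN)

omit [Finite (ResidueField O)] [CharZero O] in
/-- A point is strictly ordinary at `p` dividing the level once, when the eigensystems with the
residual system are. -/
theorem strict_ρ {T : Finset ℕ} (hT : T ⊆ S) {c₀ : ℕ → O}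
    (hc₀ : ∀ (ℓ : ℕ) (hℓ : ℓ.Prime), ℓ ∉ S → a ⟨ℓ, hℓ⟩ = residue O (c₀ ℓ))
    (hqp : ∀ k, qs k ≠ p) (hpN : p ∣ N) (hp2 : ¬ p ^ 2 ∣ N)
    (hstrict : ∀ {R : Type} [CommRing R] [IsDomain R] [IsDiscreteValuationRing R]
      [IsAdicComplete (maximalIdeal R) R] [CharZero R] [Finite (ResidueField R)] [Algebra O R]
      [IsLocalHom (algebraMap O R)] {M : ℕ} [NeZero M], p ∣ M → ¬ p ^ 2 ∣ M →
      ∀ {S' : Finset ℕ} (hMS : ∀ l, l.Prime → l ∣ M → l ∈ S'), T ⊆ S' →
      ∀ (H : Attach.HeckeRep M (↑S' : Set ℕ) R R),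
        (∀ (ℓ : ℕ) (hℓ : ℓ.Prime) (hℓS : ℓ ∉ S'),
          H.π (CuspForm.heckeAlgebra.T hℓ (fun h => hℓS (hMS ℓ hℓ h)) hℓS) -
            algebraMap O R (c₀ ℓ) ∈ maximalIdeal R) →
        H.ρ.IsStrictOrdinaryAt p) :
    (L.E i).Q.ρ.IsStrictOrdinaryAt p := by
  have hpp : p.Prime := Fact.out
  refine TW.isStrictOrdinaryAt_baseChange _
    (hstrict (((L.E i).P.dvd_iff p hpp).mpr hpN)
      (fun h => hp2 (((L.E i).P.sq_dvd p hpp fun k hk => absurd hk (hqp k)).mp h))
      (L.E i).P.level_mem hT (L.E i).P.H fun ℓ hℓ hℓS => ?_)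
  rw [← residue_eq_zero_iff, map_sub, sub_eq_zero, (L.E i).P.π_T ℓ hℓ hℓS,
    residue_ev_twGood Ψ hΨ hneg S hNS a (L.E i).P.ev (L.E i).P.ev_idem ⟨ℓ, hℓ⟩ hℓS, hc₀ ℓ hℓ hℓS,
    ← ResidueField.map_residue]

variable {K' : Type} [Field K'] [IsAlgClosed K'] [Algebra O K']

omit [Finite (ResidueField O)] [CharZero O] in
/-- An eigencharacter at a character of the diamonds has the kernel of a point, with the same
trivial auxiliary primes. -/
theorem exists_point_of_eigenchar (hS₁ : S₁ ⊆ S) (hinjO : Function.Injective (algebraMap O K'))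
    (φ : DiaCoords O p lv →ₐ[O] K') (e : levelAlg O Ψ hΨ hneg (goodSet S₁) →+* K')
    (hw : ∃ w : Fin d → K', w ≠ 0 ∧ ∀ z, ((L.act z).map φ).mulVec w = e z • w) :
    ∃ i : L.κ, (∀ z, e z = 0 ↔ (L.E i).Q.ev₁ z = 0) ∧
      ∀ k, φ (diaX O p lv k) = 0 ↔ TrivialAt Ψ hΨ hneg S (L.E i).P.ev k := by
  classical
  obtain ⟨w, hw0, hw⟩ := hw
  have : Algebra.IsIntegral O (levelAlg O Ψ hΨ hneg (goodSet S₁)) :=
    haveI := finite_levelAlg O Ψ hΨ hneg (goodSet S₁)
    Algebra.IsIntegral.of_finite O _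
  have huniq : ∀ {u v : K'}, u • w = v • w → u = v := fun h => smul_left_injective K' hw0 h
  let θ : levelAlg O Ψ hΨ hneg (goodSet S₁) →ₐ[O] K' :=
    { e with
      commutes' := fun o => huniq (by
        show e (algebraMap O _ o) • w = _
        rw [← hw, AlgHom.commutes, Matrix.algebraMap_eq_diagonal,
          Matrix.diagonal_map (map_zero φ)]
        ext j
        simp [Matrix.mulVec_diagonal]) }
  have hθ : ∀ z, θ z = e z := fun _ => rfl
  obtain ⟨i, hi⟩ := exists_ker_eq hinjO (fun i => fun x y h => (L.E i).P.inj ((L.E i).Q.ext_inj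
      (by rwa [AlgHom.commutes, AlgHom.commutes]))) (fun i => (L.E i).Q.ev₁) θ fun z hz =>
    huniq (by
      rw [hθ, ← hw, (L.ker_iff z).mpr hz, Matrix.map_zero _ (map_zero φ), Matrix.zero_mulVec,
        zero_smul])
  have hone : ∀ δ, φ (diaClass δ) = 1 ↔
      (L.E i).P.ev (levelElt O Ψ hΨ hneg (goodSet S) (.inr δ)) = 1 := fun δ => by
    have hd : θ (levelElt O Ψ hΨ hneg (goodSet S₁) (.inr δ)) = φ (diaClass δ) := huniq (by
      rw [hθ, ← hw, L.act_dia, Matrix.scalar_apply, Matrix.diagonal_map (map_zero φ)]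
      ext j
      simp [Matrix.mulVec_diagonal])
    rw [← hd, show θ (levelElt O Ψ hΨ hneg (goodSet S₁) (.inr δ)) = 1 ↔
        (L.E i).Q.ev₁ (levelElt O Ψ hΨ hneg (goodSet S₁) (.inr δ)) = 1 from
      eq_one_iff_of_ker θ.toRingHom (L.E i).Q.ev₁.toRingHom hi _, ev₁_dia (L.E i) hS₁]
    exact map_eq_one_iff _ (L.E i).Q.ext_inj
  refine ⟨i, hi, fun k => ?_⟩
  have hgen : diaClass (diaGen p lv k) = (1 : DiaCoords O p lv) + diaX O p lv k := by
    rw [diaClass, toDiaQuot_gen]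
  constructor
  · intro h x
    refine (hone _).mp ?_
    have hg : φ (diaClass (diaGen p lv k)) = 1 := by rw [hgen, map_add, map_one, h, add_zero]
    rw [diaIncl_eq_diaGen_pow, diaClass, map_pow, map_pow, map_pow]
    rw [diaClass] at hg
    rw [hg, one_pow]
  · intro h
    have h1 := (hone _).mpr (h (Multiplicative.ofAdd 1))
    rw [show diaIncl k (Multiplicative.ofAdd 1) = diaGen p lv k from rfl, hgen, map_add,
      map_one] at h1
    exact add_eq_left.mp h1

omit [Finite (ResidueField O)] [CharZero O] in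
/-- **An eigencharacter at a character of the diamonds comes from a point**, unipotent at the
auxiliary primes where the character is trivial, not at the one supporting it. -/
theorem tw_point (h : IsTWLevel hN π Ψ) (hS₁ : S₁ ⊆ S) (hpS : p ∈ S)
    (hp : (p : O) ∈ maximalIdeal O) (hqp : ∀ k, qs k ≠ p)
    (hinjO : Function.Injective (algebraMap O K'))
    (φ : DiaCoords O p lv →ₐ[O] K') (e : levelAlg O Ψ hΨ hneg (goodSet S₁) →+* K')
    (hw : ∃ w : Fin d → K', w ≠ 0 ∧ ∀ z, ((L.act z).map φ).mulVec w = e z • w) :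
    ∃ i : L.κ, (∀ z, e z = 0 ↔ (L.E i).Q.ev₁ z = 0) ∧
      (∀ k, φ (diaX O p lv k) = 0 → (L.E i).Q.ρ.IsUnipotentOnInertiaAt (qs k)) ∧
      ∀ k, (∀ k', k' ≠ k → φ (diaX O p lv k') = 0) →
        IsPrimitiveRoot (1 + φ (diaX O p lv k)) p →
          ¬ (L.E i).Q.ρ.IsUnipotentOnInertiaAt (qs k) := by
  have hpt := L.exists_point_of_eigenchar hS₁ hinjO φ e hw
  obtain ⟨i, hi, htriv⟩ := hpt
  refine ⟨i, hi, fun k hk => L.unipotent_qs i h hpS hp k (hqp k) ((htriv k).mp hk),
    fun k hk hprim hu => ?_⟩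
  refine (L.E i).P.not_unipotent k (fun k' hk' => (htriv k').mp (hk k' hk')) (fun ht => ?_)
    (unipotent_of_ρ (L.E i) hu)
  rw [(htriv k).mpr ht, add_zero] at hprim
  exact (Fact.out : p.Prime).ne_one (hprim.eq_orderOf.trans orderOf_one)

end PartLevel

end Fermat.Agent.Raising.Modular

end
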