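/-
The inputs of the last step over the levels of a raising.
-/
import Fermat.Agent.Raising.Coeff.BaseChange
import Fermat.Agent.Raising.Modular.LastInputsOf
import Fermat.Agent.Raising.Modular.LastTop
import Fermat.Agent.Raising.Modular.PointFacts
import Fermat.Agent.Raising.Modular.RaiseSteps

/-!
# The last step over the levels of a raising

`exists_lastInputs_levels`: a `RaiseInputs` on the levels of a `RaiseLevels` with `p` outside `N₀`,
and coordinates of `N₀ q₀ ⋯ q_{m-1} p`, give the inputs of the last step.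
-/

noncomputable section

namespace Fermat.Agent.Raising.Modular

open scoped MatrixGroups
open CongruenceSubgroup IsLocalRing Polynomial Fermat.Agent.Grp Fermat.Agent.Ihara
  Fermat.Agent.LevelLowering

local notation "Qbar" => AlgebraicClosure ℚ
local notation "GQ" => (AlgebraicClosure ℚ ≃ₐ[ℚ] AlgebraicClosure ℚ)

variable {O : Type} [CommRing O] [IsDomain O] [IsDiscreteValuationRing O]
  [IsAdicComplete (maximalIdeal O) O] [Finite (ResidueField O)] [CharZero O]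
  {p : ℕ} [Fact p.Prime] {ρbar : ResidualGaloisRep (ResidueField O)}
  {bbar : Module.Basis (Fin 2) (ResidueField O) ρbar.V} {m D : ℕ}
  {P : Fin m → RaisedPrime p ρbar bbar} {N₀ : ℕ} [NeZero N₀] {S₀ : Finset ℕ} {c₀ : ℕ → O}
  {d : ℕ → ℕ} {Tm : ∀ j, ℕ → Matrix (Fin (d j)) (Fin (d j)) O} {qv lv : Fin D → ℕ}
  [∀ i, NeZero (qv i)] {K : Type} [Field K] [CharZero K] [IsAlgClosed K] [Algebra O K]
  [Algebra (FractionRing O) K] [IsScalarTower O (FractionRing O) K] [NeZero p]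

/-- **The inputs of the last step over the levels of a raising.** -/
theorem exists_lastInputs_levels (Ls : RaiseLevels K P N₀ S₀ c₀ d Tm qv lv)
    (R : RaiseInputs K P (N₀.primeFactors.erase p) c₀ d Tm S₀ qv lv)
    (hRS : R.S = raiseS S₀ qv) (hRL : ∀ j, HEq (R.L j) (Ls.levelOp j))
    (hs : SysHyp p ρbar S₀ c₀) (hord : (GaloisRepAdic.ofResidualGaloisRep ρbar).IsOrdinaryAt p)
    (hinj : Function.Injective (algebraMap O K)) (hsq : Squarefree N₀) (hpN₀ : ¬ p ∣ N₀)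
    (hN₀S : ∀ l : ℕ, l.Prime → l ∣ N₀ → l ∈ S₀) (hqv : ∀ i, (qv i).Prime)
    (hqvS : ∀ i, qv i ∉ S₀) (hlv : ∀ i, 1 ≤ lv i) (hdvd : ∀ i, p ^ lv i ∣ qv i - 1)
    (hPS : ∀ i, (P i).q ∈ S₀) (hPinj : Function.Injective fun i => (P i).q)
    (hPN : ∀ i, ¬ (P i).q ∣ N₀) {M : ℕ} [NeZero M]
    (hM : M = N₀ * ∏ i ∈ Finset.univ.filter (fun i : Fin m => (i : ℕ) < m), (P i).q)
    {dp : ℕ} (b₀ : Fin dp → clH O (M * p))
    (hb₀ : ∀ i, (baseIdem O (M * p) (goodSet S₀) (sysOf c₀)).1 (b₀ i) = b₀ i)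
    (hb₀free : ∀ x, (baseIdem O (M * p) (goodSet S₀) (sysOf c₀)).1 x = x →
      ∃! b : Fin dp → O, ∑ i, b i • b₀ i = x)
    (Tp : ℕ → Matrix (Fin dp) (Fin dp) O)
    (hTm : ∀ (ℓ : goodSet S₀) j,
      baseGen O (M * p) (goodSet S₀) ℓ (b₀ j) = ∑ i, Tp (ℓ.1 : ℕ) i j • b₀ i) :
    Nonempty (LastInputs R dp Tp) := by
  classical
  obtain ⟨S', hsub, L', aug_x, upA, upB, downA, downB, up_comm, down_comm, up_inv, down_inv, tq,
    tq_ev, down_up, saturated, unramified, unipotent, tw_point⟩ := R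
  dsimp only at hRS hRL
  subst hRS
  have hL : ∀ j, L' j = Ls.levelOp j := fun j => eq_of_heq (hRL j)
  have hpS : p ∈ raiseS S₀ qv := Finset.mem_union_left _ hs.p_bad
  have hPp : ∀ i, (P i).q ≠ p := fun i => (P i).ne_p
  have hpN : ∀ j, ¬ p ∣ raiseLev N₀ P qv j := fun j => not_dvd_raiseLev hs.p_bad hpN₀ hqv hqvS hPp j
  obtain ⟨S₁', hNS', hNS₁', hsub', hpS₁', ⟨Lp⟩⟩ :=
    exists_lastTop Ls hs hqv hqvS hN₀S hPS hlv hdvd hM b₀ hb₀ hb₀free Tp hTm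
  have hbar : ∀ (ℓ : ℕ) (hℓ : ℓ.Prime), ℓ ∉ raiseS S₀ qv → ∀ A : ValuationSubring Qbar,
      A.LiesOverPrime ℓ → ∀ σ : GQ, A.IsFrobeniusAt σ ℓ → LinearMap.charpoly (ρbar.ρ σ) =
        X ^ 2 - C (topSys qv Ls.α (sysOf c₀) ⟨ℓ, hℓ⟩) * X + C ((ℓ : ResidueField O)) :=
    fun ℓ hℓ hℓS A hA σ hσ => by
      rw [Ls.sys_eq ℓ hℓ hℓS]
      exact hs.frob ℓ hℓ (fun hm => hℓS (Finset.mem_union_left _ hm)) A hA σ hσ
  have hflat : ∀ j, ∀ Lj, Lj = Ls.levelOp j → ∀ a : Lj.κ, (Lj.ρ a).IsFlatAt p := by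
    rintro j Lj rfl a
    exact Coeff.isFlatAt_baseChange_of_finite ((Ls.L j).E a).Q.ext_local
      (((Ls.L j).E a).P.flat hpS hs.p_mem (hpN j))
  have hordj : ∀ j, ∀ Lj, Lj = Ls.levelOp j → ∀ a : Lj.κ, HasOrdBases (Lj.ρ a) p := by
    rintro j Lj rfl a
    exact (AtResidualPrime.exists_ordBases_eigen ((Ls.L j).E a) hs.absIrr hbar hord
      (mem_raiseS₁ (Ls.mem j))
      (Ls.twAt j) hs.two (hpN j) hs.p_mem (raiseS₁_subset N₀ P S₀ qv j) hpS
      fun hm => hpN j (Finset.mem_filter.mp hm).2).1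
  refine exists_lastInputs _ (Ls.L m) Lp (raiseS₁_subset N₀ P S₀ qv m) hsub'
    (fun ℓ hℓS => Ls.sys_eq ℓ ℓ.2 hℓS) (hL m) (Ls.twAt m) hs hord hinj hqvS
    (notMem_raiseS₁ (hpN m)) hpS₁' (hpN m) (Ls.trAt m)
    (fun j a _ => hflat j _ (hL j) a) (fun j a _ => hordj j _ (hL j) a)
    (fun l hl hd => (Finset.mem_insert.mp (mem_of_dvd_raiseLev hqv hl hd)).resolve_left
      fun e => hpN m (e ▸ hd))
    (fun l h hl _ => dvd_once_of_mem hsq hqv hqvS hN₀S hPS hPinj hPN hl h) fun φ e hw => ?_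
  exact Lp.tw_point (isTWLevel_top (Ls.twAt m) fun i e' => hqvS i (e' ▸ hs.p_bad)) hsub' hpS
    hs.p_mem (fun i e' => hqvS i (e' ▸ hs.p_bad)) hinj φ e hw

end Fermat.Agent.Raising.Modular
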