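/-
The levels of the last step at `p` for a curve.
-/
import Fermat.Agent.LevelLowering.Semistable.Supply
import Fermat.Agent.Raising.Modular.CurveBases
import Fermat.Agent.Raising.Modular.CurveSys
import Fermat.Agent.Raising.Modular.Inputs
import Fermat.Agent.Raising.Modular.LastFacts
import Fermat.Agent.Raising.Modular.LastRaise
import Fermat.Agent.Raising.Modular.PointFacts

/-!
# `LastSupply`

Above a minimal level prime to `p` of a curve multiplicative at `p`, the levels raised at prescribed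
primes and then at `p`.
-/

noncomputable section

namespace Fermat.Agent.Raising.Modular

open IsLocalRing Polynomial WeierstrassCurve Fermat.Agent.LevelLowering
  Fermat.Agent.LevelLowering.Semistable

section

variable {O : Type} [CommRing O] [IsDomain O] [IsDiscreteValuationRing O]
    [IsAdicComplete (maximalIdeal O) O] [Finite (ResidueField O)] [CharZero O]
    {p : ℕ} [Fact p.Prime] {ρbar : ResidualGaloisRep (ResidueField O)}
    {bbar : Module.Basis (Fin 2) (ResidueField O) ρbar.V} {m D : ℕ}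
    {P : Fin m → RaisedPrime p ρbar bbar} {N₀ : ℕ} [NeZero N₀] {S₀ : Finset ℕ} {c₀ : ℕ → O}
    {d : ℕ → ℕ} {Tm : ∀ j, ℕ → Matrix (Fin (d j)) (Fin (d j)) O} {qv lv : Fin D → ℕ}
    [∀ i, NeZero (qv i)] {K : Type} [Field K] [CharZero K] [IsAlgClosed K] [Algebra O K]

omit [CharZero K] [Finite (ResidueField O)] [CharZero O] in
/-- **The local behaviour and the eigencharacters of the levels of a raising.** -/
theorem raiseFacts_of_levels (Ls : RaiseLevels K P N₀ S₀ c₀ d Tm qv lv) (hs : SysHyp p ρbar S₀ c₀)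
    (hqvS : ∀ i, qv i ∉ S₀) (hinjK : Function.Injective (algebraMap O K)) : RaiseFacts Ls := by
  have hpS : p ∈ raiseS S₀ qv := Finset.mem_union_left _ hs.p_bad
  have hqp : ∀ i, qv i ≠ p := fun i e => hqvS i (e ▸ hs.p_bad)
  refine ⟨fun j a l hl hlN hlp => (Ls.L j).unramified_ρ a hl hlN hlp,
    fun j a l hl hlp hlN hl2 hlq => (Ls.L j).unipotent_ρ a hpS hs.p_mem hl hlp hlN hl2 hlq,
    fun j φ e hw => (Ls.L j).tw_point (Ls.twAt j) (raiseS₁_subset N₀ P S₀ qv j) hpS hs.p_mem hqp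
      hinjK φ e hw⟩

end

section

variable {p : ℕ} [hp : Fact p.Prime] (C : Coeff.CoeffRing p) {W : WeierstrassCurve ℤ}
  [(W.map (Int.castRingHom ℚ)).IsElliptic] (K : Type) [Field K] [IsAlgClosed K] [CharZero K]
  [Algebra C.O K]

/-- **The levels of the last step exist.** -/
theorem lastSupply_of_minLevel (hp2 : p ≠ 2) (hΔ : W.Δ ≠ 0) (hss : W.IsSemistableModel)
    (hirr : W.ModRepIsIrreducible p) (hinjK : Function.Injective (algebraMap C.O K)) :
    LastSupply C W K := by
  intro M t _ hmin haux hpM hbad m P hP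
  have : NeZero p := ⟨hp.out.ne_zero⟩
  obtain ⟨B, hB⟩ := exists_curveBases C hp2 hΔ hss hirr (t := t) hmin P
  obtain ⟨Bp, -, -⟩ := exists_curveBaseP C hp2 hΔ hss hirr (t := t) hmin P
  refine ⟨B, Bp, hB, fun D n qv hqv => ?_⟩
  have : FaithfulSMul C.O K := (faithfulSMul_iff_algebraMap_injective C.O K).mpr hinjK
  let : Algebra (FractionRing C.O) K := FractionRing.liftAlgebra C.O K
  have : IsScalarTower C.O (FractionRing C.O) K := FractionRing.isScalarTower_liftAlgebra C.O K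
  have : ∀ i, NeZero (qv i) := fun i => ⟨(hqv.prime i).1.ne_zero⟩
  obtain ⟨lv, hlv⟩ := exists_twDepth (p := p) (n := n) fun i => ⟨(hqv.prime i).1, (hqv.prime i).2.2⟩
  refine ⟨lv, hlv, ?_⟩
  set N₀ := M * t with hN₀
  have hpt : ¬ p ∣ t := fun hd =>
    haux.ne_p ((Nat.prime_dvd_prime_iff_eq hp.out haux.prime).mp hd).symm
  have hpN₀ : ¬ p ∣ N₀ := fun hd => (hp.out.dvd_mul.mp hd).elim hpM hpt
  have hsq : Squarefree N₀ := hmin.squarefree_mul haux
  have hs := curve_sysHyp (C := C) hp2 hΔ hss hirr (raisedLevel N₀ P m)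
  have hbadj : ∀ j, levelBad p (raisedLevel N₀ P j) W = raiseBad N₀ P :=
    levelBad_raisedLevel_eq_raiseBad hΔ N₀ P hP
  have hN₀S : ∀ l : ℕ, l.Prime → l ∣ N₀ → l ∈ raiseBad N₀ P := fun l hl hd =>
    mem_raiseBad_of_dvd P hl hd
  have hPS : ∀ i, (P i).q ∈ raiseBad N₀ P := q_mem_raiseBad hΔ hP
  have hqvS : ∀ i, qv i ∉ raiseBad N₀ P := fun i => (hqv.prime i).2.1
  have hb := fun j => supplyBase_coords (B j) (hbadj j)
  obtain ⟨Ls⟩ := exists_raiseLevels (O := C.O) K (d := fun j => (B j).d) (Tm := fun j => (B j).Tm) P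
    (N₀ := N₀) hs hN₀S haux.prime (dvd_mul_left t M) (by have := haux.mod_twelve; omega) hPS
    (raisedLevel N₀ P) (fun j => rfl) (fun j => (B j).v) (fun j => (hb j).1) (fun j => (hb j).2.1)
    (fun j => (hb j).2.2) hqv.inj (fun i => (hqv.prime i).1) hqvS
    (fun i => Nat.one_le_of_lt (hlv i).1) (fun i => (hlv i).2.1) hqv.frob
  let R := raiseInputsOf Ls hs hsq hN₀S hP.inj hP.not_dvd hPS hqvS hinjK
    (raiseFacts_of_levels Ls hs hqvS hinjK)
  obtain ⟨hc1, hc2, hc3⟩ := supplyBase_coords Bp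
    ((levelBad_mul_self (raisedLevel N₀ P m)).trans (hbadj m))
  exact ⟨R, rfl, exists_lastInputs_levels Ls R rfl (fun j => HEq.rfl) hs
    (isOrdinaryAt_curveRbar_of_dvd C hp2 hΔ hbad hss hirr) hinjK hsq hpN₀ hN₀S
    (fun i => (hqv.prime i).1) hqvS (fun i => Nat.one_le_of_lt (hlv i).1) (fun i => (hlv i).2.1) hPS
    hP.inj hP.not_dvd (M := raisedLevel N₀ P m) rfl Bp.v hc1 hc2 Bp.Tm hc3⟩

end

end Fermat.Agent.Raising.Modular
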