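/-
The modular supply of the raising theorem.
-/
import Fermat.Agent.LevelLowering.Semistable.Supply
import Fermat.Agent.Raising.Modular.LastSupply

/-!
# The supply of the raising theorem

Above a minimal level with an auxiliary prime, the raised levels in coordinates and, at every choice
of Taylor–Wiles primes, their `RaiseInputs` with the condition at `p` of the minimal level: flat at
the levels prime to `p`, strictly ordinary when `p` divides the minimal level.
-/

noncomputable section

namespace Fermat.Agent.Raising.Modular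

open IsLocalRing Polynomial WeierstrassCurve Fermat.Agent.LevelLowering
  Fermat.Agent.LevelLowering.Semistable

variable {p : ℕ} [hp : Fact p.Prime] (C : Coeff.CoeffRing p) {W : WeierstrassCurve ℤ}
  [(W.map (Int.castRingHom ℚ)).IsElliptic]
  {K : Type} [Field K] [IsAlgClosed K] [CharZero K] [Algebra C.O K]

/-- **The levels of the raising.** -/
theorem raiseSupply (hp2 : p ≠ 2) (hΔ : W.Δ ≠ 0) (hss : W.IsSemistableModel)
    (hirr : W.ModRepIsIrreducible p) (hinjK : Function.Injective (algebraMap C.O K)) :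
    RaiseSupply C W K := by
  intro M t _ hmin ha m P hP
  obtain ⟨B, hB⟩ := exists_curveBases (M := M) (t := t) C hp2 hΔ hss hirr hmin P
  refine ⟨B, hB, fun D n qv hq => ?_⟩
  have : FaithfulSMul C.O K := (faithfulSMul_iff_algebraMap_injective C.O K).mpr hinjK
  let : Algebra (FractionRing C.O) K := FractionRing.liftAlgebra C.O K
  have : IsScalarTower C.O (FractionRing C.O) K := FractionRing.isScalarTower_liftAlgebra C.O K
  have : ∀ i, NeZero (qv i) := fun i => ⟨(hq.prime i).1.ne_zero⟩
  obtain ⟨lv, hlv⟩ := exists_twDepth (p := p) (n := n) fun i => ⟨(hq.prime i).1, (hq.prime i).2.2⟩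
  refine ⟨lv, hlv, ?_⟩
  have hs := curve_sysHyp (C := C) hp2 hΔ hss hirr (raisedLevel (M * t) P m)
  have hsq : Squarefree (M * t) := hmin.squarefree_mul ha
  have hN₀S : ∀ l : ℕ, l.Prime → l ∣ M * t → l ∈ raiseBad (M * t) P := fun l hl hd =>
    mem_raiseBad_of_dvd P hl hd
  have hPS : ∀ i, (P i).q ∈ raiseBad (M * t) P := q_mem_raiseBad hΔ hP
  have hqvS : ∀ i, qv i ∉ raiseBad (M * t) P := fun i => (hq.prime i).2.1
  have hqp : ∀ i, qv i ≠ p := fun i e => hqvS i (e ▸ hs.p_bad)
  have hb := fun j => supplyBase_coords (B j)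
    (levelBad_raisedLevel_eq_raiseBad hΔ (M * t) P hP j)
  have ht3 : t % 3 = 2 := by have := ha.mod_twelve; omega
  obtain ⟨Ls⟩ := exists_raiseLevels (O := C.O) K (d := fun j => (B j).d) (Tm := fun j => (B j).Tm) P
    (N₀ := M * t) hs hN₀S ha.prime (dvd_mul_left t M) ht3 hPS (raisedLevel (M * t) P)
    (fun j => rfl) (fun j => (B j).v) (fun j => (hb j).1) (fun j => (hb j).2.1)
    (fun j => (hb j).2.2) hq.inj (fun i => (hq.prime i).1) hqvS
    (fun i => Nat.one_le_of_lt (hlv i).1) (fun i => (hlv i).2.1) hq.frob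
  refine ⟨raiseInputsOf Ls hs hsq hN₀S hP.inj hP.not_dvd hPS hqvS hinjK
    (raiseFacts_of_levels Ls hs hqvS hinjK), rfl, fun j _ a => atPCond_of_aux ha ?_⟩
  have hpS : p ∈ raiseS (raiseBad (M * t) P) qv := Finset.mem_union_left _ hs.p_bad
  have hT : raiseBad (M * t) P ⊆ raiseS (raiseBad (M * t) P) qv := Finset.subset_union_left
  by_cases hpN : p ∣ M * t
  · have hlev : raiseLev (M * t) P qv j = raisedLevel (M * t) P j * ∏ i, qv i := by
      rw [raiseLev, levelSeq_mul, levelSeq_qAt]
      rfl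
    have hsq' : ¬ p ^ 2 ∣ raiseLev (M * t) P qv j := fun h2 => by
      rw [hlev] at h2
      have hcop : (p ^ 2).Coprime (∏ i, qv i) := (Nat.Coprime.prod_right fun i _ =>
        (Nat.coprime_primes hp.out (hq.prime i).1).mpr (hqp i).symm).pow_left 2
      exact Nat.squarefree_iff_prime_squarefree.mp (squarefree_raisedLevel (M * t) hsq P hP j) p
        hp.out (sq p ▸ hcop.dvd_of_dvd_mul_right h2)
    refine Or.inr ⟨hpN, (Ls.L j).strict_ρ a hT Ls.sys_eq hqp
      ((dvd_mul_of_dvd_left (hpN.mul_right _) _).trans (dvd_of_eq hlev.symm)) hsq'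
      fun {R} _ _ _ _ _ _ _ _ {L} _ hpL hp2L {S'} hMS _ H hcong =>
        strict_of_minLevel hp2 hΔ hss hirr hmin ha hpN hpL hp2L hMS H hcong⟩
  · refine Or.inl ⟨hpN, (Ls.L j).flat_ρ a hpS hs.p_mem fun hd => ?_⟩
    rcases prime_dvd_raiseLev Ls.tw.prime hp.out hd with h | ⟨i, h⟩ | ⟨i, -, h⟩
    · exact hpN h
    · exact hqp i h
    · exact (P i).ne_p h

end Fermat.Agent.Raising.Modular
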